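/-
S13 shared definitions (helper13, S13 lead).  EVERY S13 module imports this file and uses these
names; do not redefine `Qb`, `GQ`, `Tors`, `rawX`, `rawY`, `IsNodeModel`, `NodeSeq` elsewhere.

* `Qb`, `GQ`      : `AlgebraicClosure ℚ` and its Galois group over `ℚ`.
* `Tors P`        : `E[p](Qb)` for the Frey curve of `P`, as in the frozen statement.
* `rawX`, `rawY`  : the raw Weierstrass coordinates of an affine point (`0` at infinity);
                    S05's `ptX = 4 * rawX`, `ptY = 8 * rawY + 4 * rawX`.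
* `IsNodeModel v W m` : `W` is `y² + xy = x³ + a₂x² + a₄x` with `a₂` integral, `ord a₄ = m > 0`,
                    `1 + 4a₂` a unit and `2 ∈ 𝔪` (multiplicative reduction in residue char. 2).
* `NodeSeq a₄ b₂ p x` : the raw x-coordinates `x k` of the multiples `k • P` (`1 ≤ k ≤ p - 1`) of a
                    point of exact odd order `p` on `y² + xy = x³ + a₂x² + a₄x`, `b₂ = 1 + 4a₂`.
-/
import Fermat.Statements.S13
import Fermat.Agent.S05.Defs

set_option autoImplicit false
open WeierstrassCurve WeierstrassCurve.Affine WeierstrassCurve.Affine.Point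

namespace Fermat.Agent.S13

open Fermat.Agent.S05

/-- `Qbar`. -/
abbrev Qb := AlgebraicClosure ℚ

/-- the absolute Galois group of `ℚ`. -/
abbrev GQ := Qb ≃ₐ[ℚ] Qb

/-- `E[p](Qbar)` for the Frey curve, exactly as in the frozen statement. -/
noncomputable abbrev Tors (P : FreyPackage) :=
  Submodule.torsionBy ℤ (P.freyCurve⁄Qb).Point P.p

section Raw

variable {K : Type*} [Field K] {W : WeierstrassCurve K}

/-- raw `x`-coordinate of an affine point (`0` at infinity). -/
def rawX : W.toAffine.Point → K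
  | .zero => 0
  | .some x _ _ => x

/-- raw `y`-coordinate of an affine point (`0` at infinity). -/
def rawY : W.toAffine.Point → K
  | .zero => 0
  | .some _ y _ => y

theorem ptX_eq_four_mul_rawX (P : W.toAffine.Point) : ptX P = 4 * rawX P := by
  cases P <;> simp [ptX, rawX]

theorem ptY_eq (P : W.toAffine.Point) : ptY P = 8 * rawY P + 4 * rawX P := by
  cases P <;> simp [ptY, rawX, rawY]

end Raw

/-- `W` is `y² + xy = x³ + a₂x² + a₄x`, nodal modulo `𝔪`, in residue characteristic `2`. -/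
structure IsNodeModel {K : Type*} [Field K] (v : OrdFn K) (W : WeierstrassCurve K) (m : ℚ) :
    Prop where
  a₁ : W.a₁ = 1
  a₃ : W.a₃ = 0
  a₆ : W.a₆ = 0
  a₂ : v.Ge 0 W.a₂
  a₄ : v.HasOrd W.a₄ m
  pos : 0 < m
  b₂ : v.HasOrd (1 + 4 * W.a₂) 0
  two : v.Gt 0 (2 : K)

/-- `x k` (`1 ≤ k ≤ p - 1`) behave like the raw x-coordinates of the multiples `k • P` of a point
of exact odd order `p` on `y² + xy = x³ + a₂x² + a₄x` (with `b₂ = 1 + 4a₂`).
(S05's `MultSeq A B p X` is `NodeSeq (-(A*B)) (4*(B-A)) p X`; and `x = X/4` gives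
`NodeSeq (-(A*B)/16) (B-A) p x`.) -/
structure NodeSeq {K : Type*} [Field K] (a₄ b₂ : K) (p : ℕ) (x : ℕ → K) : Prop where
  nondeg : ∀ k, 1 ≤ k → k ≤ p - 1 → x k * (4 * x k ^ 2 + b₂ * x k + 4 * a₄) ≠ 0
  ne_one : ∀ k, 2 ≤ k → k ≤ p - 2 → x k ≠ x 1
  dbl : x 2 * (x 1 * (4 * x 1 ^ 2 + b₂ * x 1 + 4 * a₄)) = (x 1 ^ 2 - a₄) ^ 2
  sum : ∀ k, 2 ≤ k → k ≤ p - 2 →
    (x (k + 1) + x (k - 1)) * (x k - x 1) ^ 2 =
      2 * (x k + x 1) * (x k * x 1 + a₄) + b₂ * x k * x 1
  prod : ∀ k, 2 ≤ k → k ≤ p - 2 →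
    x (k + 1) * x (k - 1) * (x k - x 1) ^ 2 = (x k * x 1 - a₄) ^ 2
  symm1 : x (p - 1) = x 1
  symm2 : x (p - 2) = x 2

/-- a `MultSeq` in S05's normalised coordinate `X = 4x` is a `NodeSeq` in the raw coordinate. -/
theorem NodeSeq.of_multSeq {K : Type*} [Field K] {A B : K} {p : ℕ} {X : ℕ → K}
    (h2 : (2 : K) ≠ 0) (hM : MultSeq A B p X) :
    NodeSeq (-(A * B) / 16) (B - A) p (fun k => X k / 4) := by
  have h4 : (4 : K) ≠ 0 := by
    have : (4 : K) = 2 * 2 := by norm_num
    rw [this]; exact mul_ne_zero h2 h2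
  have h16 : (16 : K) ≠ 0 := by
    have : (16 : K) = 4 * 4 := by norm_num
    rw [this]; exact mul_ne_zero h4 h4
  refine ⟨?_, ?_, ?_, ?_, ?_, ?_, ?_⟩
  · intro k h1 hk
    have := hM.nondeg k h1 hk
    intro h0
    apply this
    have e : X k * (X k - A) * (X k + B) =
        16 * (X k / 4 * (4 * (X k / 4) ^ 2 + (B - A) * (X k / 4) + 4 * (-(A * B) / 16))) := by
      field_simp
      ring
    rw [e, h0, mul_zero]
  · intro k h1 hk h
    apply hM.ne_one k h1 hk
    have := congrArg (fun t => 4 * t) h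
    simpa [mul_div_cancel₀ _ h4] using this
  · have := hM.dbl
    field_simp
    linear_combination 256 * this
  · intro k h1 hk
    have := hM.sum k h1 hk
    field_simp
    linear_combination 16 * this
  · intro k h1 hk
    have := hM.prod k h1 hk
    field_simp
    linear_combination 256 * this
  · simp only [hM.symm1]
  · simp only [hM.symm2]

end Fermat.Agent.S13
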