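import Mathlib
import Fermat.Prelude.Def_FLTPrelim_Ramification
import Fermat.Agent.S54.Helper96Frob

/-!
S13, module GLOBAL (helper27): an open normal subgroup of `Gal(ℚ̄/ℚ)` that contains, for every
prime `l`, the inertia group of some valuation subring of `ℚ̄` over `l`, is everything
(Minkowski: `ℚ` has no nontrivial extension unramified at all primes).
-/

set_option autoImplicit false

open scoped Pointwise NumberField

namespace Fermat.Agent.S13

section Generic

variable {L : Type*} [Field L] (K : Type*) [Field K] [Algebra K L] (A : ValuationSubring L)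

/-- Membership in the inertia subgroup: decomposition + trivial action on the residue field. -/
theorem glob_mem_inertiaSubgroupIn {σ : L ≃ₐ[K] L} (hdec : σ ∈ A.decompositionSubgroup K)
    (h : ∀ x : L, x ∈ A → σ x - x ∈ A.nonunits) : σ ∈ A.inertiaSubgroupIn K := by
  refine Subgroup.mem_map.mpr ⟨⟨σ, hdec⟩, ?_, rfl⟩
  rw [ValuationSubring.inertiaSubgroup, MonoidHom.mem_ker]
  ext y
  obtain ⟨x, rfl⟩ := IsLocalRing.residue_surjective y
  show (⟨σ, hdec⟩ : A.decompositionSubgroup K) • IsLocalRing.residue A x = IsLocalRing.residue A x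
  rw [← IsLocalRing.ResidueField.residue_smul, ← sub_eq_zero, ← map_sub,
    IsLocalRing.residue_eq_zero_iff]
  exact ValuationSubring.coe_mem_nonunits_iff.mp (h x x.2)

end Generic

section Qbar

local notation "Qb" => AlgebraicClosure ℚ
local notation "OQb" => integralClosure ℤ (AlgebraicClosure ℚ)
local notation "GQ" => AlgebraicClosure ℚ ≃ₐ[ℚ] AlgebraicClosure ℚ

attribute [local instance] Fermat.Agent.S54.h96_isAlgClosure_rat
  Fermat.Agent.S54.h96_galActionInt Fermat.Agent.S54.h96_galActionInt_smulCommClass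

/-- Algebraic integers lie in every valuation subring. -/
theorem glob_int_mem (A : ValuationSubring Qb) (b : OQb) : (b : Qb) ∈ A := by
  have h : IsIntegral A (b : Qb) := b.2.tower_top
  obtain ⟨y, hy⟩ := IsIntegrallyClosed.isIntegral_iff.mp h
  rw [← hy]
  exact y.2

/-- The inclusion of the algebraic integers into a valuation subring. -/
noncomputable def glob_incl (A : ValuationSubring Qb) : OQb →+* A where
  toFun b := ⟨(b : Qb), glob_int_mem A b⟩
  map_one' := rfl
  map_mul' _ _ := rfl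
  map_zero' := rfl
  map_add' _ _ := rfl

/-- The prime of the ring of algebraic integers cut out by a valuation subring. -/
noncomputable def glob_prime (A : ValuationSubring Qb) : Ideal OQb :=
  Ideal.comap (glob_incl A) (IsLocalRing.maximalIdeal A)

instance glob_prime_isPrime (A : ValuationSubring Qb) : (glob_prime A).IsPrime :=
  Ideal.comap_isPrime _ _

theorem glob_mem_prime_iff (A : ValuationSubring Qb) (b : OQb) :
    b ∈ glob_prime A ↔ (b : Qb) ∈ A.nonunits := by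
  rw [glob_prime, Ideal.mem_comap, ← ValuationSubring.coe_mem_nonunits_iff]
  rfl

theorem glob_natCast_mem_prime (A : ValuationSubring Qb) (l : ℕ) (hlA : A.LiesOverPrime l) :
    (l : OQb) ∈ glob_prime A := by
  rw [glob_mem_prime_iff]
  have : (((l : OQb) : OQb) : Qb) = (l : Qb) := by simp
  rw [this]
  exact hlA

theorem glob_val_le_one (A : ValuationSubring Qb) (b : OQb) : A.valuation (b : Qb) ≤ 1 :=
  (ValuationSubring.valuation_le_one_iff A _).mpr (glob_int_mem A b)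

theorem glob_val_eq_one (A : ValuationSubring Qb) (b : OQb) (hb : b ∉ glob_prime A) :
    A.valuation (b : Qb) = 1 := by
  refine le_antisymm (glob_val_le_one A b) (not_lt.mp fun h => hb ?_)
  rw [glob_mem_prime_iff]
  exact (ValuationSubring.mem_nonunits_iff A).mpr h

theorem glob_val_lt_one (A : ValuationSubring Qb) (b : OQb) (hb : b ∈ glob_prime A) :
    A.valuation (b : Qb) < 1 :=
  (ValuationSubring.mem_nonunits_iff A).mp ((glob_mem_prime_iff A b).mp hb)

theorem glob_exists_frac (A : ValuationSubring Qb) (l : ℕ) (hl : l.Prime)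
    (hlA : A.LiesOverPrime l) (x : Qb) (hx : x ∈ A) :
    ∃ b s : OQb, s ∉ glob_prime A ∧ x * (s : Qb) = (b : Qb) := by
  have hxalg : IsAlgebraic ℤ x :=
    (IsFractionRing.isAlgebraic_iff ℤ ℚ Qb).mpr (Algebra.IsAlgebraic.isAlgebraic x)
  obtain ⟨b, hb, s, hs, hsV, hxs⟩ := Fermat.Agent.S54.h96_exists_frac A l hl hlA x hx hxalg
  exact ⟨⟨b, hb⟩, ⟨s, hs⟩, fun hsQ => hsV ((glob_mem_prime_iff A _).mp hsQ), hxs⟩

/-- An automorphism stabilising the prime preserves the valuation subring. -/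
theorem glob_map_mem (A : ValuationSubring Qb) (l : ℕ) (hl : l.Prime) (hlA : A.LiesOverPrime l)
    (σ : GQ) (hstab : ∀ b : OQb, σ • b ∈ glob_prime A ↔ b ∈ glob_prime A)
    (x : Qb) (hx : x ∈ A) : σ x ∈ A := by
  obtain ⟨b, s, hs, hxs⟩ := glob_exists_frac A l hl hlA x hx
  have h1 : σ x * ((σ • s : OQb) : Qb) = ((σ • b : OQb) : Qb) := by
    rw [Fermat.Agent.S54.h96_galActionInt_coe, Fermat.Agent.S54.h96_galActionInt_coe,
      ← map_mul, hxs]
  have hs' : A.valuation ((σ • s : OQb) : Qb) = 1 :=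
    glob_val_eq_one A _ (fun hmem => hs ((hstab s).mp hmem))
  rw [← ValuationSubring.valuation_le_one_iff]
  have := congrArg A.valuation h1
  rw [map_mul, hs', mul_one] at this
  rw [this]
  exact glob_val_le_one A _

/-- **Inertia criterion on algebraic integers**: an automorphism that stabilises the prime
`glob_prime A` and acts trivially modulo it lies in the inertia subgroup of `A`. -/
theorem glob_mem_inertia_of_int (A : ValuationSubring Qb) (l : ℕ) (hl : l.Prime)
    (hlA : A.LiesOverPrime l) (σ : GQ)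
    (hstab : ∀ b : OQb, σ • b ∈ glob_prime A ↔ b ∈ glob_prime A)
    (hin : ∀ b : OQb, σ • b - b ∈ glob_prime A) : σ ∈ A.inertiaSubgroupIn ℚ := by
  have hstab' : ∀ b : OQb, σ⁻¹ • b ∈ glob_prime A ↔ b ∈ glob_prime A := by
    intro b
    rw [← hstab (σ⁻¹ • b), smul_inv_smul]
  have hdec : σ ∈ A.decompositionSubgroup ℚ := by
    rw [MulAction.mem_stabilizer_iff]
    ext x
    rw [ValuationSubring.mem_pointwise_smul_iff_inv_smul_mem]
    constructor
    · intro hx
      have := glob_map_mem A l hl hlA σ hstab _ hx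
      rwa [AlgEquiv.smul_def, ← AlgEquiv.mul_apply, mul_inv_cancel, AlgEquiv.one_apply] at this
    · intro hx
      exact glob_map_mem A l hl hlA σ⁻¹ hstab' x hx
  refine glob_mem_inertiaSubgroupIn ℚ A hdec ?_
  intro x hx
  obtain ⟨b, s, hs, hxs⟩ := glob_exists_frac A l hl hlA x hx
  rw [ValuationSubring.mem_nonunits_iff]
  have hσs : σ • s ∉ glob_prime A := fun h => hs ((hstab s).mp h)
  have hunit : A.valuation (((σ • s) * s : OQb) : Qb) = 1 :=
    glob_val_eq_one A _ (fun h => (Ideal.IsPrime.mem_or_mem inferInstance h).elim hσs hs)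
  have hnum : A.valuation ((((σ • b - b) * s - b * (σ • s - s) : OQb)) : Qb) < 1 :=
    glob_val_lt_one A _ ((glob_prime A).sub_mem ((glob_prime A).mul_mem_right _ (hin b))
      ((glob_prime A).mul_mem_left _ (hin s)))
  have hkey : (σ x - x) * (((σ • s) * s : OQb) : Qb) =
      ((((σ • b - b) * s - b * (σ • s - s) : OQb)) : Qb) := by
    have e1 : σ x * σ (s : Qb) = σ (b : Qb) := by rw [← map_mul, hxs]
    push_cast
    rw [Fermat.Agent.S54.h96_galActionInt_coe, Fermat.Agent.S54.h96_galActionInt_coe]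
    linear_combination (s : Qb) * e1 - σ (s : Qb) * hxs
  have := congrArg A.valuation hkey
  rw [map_mul, hunit, mul_one] at this
  rw [this]
  exact hnum

/-- **Lifting lemma.**  Let `H` be a closed subgroup of `Gal(ℚ̄/ℚ)` and `R₀ → ℤ̄` a ring whose
image is the ring of `H`-invariants.  If `τ` (and `τ⁻¹`) moves the elements of `R₀` only by
elements of `R₀ ∩ Q`, then some `h * τ` with `h ∈ H` stabilises `Q` and acts trivially on
`ℤ̄ ⧸ Q`. -/
theorem glob_exists_lift (H : Subgroup GQ) (hH : IsClosed (H : Set GQ))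
    {R₀ : Type*} [CommRing R₀] [Algebra R₀ OQb] [SMulCommClass ↥H R₀ OQb]
    [Algebra.IsInvariant R₀ OQb ↥H]
    (Q : Ideal OQb) [Q.IsPrime] (τ : GQ)
    (hτ : ∀ a : R₀, ∃ c : R₀, algebraMap R₀ OQb c ∈ Q ∧
      τ • algebraMap R₀ OQb a - algebraMap R₀ OQb a = algebraMap R₀ OQb c)
    (hτ' : ∀ a : R₀, ∃ c : R₀, algebraMap R₀ OQb c ∈ Q ∧
      τ⁻¹ • algebraMap R₀ OQb a - algebraMap R₀ OQb a = algebraMap R₀ OQb c) :
    ∃ h ∈ H, (∀ b : OQb, (h * τ) • b ∈ Q ↔ b ∈ Q) ∧ ∀ b : OQb, (h * τ) • b - b ∈ Q := by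
  let _ : TopologicalSpace OQb := ⊥
  have : DiscreteTopology OQb := ⟨rfl⟩
  have : CompactSpace ↥H := isCompact_iff_compactSpace.mp hH.isCompact
  have : ContinuousSMul ↥H OQb := by
    rw [continuousSMul_iff_stabilizer_isOpen]
    intro b
    have h1 : IsOpen (MulAction.stabilizer GQ (b : Qb) : Set GQ) :=
      stabilizer_isOpen_of_isIntegral (b : Qb)
    have h2 : (MulAction.stabilizer ↥H b : Set ↥H) =
        Subtype.val ⁻¹' (MulAction.stabilizer GQ (b : Qb) : Set GQ) := by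
      ext g
      simp only [SetLike.mem_coe, MulAction.mem_stabilizer_iff, Set.mem_preimage]
      exact Subtype.ext_iff
    rw [h2]
    exact h1.preimage continuous_subtype_val
  -- elements of `R₀` are fixed by `H`
  have hfixH : ∀ (h : ↥H) (a : R₀), h • algebraMap R₀ OQb a = algebraMap R₀ OQb a := by
    intro h a
    rw [Algebra.algebraMap_eq_smul_one, smul_comm, smul_one]
  -- `τ • Q` and `Q` lie over the same prime of `R₀`
  have hunder : (τ • Q).under R₀ = Q.under R₀ := by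
    ext a
    rw [Ideal.under_def, Ideal.under_def, Ideal.mem_comap, Ideal.mem_comap,
      Ideal.mem_pointwise_smul_iff_inv_smul_mem]
    obtain ⟨c, hc, hca⟩ := hτ' a
    have h3 : τ⁻¹ • algebraMap R₀ OQb a = algebraMap R₀ OQb a + algebraMap R₀ OQb c := by
      rw [← hca]; ring
    rw [h3]
    constructor
    · intro h
      have := Q.sub_mem h hc
      simpa using this
    · intro h
      exact Q.add_mem h hc
  obtain ⟨g₁, hg₁⟩ := Algebra.IsInvariant.exists_smul_of_under_eq_of_profinite (A := R₀)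
    (G := ↥H) (τ • Q) Q hunder
  have hσ₁Q : ((g₁ : GQ) * τ) • Q = Q := by
    rw [mul_smul]
    exact hg₁.symm
  -- the automorphism of `ℤ̄ ⧸ Q` induced by `g₁ * τ`
  let φ := Ideal.Quotient.stabilizerHom Q (Q.under ℤ) GQ ⟨(g₁ : GQ) * τ, hσ₁Q⟩
  have hφ : ∀ b : OQb, φ (Ideal.Quotient.mk Q b) = Ideal.Quotient.mk Q (((g₁ : GQ) * τ) • b) :=
    fun b => rfl
  let φ' : (OQb ⧸ Q) ≃ₐ[R₀ ⧸ Q.under R₀] (OQb ⧸ Q) :=
    AlgEquiv.ofRingEquiv (f := φ.toRingEquiv) (by
      intro x
      obtain ⟨a, rfl⟩ := Ideal.Quotient.mk_surjective x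
      show φ (Ideal.Quotient.mk Q (algebraMap R₀ OQb a)) =
        Ideal.Quotient.mk Q (algebraMap R₀ OQb a)
      rw [hφ, Ideal.Quotient.eq]
      obtain ⟨c, hc, hca⟩ := hτ a
      have h3 : τ • algebraMap R₀ OQb a = algebraMap R₀ OQb a + algebraMap R₀ OQb c := by
        rw [← hca]; ring
      have h4 : ((g₁ : GQ) * τ) • algebraMap R₀ OQb a =
          algebraMap R₀ OQb a + algebraMap R₀ OQb c := by
        rw [mul_smul, h3, smul_add]
        have e1 := hfixH g₁ a
        have e2 := hfixH g₁ c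
        rw [Subgroup.smul_def] at e1 e2
        rw [e1, e2]
      rw [h4]
      simpa using hc)
  have hφ' : ∀ b : OQb, φ' (Ideal.Quotient.mk Q b) =
      Ideal.Quotient.mk Q (((g₁ : GQ) * τ) • b) := fun b => rfl
  obtain ⟨⟨g₂, hg₂⟩, hg₂φ⟩ := Ideal.Quotient.stabilizerHom_surjective_of_profinite (G := ↥H)
    (Q.under R₀) Q φ'
  have hg₂' : ∀ b : OQb, Ideal.Quotient.mk Q ((g₂ : GQ) • b) = φ' (Ideal.Quotient.mk Q b) := by
    intro b
    rw [← hg₂φ]
    rfl
  have hg₂Q : (g₂ : GQ) • Q = Q := hg₂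
  refine ⟨(g₂ : GQ)⁻¹ * g₁, H.mul_mem (H.inv_mem g₂.2) g₁.2, ?_, ?_⟩
  · have hσQ : ((g₂ : GQ)⁻¹ * g₁ * τ) • Q = Q := by
      rw [mul_assoc, mul_smul, hσ₁Q, inv_smul_eq_iff, hg₂Q]
    intro b
    conv_lhs => rw [← hσQ]
    exact Ideal.smul_mem_pointwise_smul_iff
  · intro b
    rw [← Ideal.Quotient.eq]
    apply φ'.injective
    rw [← hg₂', hφ', mul_assoc, mul_smul, smul_inv_smul]

end Qbar

section Finite

open NumberField

variable {K : Type*} [Field K] [NumberField K] [IsGalois ℚ K]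

/-- A ramified prime of a Galois number field has a nontrivial inertia element. -/
theorem glob_exists_inertia (P : Ideal (𝓞 K)) [P.IsPrime] (p : ℕ) (hp : p.Prime)
    (hpP : (p : 𝓞 K) ∈ P) (hP : ¬ Algebra.IsUnramifiedAt ℤ P) :
    ∃ τ : K ≃ₐ[ℚ] K, τ ≠ 1 ∧ ∀ x : 𝓞 K, τ • x - x ∈ P := by
  by_contra hcon
  push Not at hcon
  apply hP
  have hpZ : Prime (p : ℤ) := Nat.prime_iff_prime_int.mp hp
  have hprime : (Ideal.span {(p : ℤ)}).IsPrime :=
    (Ideal.span_singleton_prime hpZ.ne_zero).mpr hpZ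
  have hlies : P.LiesOver (Ideal.span {(p : ℤ)}) :=
    (Ideal.liesOver_span_iff Ideal.IsPrime.ne_top' hpZ).mpr (by simpa using hpP)
  have hbot : Ideal.inertia (K ≃ₐ[ℚ] K) P = ⊥ := by
    rw [eq_bot_iff]
    intro τ hτ
    rw [Subgroup.mem_bot]
    by_contra hne
    obtain ⟨x, hx⟩ := hcon τ hne
    exact hx (hτ x)
  have h1 := Ideal.card_inertia_eq_ramificationIdxIn (G := K ≃ₐ[ℚ] K) (Ideal.span {(p : ℤ)}) P
  rw [hbot] at h1
  have h2 := Ideal.ramificationIdxIn_eq_ramificationIdx (Ideal.span {(p : ℤ)}) P (K ≃ₐ[ℚ] K)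
  rw [← Ideal.ramificationIdx_eq_one_iff, ← h2, ← h1]
  simp

end Finite

section Main

open NumberField

local notation "Qb" => AlgebraicClosure ℚ
local notation "OQb" => integralClosure ℤ (AlgebraicClosure ℚ)
local notation "GQ" => AlgebraicClosure ℚ ≃ₐ[ℚ] AlgebraicClosure ℚ

attribute [local instance] Fermat.Agent.S54.h96_isAlgClosure_rat
  Fermat.Agent.S54.h96_galActionInt Fermat.Agent.S54.h96_galActionInt_smulCommClass

/-- The inclusion of the ring of integers of a subfield of `ℚ̄` into the algebraic integers. -/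
noncomputable def glob_iota (F₀ : IntermediateField ℚ Qb) : 𝓞 F₀ →+* OQb where
  toFun x := ⟨((x : F₀) : Qb), (RingOfIntegers.isIntegral_coe x).map
    (IsScalarTower.toAlgHom ℤ F₀ Qb)⟩
  map_one' := Subtype.ext (by simp)
  map_mul' x y := Subtype.ext (by simp)
  map_zero' := Subtype.ext (by simp)
  map_add' x y := Subtype.ext (by simp)

theorem glob_iota_coe (F₀ : IntermediateField ℚ Qb) (x : 𝓞 F₀) :
    ((glob_iota F₀ x : OQb) : Qb) = ((x : F₀) : Qb) := rfl

/-- **GLOBAL lemma.**  An open normal subgroup of `Gal(ℚ̄/ℚ)` containing, for each prime `l`,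
the inertia subgroup of some valuation subring over `l`, is the whole group. -/
theorem glob_eq_top_of_inertia_le (H : Subgroup GQ) [H.Normal] (hopen : IsOpen (H : Set GQ))
    (hin : ∀ l : ℕ, l.Prime →
      ∃ A : ValuationSubring Qb, A.LiesOverPrime l ∧ A.inertiaSubgroupIn ℚ ≤ H) :
    H = ⊤ := by
  by_contra hne
  have hclosed : IsClosed (H : Set GQ) := H.isClosed_of_isOpen hopen
  set F₀ : IntermediateField ℚ Qb := IntermediateField.fixedField H with hF₀
  have hfix : F₀.fixingSubgroup = H :=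
    InfiniteGalois.fixingSubgroup_fixedField ⟨H, hclosed⟩
  have hfin : FiniteDimensional ℚ F₀ :=
    (InfiniteGalois.isOpen_iff_finite F₀).mp (by rw [hfix]; exact hopen)
  have hgal : IsGalois ℚ F₀ :=
    (InfiniteGalois.normal_iff_isGalois F₀).mp (by rw [hfix]; infer_instance)
  have hnf : NumberField F₀ := { to_charZero := inferInstance, to_finiteDimensional := hfin }
  have hdeg : 1 < Module.finrank ℚ F₀ := by
    by_contra hle
    have h1 : Module.finrank ℚ F₀ = 1 := by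
      have := Module.finrank_pos (R := ℚ) (M := F₀)
      omega
    rw [IntermediateField.finrank_eq_one_iff] at h1
    apply hne
    rw [← hfix, h1, IntermediateField.fixingSubgroup_bot]
  -- elements of `F₀` are fixed by `H`
  have hfixF : ∀ h ∈ H, ∀ x : F₀, h (x : Qb) = (x : Qb) := fun h hh x =>
    (IntermediateField.mem_fixedField_iff H (x : Qb)).mp x.2 h hh
  -- the algebra structure
  let _ : Algebra (𝓞 F₀) OQb := (glob_iota F₀).toAlgebra
  have halg : ∀ a : 𝓞 F₀, algebraMap (𝓞 F₀) OQb a = glob_iota F₀ a := fun a => rfl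
  have hfixι : ∀ (h : ↥H) (a : 𝓞 F₀), h • glob_iota F₀ a = glob_iota F₀ a := by
    intro h a
    apply Subtype.ext
    show (h : GQ) (((a : F₀) : Qb)) = ((a : F₀) : Qb)
    exact hfixF h h.2 _
  have : SMulCommClass ↥H (𝓞 F₀) OQb := ⟨fun h a b => by
    rw [Algebra.smul_def, Algebra.smul_def, smul_mul', halg, hfixι]⟩
  have : Algebra.IsInvariant (𝓞 F₀) OQb ↥H := ⟨fun b hb => by
    have hbF : (b : Qb) ∈ F₀ := by
      rw [hF₀, IntermediateField.mem_fixedField_iff]
      intro g hg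
      exact congrArg Subtype.val (hb ⟨g, hg⟩)
    have hint : IsIntegral ℤ (⟨(b : Qb), hbF⟩ : F₀) := by
      rw [← isIntegral_algebraMap_iff (FaithfulSMul.algebraMap_injective F₀ Qb)]
      exact b.2
    refine ⟨IsIntegralClosure.mk' (𝓞 F₀) (⟨(b : Qb), hbF⟩ : F₀) hint, ?_⟩
    apply Subtype.ext
    have h := IsIntegralClosure.algebraMap_mk' (𝓞 F₀) (⟨(b : Qb), hbF⟩ : F₀) hint
    exact congrArg (fun z : F₀ => (z : Qb)) h⟩
  -- Minkowski
  obtain ⟨l, hl, hram⟩ := NumberField.exists_not_isUnramifiedAt_int_of_isGalois (K := F₀)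
    (𝒪 := 𝓞 F₀) hdeg
  obtain ⟨A, hlA, hIA⟩ := hin l hl
  set Q : Ideal OQb := glob_prime A with hQ
  set P : Ideal (𝓞 F₀) := Q.under (𝓞 F₀) with hP
  have hlP : (l : 𝓞 F₀) ∈ P := by
    rw [hP, Ideal.under_def, Ideal.mem_comap, map_natCast]
    exact glob_natCast_mem_prime A l hlA
  obtain ⟨τ₀, hτ₀ne, hτ₀⟩ := glob_exists_inertia P l hl hlP (hram P inferInstance hlP)
  have hτ₀inv : ∀ x : 𝓞 F₀, τ₀⁻¹ • x - x ∈ P :=
    (Ideal.inertia (F₀ ≃ₐ[ℚ] F₀) P).inv_mem (show τ₀ ∈ Ideal.inertia (F₀ ≃ₐ[ℚ] F₀) P from hτ₀)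
  -- lift to `GQ`
  obtain ⟨τ, hτ⟩ := AlgEquiv.restrictNormalHom_surjective (F := ℚ) (K₁ := F₀) Qb τ₀
  have hτx : ∀ x : F₀, τ (x : Qb) = ((τ₀ x : F₀) : Qb) := by
    intro x
    rw [← hτ]
    exact (AlgEquiv.restrictNormalHom_apply F₀ τ x).symm
  have hτx' : ∀ x : F₀, τ⁻¹ (x : Qb) = ((τ₀⁻¹ x : F₀) : Qb) := by
    intro x
    have h1 : AlgEquiv.restrictNormalHom (F := ℚ) (K₁ := Qb) F₀ τ⁻¹ = τ₀⁻¹ := by
      rw [map_inv, hτ]
    rw [← h1]
    exact (AlgEquiv.restrictNormalHom_apply F₀ τ⁻¹ x).symm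
  have hkey : ∀ (ρ : GQ) (ρ₀ : F₀ ≃ₐ[ℚ] F₀), (∀ x : F₀, ρ (x : Qb) = ((ρ₀ x : F₀) : Qb)) →
      (∀ x : 𝓞 F₀, ρ₀ • x - x ∈ P) → ∀ a : 𝓞 F₀, ∃ c : 𝓞 F₀, algebraMap (𝓞 F₀) OQb c ∈ Q ∧
        ρ • algebraMap (𝓞 F₀) OQb a - algebraMap (𝓞 F₀) OQb a = algebraMap (𝓞 F₀) OQb c := by
    intro ρ ρ₀ hρ hρ₀ a
    refine ⟨ρ₀ • a - a, hρ₀ a, ?_⟩
    apply Subtype.ext
    show ρ (((a : F₀) : Qb)) - ((a : F₀) : Qb) = (((ρ₀ • a - a : 𝓞 F₀) : F₀) : Qb)
    have h1 : ((ρ₀ • a - a : 𝓞 F₀) : F₀) = ρ₀ (a : F₀) - (a : F₀) := by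
      show algebraMap (𝓞 F₀) F₀ (ρ₀ • a - a) = _
      rw [map_sub]
      rfl
    rw [hρ, h1]
    rfl
  obtain ⟨h, hhH, hstab, hinQ⟩ := glob_exists_lift H hclosed Q τ (hkey τ τ₀ hτx hτ₀)
    (hkey τ⁻¹ τ₀⁻¹ hτx' hτ₀inv)
  have hσ : h * τ ∈ H := hIA (glob_mem_inertia_of_int A l hl hlA (h * τ) hstab hinQ)
  have hτH : τ ∈ H := by
    have := H.mul_mem (H.inv_mem hhH) hσ
    rwa [inv_mul_cancel_left] at this
  apply hτ₀ne
  ext x
  rw [← hτx]
  exact hfixF τ hτH x

/-- Contrapositive form: a proper open normal subgroup misses, at some prime `l`, part of the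
inertia subgroup of EVERY valuation subring over `l`. -/
theorem glob_exists_prime_forall_inertia (H : Subgroup GQ) [H.Normal]
    (hopen : IsOpen (H : Set GQ)) (hne : H ≠ ⊤) :
    ∃ l : ℕ, l.Prime ∧ ∀ A : ValuationSubring Qb, A.LiesOverPrime l →
      ∃ σ ∈ A.inertiaSubgroupIn ℚ, σ ∉ H := by
  by_contra hcon
  push Not at hcon
  refine hne (glob_eq_top_of_inertia_le H hopen fun l hl => ?_)
  obtain ⟨A, hlA, hA⟩ := hcon l hl
  exact ⟨A, hlA, fun σ hσ => hA σ hσ⟩

/-- Variant: openness is witnessed by a finite subextension `F₀` with `Gal(ℚ̄/F₀) ≤ H`. -/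
theorem glob_eq_top_of_fixingSubgroup_le (H : Subgroup GQ) [H.Normal]
    (F₀ : IntermediateField ℚ Qb) [FiniteDimensional ℚ F₀] (hF : F₀.fixingSubgroup ≤ H)
    (hin : ∀ l : ℕ, l.Prime →
      ∃ A : ValuationSubring Qb, A.LiesOverPrime l ∧ A.inertiaSubgroupIn ℚ ≤ H) :
    H = ⊤ :=
  glob_eq_top_of_inertia_le H
    (Subgroup.isOpen_mono hF (IntermediateField.fixingSubgroup_isOpen F₀)) hin

end Main

end Fermat.Agent.S13
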