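/-
S13, task C4 (helper68): port of S05's component theorem (helper6: `h6_tropical`,
`h6_tropical_double`, `h6_ord_pos_integral`) from `MultSeq` to `NodeSeq`, valid in EVERY
residue characteristic: the hypothesis `ord 2 = 0` is replaced by `v.Ge 0 2` (automatic).

Main export: `NodeSeq.ord_pos_integral` — a point of odd prime order `p` reducing to the node
(`0 < ord x`) has `ord x < m` and `p * ord x ∈ 2m ℤ`.
-/
import Fermat.Agent.S13.Defs
import Fermat.Agent.S05.Component6

set_option autoImplicit false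

namespace Fermat.Agent.S13

open Fermat.Agent.S05

private lemma h68_trop_goal {h a b c d : ℚ} (hab : a ≤ b) (hc : c = b - a)
    (hd : d = a + b ∧ a + b ≤ 2 * h - a - b ∨ d = 2 * h - a - b ∧ 2 * h - a - b ≤ a + b) :
    c = |a - b| ∧ d = min (a + b) (2 * h - a - b) := by
  refine ⟨by rw [abs_of_nonpos (by linarith)]; linarith, ?_⟩
  rcases hd with ⟨h1, h2⟩ | ⟨h1, h2⟩
  · rw [min_eq_left h2]; exact h1
  · rw [min_eq_right h2]; exact h1

section Trop

open OrdFn

variable {K : Type*} [Field K] {v : OrdFn K}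

/-- The tropical sum/difference law, under the normalisation `ord x₁ ≤ ord x₂`
(no assumption on `ord 2` beyond integrality). -/
private lemma h68_tropical_aux (h2 : v.Ge 0 (2 : K)) {M L : K} (hM0 : M ≠ 0)
    (hM : v.ord M = 0) (hL0 : L ≠ 0) {h : ℚ} (hL : v.ord L = h) (hh : 0 < h)
    {x₁ x₂ x₃ x₄ : K} (h₁ : x₁ ≠ 0) (h₂ : x₂ ≠ 0) (h₃ : x₃ ≠ 0) (h₄ : x₄ ≠ 0) (hne : x₁ ≠ x₂)
    (hprod : x₃ * x₄ * (x₁ - x₂) ^ 2 = (x₁ * x₂ - L) ^ 2)
    (hsum : (x₃ + x₄) * (x₁ - x₂) ^ 2 =
      2 * x₁ * x₂ * (x₁ + x₂) + M * x₁ * x₂ + 2 * L * (x₁ + x₂))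
    (hle : v.ord x₁ ≤ v.ord x₂) :
    (h6_clampD h (v.ord x₃) = |h6_clampD h (v.ord x₁) - h6_clampD h (v.ord x₂)| ∧
      h6_clampD h (v.ord x₄) = min (h6_clampD h (v.ord x₁) + h6_clampD h (v.ord x₂))
        (2 * h - h6_clampD h (v.ord x₁) - h6_clampD h (v.ord x₂))) ∨
    (h6_clampD h (v.ord x₄) = |h6_clampD h (v.ord x₁) - h6_clampD h (v.ord x₂)| ∧
      h6_clampD h (v.ord x₃) = min (h6_clampD h (v.ord x₁) + h6_clampD h (v.ord x₂))
        (2 * h - h6_clampD h (v.ord x₁) - h6_clampD h (v.ord x₂))) := by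
  have hd : x₁ - x₂ ≠ 0 := sub_ne_zero.mpr hne
  have hd2 : (x₁ - x₂) ^ 2 ≠ 0 := pow_ne_zero 2 hd
  have hg0 : x₁ * x₂ - L ≠ 0 := by
    intro h0
    rw [h0] at hprod
    exact mul_ne_zero (mul_ne_zero h₃ h₄) hd2 (by simpa using hprod)
  have e1 : v.ord x₃ + v.ord x₄ + 2 * v.ord (x₁ - x₂) = 2 * v.ord (x₁ * x₂ - L) := by
    have := congrArg v.ord hprod
    rwa [ord_mul (mul_ne_zero h₃ h₄) hd2, ord_mul h₃ h₄, h6_ord_sq hd,
      h6_ord_sq hg0] at this
  have hx12 : v.ord (x₁ * x₂) = v.ord x₁ + v.ord x₂ := ord_mul h₁ h₂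
  have he : v.ord x₁ ≤ v.ord (x₁ - x₂) :=
    ((h6_ge_of_le le_rfl : v.Ge (v.ord x₁) x₁).sub (h6_ge_of_le hle)).le_ord hd
  have he_lt : v.ord x₁ < v.ord x₂ → v.ord (x₁ - x₂) = v.ord x₁ := by
    intro hlt
    have := (h6_ord_add_of_lt h₁ hlt ((h6_ge_of_le le_rfl : v.Ge (v.ord x₂) x₂).neg)).2
    rwa [← sub_eq_add_neg] at this
  have hT2 : v.ord (M * x₁ * x₂) = v.ord x₁ + v.ord x₂ := by
    rw [mul_assoc, ord_mul hM0 (mul_ne_zero h₁ h₂), hM, hx12]; ring
  have hT2ne : M * x₁ * x₂ ≠ 0 := mul_ne_zero (mul_ne_zero hM0 h₁) h₂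
  have hs12 : v.Ge (v.ord x₁) (x₁ + x₂) := (h6_ge_of_le le_rfl).add (h6_ge_of_le hle)
  have hT1 : v.Ge (2 * v.ord x₁ + v.ord x₂) (2 * x₁ * x₂ * (x₁ + x₂)) := by
    have : v.Ge (0 + v.ord x₁ + v.ord x₂ + v.ord x₁) (2 * x₁ * x₂ * (x₁ + x₂)) :=
      ((h2.mul (h6_ge_of_le le_rfl)).mul (h6_ge_of_le le_rfl)).mul hs12
    exact this.mono (by linarith)
  have hT3 : v.Ge (h + v.ord x₁) (2 * L * (x₁ + x₂)) := by
    have : v.Ge (0 + h + v.ord x₁) (2 * L * (x₁ + x₂)) :=
      (h2.mul (h6_ge_of_eq hL)).mul hs12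
    exact this.mono (by linarith)
  have hS : ∀ t : ℚ, v.Ge (t + 2 * v.ord (x₁ - x₂))
      (2 * x₁ * x₂ * (x₁ + x₂) + M * x₁ * x₂ + 2 * L * (x₁ + x₂)) → v.Ge t (x₃ + x₄) := by
    intro t ht
    rcases eq_or_ne (x₃ + x₄) 0 with h0 | h0
    · exact Or.inl h0
    · refine Or.inr ?_
      have hN0 : 2 * x₁ * x₂ * (x₁ + x₂) + M * x₁ * x₂ + 2 * L * (x₁ + x₂) ≠ 0 := by
        rw [← hsum]; exact mul_ne_zero h0 hd2
      have := ht.le_ord hN0
      rw [← hsum, ord_mul h0 hd2, h6_ord_sq hd] at this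
      linarith
  have hS' : 0 < v.ord x₁ → v.ord x₂ < h →
      x₃ + x₄ ≠ 0 ∧ v.ord (x₃ + x₄) = v.ord x₁ + v.ord x₂ - 2 * v.ord (x₁ - x₂) := by
    intro hpos hlt
    have hy : v.Ge (min (2 * v.ord x₁ + v.ord x₂) (h + v.ord x₁))
        (2 * x₁ * x₂ * (x₁ + x₂) + 2 * L * (x₁ + x₂)) :=
      (hT1.mono (min_le_left _ _)).add (hT3.mono (min_le_right _ _))
    have hN := h6_ord_add_of_lt hT2ne
      (by rw [hT2]; exact lt_min (by linarith) (by linarith)) hy
    have hNeq : M * x₁ * x₂ + (2 * x₁ * x₂ * (x₁ + x₂) + 2 * L * (x₁ + x₂)) =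
        (x₃ + x₄) * (x₁ - x₂) ^ 2 := by rw [hsum]; ring
    rw [hNeq, hT2] at hN
    have h0 : x₃ + x₄ ≠ 0 := left_ne_zero_of_mul hN.1
    refine ⟨h0, ?_⟩
    have := hN.2
    rw [ord_mul h0 hd2, h6_ord_sq hd] at this
    linarith
  have hg_ge : v.Ge (min (v.ord x₁ + v.ord x₂) h) (x₁ * x₂ - L) :=
    ((h6_ge_of_eq hx12).mono (min_le_left _ _)).sub ((h6_ge_of_eq hL).mono (min_le_right _ _))
  have hg_lt : v.ord x₁ + v.ord x₂ < h → v.ord (x₁ * x₂ - L) = v.ord x₁ + v.ord x₂ := by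
    intro hlt
    have := (h6_ord_add_of_lt (mul_ne_zero h₁ h₂) (by rw [hx12]; exact hlt)
      ((h6_ge_of_eq hL).neg : v.Ge h (-L))).2
    rwa [← sub_eq_add_neg, hx12] at this
  have hg_gt : h < v.ord x₁ + v.ord x₂ → v.ord (x₁ * x₂ - L) = h := by
    intro hlt
    have := (h6_ord_add_of_lt' (neg_ne_zero.mpr hL0) (by rw [ord_neg L, hL]; exact hlt)
      (h6_ge_of_eq hx12 : v.Ge _ (x₁ * x₂))).2
    rwa [← sub_eq_add_neg, ord_neg L, hL] at this
  rcases le_or_gt (v.ord x₁) 0 with hv1 | hv1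
  · -- Case I: `x₁` is not in the node region
    have hD1 : h6_clampD h (v.ord x₁) = 0 := h6_clampD_of_nonpos hh.le hv1
    rcases le_or_gt (v.ord x₂) 0 with hv2 | hv2
    · -- I.a
      have hD2 : h6_clampD h (v.ord x₂) = 0 := h6_clampD_of_nonpos hh.le hv2
      have hg := hg_lt (by linarith)
      have hN : v.Ge (2 * v.ord x₁ + v.ord x₂)
          (2 * x₁ * x₂ * (x₁ + x₂) + M * x₁ * x₂ + 2 * L * (x₁ + x₂)) :=
        (hT1.add ((h6_ge_of_eq hT2).mono (by linarith))).add (hT3.mono (by linarith))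
      have hSge := hS (2 * v.ord x₁ + v.ord x₂ - 2 * v.ord (x₁ - x₂)) (hN.mono (by linarith))
      have h3 : v.ord x₃ ≤ 0 := by
        by_contra hc
        rw [not_le] at hc
        rcases h6_np_cases (v := v) h₃ h₄ with ⟨heq, -⟩ | ⟨hlt, hne', hord⟩ | ⟨hlt, hne', hord⟩
        · linarith
        · linarith
        · have := hSge.le_ord hne'
          linarith
      have h4 : v.ord x₄ ≤ 0 := by
        by_contra hc
        rw [not_le] at hc
        rcases h6_np_cases (v := v) h₃ h₄ with ⟨heq, -⟩ | ⟨hlt, hne', hord⟩ | ⟨hlt, hne', hord⟩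
        · linarith
        · have := hSge.le_ord hne'
          linarith
        · linarith
      left
      rw [hD1, hD2, h6_clampD_of_nonpos hh.le h3, h6_clampD_of_nonpos hh.le h4]
      exact h68_trop_goal le_rfl (by ring) (Or.inl ⟨by ring, by linarith⟩)
    · have hee := he_lt (by linarith)
      rcases lt_or_ge (v.ord x₁ + v.ord x₂) h with hlt | hge
      · -- I.b / I.c with small sum
        have hg := hg_lt hlt
        have hN : v.Ge (2 * v.ord x₁ + v.ord x₂)
            (2 * x₁ * x₂ * (x₁ + x₂) + M * x₁ * x₂ + 2 * L * (x₁ + x₂)) :=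
          (hT1.add ((h6_ge_of_eq hT2).mono (by linarith))).add (hT3.mono (by linarith))
        have hSge := hS (v.ord x₂) (hN.mono (by linarith))
        have h34 : v.ord x₃ = v.ord x₂ ∧ v.ord x₄ = v.ord x₂ := by
          rcases h6_np_cases (v := v) h₃ h₄ with ⟨heq, -⟩ | ⟨hlt', hne', hord⟩ | ⟨hlt', hne', hord⟩
          · constructor <;> linarith
          · have := hSge.le_ord hne'
            exfalso; linarith
          · have := hSge.le_ord hne'
            exfalso; linarith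
        left
        rw [hD1, h34.1, h34.2]
        have hb := h6_clampD_nonneg hh.le (v.ord x₂)
        have hb' := h6_clampD_le h (v.ord x₂)
        exact h68_trop_goal hb (by ring) (Or.inl ⟨by ring, by linarith⟩)
      · -- I.c with large sum
        have hv2h : h ≤ v.ord x₂ := by linarith
        have hD2 : h6_clampD h (v.ord x₂) = h := h6_clampD_of_ge hh.le hv2h
        have hg : h ≤ v.ord (x₁ * x₂ - L) := (hg_ge.mono (le_min hge le_rfl)).le_ord hg0
        have hN : v.Ge (h + v.ord x₁)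
            (2 * x₁ * x₂ * (x₁ + x₂) + M * x₁ * x₂ + 2 * L * (x₁ + x₂)) :=
          ((hT1.mono (by linarith)).add ((h6_ge_of_eq hT2).mono (by linarith))).add hT3
        have hSge := hS (h - v.ord x₁) (hN.mono (by linarith))
        have h34 : h ≤ v.ord x₃ ∧ h ≤ v.ord x₄ := by
          rcases h6_np_cases (v := v) h₃ h₄ with ⟨heq, -⟩ | ⟨hlt', hne', hord⟩ | ⟨hlt', hne', hord⟩
          · constructor <;> linarith
          · have := hSge.le_ord hne'
            constructor <;> linarith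
          · have := hSge.le_ord hne'
            constructor <;> linarith
        left
        rw [hD1, hD2, h6_clampD_of_ge hh.le h34.1, h6_clampD_of_ge hh.le h34.2]
        exact h68_trop_goal hh.le (by ring) (Or.inl ⟨by ring, by linarith⟩)
  · rcases lt_or_ge (v.ord x₁) h with hv1h | hv1h
    · -- Case II: `0 < ord x₁ < h`
      have hD1 : h6_clampD h (v.ord x₁) = v.ord x₁ := h6_clampD_of_mem hv1.le hv1h.le
      rcases lt_or_ge (v.ord x₂) h with hv2h | hv2h
      · -- II.a / II.b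
        have hD2 : h6_clampD h (v.ord x₂) = v.ord x₂ := h6_clampD_of_mem (by linarith) hv2h.le
        obtain ⟨hS0, hSord⟩ := hS' hv1 hv2h
        have hgmin : min (v.ord x₁ + v.ord x₂) h ≤ v.ord (x₁ * x₂ - L) := hg_ge.le_ord hg0
        have hDmin : h6_clampD h (v.ord x₁ + v.ord x₂ - 2 * v.ord (x₁ - x₂)) =
            v.ord x₂ - v.ord x₁ := by
          rcases hle.lt_or_eq with hlt | heq
          · rw [he_lt hlt]
            have : v.ord x₁ + v.ord x₂ - 2 * v.ord x₁ = v.ord x₂ - v.ord x₁ := by ring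
            rw [this]
            exact h6_clampD_of_mem (by linarith) (by linarith)
          · rw [h6_clampD_of_nonpos hh.le (by linarith)]; linarith
        have key : ∀ y₃ y₄ : K, y₃ ≠ 0 → y₄ ≠ 0 → v.ord y₃ < v.ord y₄ →
            v.ord y₃ = v.ord x₁ + v.ord x₂ - 2 * v.ord (x₁ - x₂) →
            v.ord y₃ + v.ord y₄ + 2 * v.ord (x₁ - x₂) = 2 * v.ord (x₁ * x₂ - L) →
            h6_clampD h (v.ord y₃) = |h6_clampD h (v.ord x₁) - h6_clampD h (v.ord x₂)| ∧
              h6_clampD h (v.ord y₄) = min (h6_clampD h (v.ord x₁) + h6_clampD h (v.ord x₂))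
                (2 * h - h6_clampD h (v.ord x₁) - h6_clampD h (v.ord x₂)) := by
          intro y₃ y₄ _ _ _ hy3 hy34
          rw [hD1, hD2, hy3, hDmin]
          rcases lt_trichotomy (v.ord x₁ + v.ord x₂) h with hlt | heq | hgt
          · have hg := hg_lt hlt
            have hy4 : v.ord y₄ = v.ord x₁ + v.ord x₂ := by linarith
            rw [hy4, h6_clampD_of_mem (by linarith) hlt.le]
            exact h68_trop_goal hle rfl (Or.inl ⟨rfl, by linarith⟩)
          · have hg : h ≤ v.ord (x₁ * x₂ - L) := by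
              rw [heq, min_self] at hgmin; exact hgmin
            have hy4 : h ≤ v.ord y₄ := by linarith
            rw [h6_clampD_of_ge hh.le hy4]
            exact h68_trop_goal hle rfl (Or.inl ⟨by linarith, by linarith⟩)
          · have hg := hg_gt hgt
            have hy4 : v.ord y₄ = 2 * h - v.ord x₁ - v.ord x₂ := by linarith
            rw [hy4, h6_clampD_of_mem (by linarith) (by linarith)]
            exact h68_trop_goal hle rfl (Or.inr ⟨rfl, by linarith⟩)
        have hlow : v.ord x₂ < min (v.ord x₁ + v.ord x₂) h := lt_min (by linarith) hv2h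
        rcases h6_np_cases (v := v) h₃ h₄ with ⟨heq, hge⟩ | ⟨hlt', hne', hord⟩ | ⟨hlt', hne', hord⟩
        · exfalso
          have := hge.le_ord hS0
          linarith
        · left
          exact key x₃ x₄ h₃ h₄ hlt' (by linarith) e1
        · right
          exact key x₄ x₃ h₄ h₃ hlt' (by linarith) (by linarith)
      · -- II.c
        have hD2 : h6_clampD h (v.ord x₂) = h := h6_clampD_of_ge hh.le hv2h
        have hee := he_lt (by linarith)
        have hg := hg_gt (by linarith)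
        have hN : v.Ge (h + v.ord x₁)
            (2 * x₁ * x₂ * (x₁ + x₂) + M * x₁ * x₂ + 2 * L * (x₁ + x₂)) :=
          ((hT1.mono (by linarith)).add ((h6_ge_of_eq hT2).mono (by linarith))).add hT3
        have hSge := hS (h - v.ord x₁) (hN.mono (by linarith))
        have h34 : v.ord x₃ = h - v.ord x₁ ∧ v.ord x₄ = h - v.ord x₁ := by
          rcases h6_np_cases (v := v) h₃ h₄ with ⟨heq, -⟩ | ⟨hlt', hne', hord⟩ | ⟨hlt', hne', hord⟩
          · constructor <;> linarith
          · have := hSge.le_ord hne'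
            exfalso; linarith
          · have := hSge.le_ord hne'
            exfalso; linarith
        left
        rw [hD1, hD2, h34.1, h34.2, h6_clampD_of_mem (by linarith) (by linarith)]
        exact h68_trop_goal hv1h.le rfl (Or.inr ⟨by ring, by linarith⟩)
    · -- Case III: both in the middle component
      have hv2h : h ≤ v.ord x₂ := hv1h.trans hle
      have hD1 : h6_clampD h (v.ord x₁) = h := h6_clampD_of_ge hh.le hv1h
      have hD2 : h6_clampD h (v.ord x₂) = h := h6_clampD_of_ge hh.le hv2h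
      have hg := hg_gt (by linarith)
      have hN : v.Ge (2 * h)
          (2 * x₁ * x₂ * (x₁ + x₂) + M * x₁ * x₂ + 2 * L * (x₁ + x₂)) :=
        ((hT1.mono (by linarith)).add ((h6_ge_of_eq hT2).mono (by linarith))).add
          (hT3.mono (by linarith))
      have hSge := hS (2 * h - 2 * v.ord (x₁ - x₂)) (hN.mono (by linarith))
      have h3 : v.ord x₃ ≤ 0 := by
        by_contra hc
        rw [not_le] at hc
        rcases h6_np_cases (v := v) h₃ h₄ with ⟨heq, -⟩ | ⟨hlt, hne', hord⟩ | ⟨hlt, hne', hord⟩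
        · linarith
        · linarith
        · have := hSge.le_ord hne'
          linarith
      have h4 : v.ord x₄ ≤ 0 := by
        by_contra hc
        rw [not_le] at hc
        rcases h6_np_cases (v := v) h₃ h₄ with ⟨heq, -⟩ | ⟨hlt, hne', hord⟩ | ⟨hlt, hne', hord⟩
        · linarith
        · have := hSge.le_ord hne'
          linarith
        · linarith
      left
      rw [hD1, hD2, h6_clampD_of_nonpos hh.le h3, h6_clampD_of_nonpos hh.le h4]
      exact h68_trop_goal le_rfl (by ring) (Or.inr ⟨by ring, by linarith⟩)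

/-- The tropical sum/difference law for the x-coordinates on a nodal model, in any residue
characteristic: if `x₃, x₄` are the x-coordinates of `P₁ ± P₂`, then the unsigned components
satisfy `{D₃, D₄} = {|D₁ - D₂|, min (D₁ + D₂) (2h - D₁ - D₂)}`. -/
theorem h68_tropical (h2 : v.Ge 0 (2 : K)) {M L : K} (hM0 : M ≠ 0)
    (hM : v.ord M = 0) (hL0 : L ≠ 0) {h : ℚ} (hL : v.ord L = h) (hh : 0 < h)
    {x₁ x₂ x₃ x₄ : K} (h₁ : x₁ ≠ 0) (h₂ : x₂ ≠ 0) (h₃ : x₃ ≠ 0) (h₄ : x₄ ≠ 0) (hne : x₁ ≠ x₂)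
    (hprod : x₃ * x₄ * (x₁ - x₂) ^ 2 = (x₁ * x₂ - L) ^ 2)
    (hsum : (x₃ + x₄) * (x₁ - x₂) ^ 2 =
      2 * x₁ * x₂ * (x₁ + x₂) + M * x₁ * x₂ + 2 * L * (x₁ + x₂)) :
    (h6_clampD h (v.ord x₃) = |h6_clampD h (v.ord x₁) - h6_clampD h (v.ord x₂)| ∧
      h6_clampD h (v.ord x₄) = min (h6_clampD h (v.ord x₁) + h6_clampD h (v.ord x₂))
        (2 * h - h6_clampD h (v.ord x₁) - h6_clampD h (v.ord x₂))) ∨
    (h6_clampD h (v.ord x₄) = |h6_clampD h (v.ord x₁) - h6_clampD h (v.ord x₂)| ∧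
      h6_clampD h (v.ord x₃) = min (h6_clampD h (v.ord x₁) + h6_clampD h (v.ord x₂))
        (2 * h - h6_clampD h (v.ord x₁) - h6_clampD h (v.ord x₂))) := by
  rcases le_total (v.ord x₁) (v.ord x₂) with hle | hle
  · exact h68_tropical_aux h2 hM0 hM hL0 hL hh h₁ h₂ h₃ h₄ hne hprod hsum hle
  · have := h68_tropical_aux h2 hM0 hM hL0 hL hh h₂ h₁ h₃ h₄ hne.symm
      (by linear_combination hprod) (by linear_combination hsum) hle
    rw [abs_sub_comm (h6_clampD h (v.ord x₂)), add_comm (h6_clampD h (v.ord x₂)),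
      sub_right_comm (2 * h)] at this
    exact this

/-- The tropical duplication law, in any residue characteristic. -/
theorem h68_tropical_double (h4 : v.Ge 0 (4 : K)) {M L : K} (hM0 : M ≠ 0)
    (hM : v.ord M = 0) (hL0 : L ≠ 0) {h : ℚ} (hL : v.ord L = h) (hh : 0 < h)
    {x₁ x₂ : K} (h₁ : x₁ ≠ 0) (h₂ : x₂ ≠ 0)
    (hdbl : x₂ * (x₁ * (4 * x₁ ^ 2 + M * x₁ + 4 * L)) = (x₁ ^ 2 - L) ^ 2)
    (hpos : 0 < v.ord x₁) :
    h6_clampD h (v.ord x₂) =
      min (2 * h6_clampD h (v.ord x₁)) (2 * h - 2 * h6_clampD h (v.ord x₁)) := by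
  have hsq : v.ord (x₁ ^ 2) = 2 * v.ord x₁ := h6_ord_sq h₁
  have hsq0 : x₁ ^ 2 ≠ 0 := pow_ne_zero 2 h₁
  have hMx : v.ord (M * x₁) = v.ord x₁ := by rw [ord_mul hM0 h₁, hM]; ring
  have hMx0 : M * x₁ ≠ 0 := mul_ne_zero hM0 h₁
  have h4x : v.Ge (2 * v.ord x₁) (4 * x₁ ^ 2) := by
    have : v.Ge (0 + 2 * v.ord x₁) (4 * x₁ ^ 2) := h4.mul (h6_ge_of_eq hsq)
    exact this.mono (by linarith)
  have h4L : v.Ge h (4 * L) := by
    have : v.Ge (0 + h) (4 * L) := h4.mul (h6_ge_of_eq hL)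
    exact this.mono (by linarith)
  -- the two factors are nonzero
  have hB0 : x₁ ^ 2 - L ≠ 0 := by
    intro h0
    have hA0 : 4 * x₁ ^ 2 + M * x₁ + 4 * L = 0 := by
      rw [h0] at hdbl
      have : x₂ * (x₁ * (4 * x₁ ^ 2 + M * x₁ + 4 * L)) = 0 := by simpa using hdbl
      rcases mul_eq_zero.mp this with h' | h'
      · exact absurd h' h₂
      · exact (mul_eq_zero.mp h').resolve_left h₁
    -- then `M * x₁ = -8 * x₁ ^ 2`, of valuation `≥ 2 ord x₁ > ord x₁`
    have hcontra : M * x₁ = -(4 * x₁ ^ 2) + -(4 * x₁ ^ 2) := by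
      linear_combination hA0 + 4 * h0
    have hge : v.Ge (2 * v.ord x₁) (M * x₁) := by
      rw [hcontra]; exact h4x.neg.add h4x.neg
    have := hge.le_ord hMx0
    rw [hMx] at this
    linarith
  have hA0 : 4 * x₁ ^ 2 + M * x₁ + 4 * L ≠ 0 := by
    intro h0
    rw [h0] at hdbl
    exact hB0 (by simpa using hdbl.symm)
  have e1 : v.ord x₂ + (v.ord x₁ + v.ord (4 * x₁ ^ 2 + M * x₁ + 4 * L)) =
      2 * v.ord (x₁ ^ 2 - L) := by
    have := congrArg v.ord hdbl
    rwa [ord_mul h₂ (mul_ne_zero h₁ hA0), ord_mul h₁ hA0, h6_ord_sq hB0] at this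
  have hBge : v.Ge (min (2 * v.ord x₁) h) (x₁ ^ 2 - L) :=
    ((h6_ge_of_eq hsq).mono (min_le_left _ _)).sub ((h6_ge_of_eq hL).mono (min_le_right _ _))
  have hB_lt : 2 * v.ord x₁ < h → v.ord (x₁ ^ 2 - L) = 2 * v.ord x₁ := by
    intro hlt
    have := (h6_ord_add_of_lt hsq0 (by rw [hsq]; exact hlt) ((h6_ge_of_eq hL).neg : v.Ge h (-L))).2
    rwa [← sub_eq_add_neg, hsq] at this
  have hB_gt : h < 2 * v.ord x₁ → v.ord (x₁ ^ 2 - L) = h := by
    intro hlt
    have := (h6_ord_add_of_lt' (neg_ne_zero.mpr hL0) (by rw [ord_neg L, hL]; exact hlt)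
      (h6_ge_of_eq hsq : v.Ge _ (x₁ ^ 2))).2
    rwa [← sub_eq_add_neg, ord_neg L, hL] at this
  rcases lt_or_ge (v.ord x₁) h with hv | hv
  · have hD1 : h6_clampD h (v.ord x₁) = v.ord x₁ := h6_clampD_of_mem hpos.le hv.le
    have hA : v.ord (4 * x₁ ^ 2 + M * x₁ + 4 * L) = v.ord x₁ := by
      have hy : v.Ge (min (2 * v.ord x₁) h) (4 * x₁ ^ 2 + 4 * L) :=
        (h4x.mono (min_le_left _ _)).add (h4L.mono (min_le_right _ _))
      have := (h6_ord_add_of_lt hMx0 (by rw [hMx]; exact lt_min (by linarith) hv) hy).2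
      have heq : M * x₁ + (4 * x₁ ^ 2 + 4 * L) = 4 * x₁ ^ 2 + M * x₁ + 4 * L := by ring
      rw [heq, hMx] at this
      exact this
    rw [hD1]
    rcases lt_trichotomy (2 * v.ord x₁) h with hlt | heq | hgt
    · have := hB_lt hlt
      have hx2 : v.ord x₂ = 2 * v.ord x₁ := by linarith
      rw [hx2, h6_clampD_of_mem (by linarith) hlt.le, min_eq_left (by linarith)]
    · have hB : h ≤ v.ord (x₁ ^ 2 - L) := by
        have := hBge.le_ord hB0
        rwa [heq, min_self] at this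
      have hx2 : h ≤ v.ord x₂ := by linarith
      rw [h6_clampD_of_ge hh.le hx2, min_eq_left (by linarith)]
      linarith
    · have := hB_gt hgt
      have hx2 : v.ord x₂ = 2 * h - 2 * v.ord x₁ := by linarith
      rw [hx2, h6_clampD_of_mem (by linarith) (by linarith), min_eq_right (by linarith)]
  · have hD1 : h6_clampD h (v.ord x₁) = h := h6_clampD_of_ge hh.le hv
    have hA : h ≤ v.ord (4 * x₁ ^ 2 + M * x₁ + 4 * L) :=
      (((h4x.mono (by linarith)).add ((h6_ge_of_eq hMx).mono hv)).add h4L).le_ord hA0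
    have := hB_gt (by linarith)
    have hx2 : v.ord x₂ ≤ 0 := by linarith
    rw [hD1, h6_clampD_of_nonpos hh.le hx2, min_eq_right (by linarith)]
    ring

end Trop

section Chain

variable {K : Type*} [Field K]

open OrdFn

set_option linter.unusedVariables false in
/-- **C4.** A point of odd prime order `p` on a nodal model `y² + xy = x³ + a₂x² + a₄x`
(`ord a₄ = m > 0`, `b₂ = 1 + 4a₂` a unit) reducing to the node (`0 < ord x`) has
`ord x < m` and `p * ord x ∈ 2m ℤ`.  Valid in every residue characteristic.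
(`hint` is part of the agreed interface; it is not needed.) -/
theorem NodeSeq.ord_pos_integral (v : OrdFn K) {a₄ b₂ : K} {p : ℕ} {x : ℕ → K} {m : ℚ}
    (hM : NodeSeq a₄ b₂ p x) (hpp : p.Prime) (hp5 : 5 ≤ p) (ha₄ : v.HasOrd a₄ m) (hm : 0 < m)
    (hb₂ : v.HasOrd b₂ 0) (hint : ∀ k, 1 ≤ k → k ≤ p - 1 → v.Ge 0 (x k))
    (hpos : 0 < v.ord (x 1)) :
    v.ord (x 1) < m ∧ ∃ j : ℤ, (p : ℚ) * v.ord (x 1) = j * (2 * m) := by
  have h2 : v.Ge 0 (2 : K) := by
    have := ge_natCast (v := v) 2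
    simpa using this
  have h4 : v.Ge 0 (4 : K) := by
    have := ge_natCast (v := v) 4
    simpa using this
  have hX0 : ∀ k, 1 ≤ k → k ≤ p - 1 → x k ≠ 0 := fun k h1 h2' =>
    left_ne_zero_of_mul (hM.nondeg k h1 h2')
  obtain ⟨c, hc⟩ : ∃ c : ℚ, c = h6_clampD m (v.ord (x 1)) := ⟨_, rfl⟩
  have hc0 : 0 < c := by
    rw [hc]
    unfold h6_clampD
    exact lt_min (lt_max_of_lt_left hpos) hm
  have hc1 : c ≤ m := by rw [hc]; exact h6_clampD_le _ _
  -- the chain
  have chain : ∀ n : ℕ,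
      (n + 1 ≤ p - 1 → H6Fold m ((n + 1 : ℕ) * c) (h6_clampD m (v.ord (x (n + 1))))) ∧
      (n + 2 ≤ p - 1 → H6Fold m ((n + 2 : ℕ) * c) (h6_clampD m (v.ord (x (n + 2))))) := by
    intro n
    induction n with
    | zero =>
      refine ⟨fun _ => ?_, fun _ => ?_⟩
      · rw [zero_add, ← hc]
        exact ⟨hc0.le, hc1, 0, Or.inl (by push_cast; ring)⟩
      have hd := h68_tropical_double (v := v) h4 hb₂.1 hb₂.2 ha₄.1 ha₄.2 hm
        (hX0 1 le_rfl (by omega)) (hX0 2 (by omega) (by omega)) hM.dbl hpos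
      obtain ⟨hm0, hm1⟩ := H6Fold.min_add hc0.le hc1 hc0.le hc1
      have hd' : h6_clampD m (v.ord (x 2)) = min (c + c) (2 * m - c - c) := by
        rw [hd, ← hc]; congr 1 <;> ring
      rw [zero_add, hd']
      refine ⟨hm0, hm1, ?_⟩
      rcases le_total (c + c) (2 * m - c - c) with hle | hle
      · exact ⟨0, Or.inl (by rw [min_eq_left hle]; push_cast; ring)⟩
      · exact ⟨1, Or.inr (by rw [min_eq_right hle]; push_cast; ring)⟩
    | succ n ih =>
      refine ⟨fun hn => ih.2 hn, fun hn => ?_⟩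
      have hk1 := ih.1 (by omega)
      have hk2 := ih.2 (by omega)
      have hq := h68_tropical (v := v) h2 hb₂.1 hb₂.2 ha₄.1 ha₄.2 hm
        (hX0 (n + 2) (by omega) (by omega)) (hX0 1 le_rfl (by omega))
        (hX0 (n + 2 + 1) (by omega) (by omega)) (hX0 (n + 2 - 1) (by omega) (by omega))
        (hM.ne_one (n + 2) (by omega) (by omega))
        (hM.prod (n + 2) (by omega) (by omega))
        (by linear_combination hM.sum (n + 2) (by omega) (by omega))
      have e3 : n + 2 - 1 = n + 1 := by omega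
      have e4 : n + 2 + 1 = n + 1 + 2 := by omega
      rw [e3, e4, ← hc] at hq
      have hstep := H6Fold.step hc0.le hc1 hk2
      have et1 : ((n + 2 : ℕ) : ℚ) * c + c = ((n + 1 + 2 : ℕ) : ℚ) * c := by push_cast; ring
      have et2 : ((n + 2 : ℕ) : ℚ) * c - c = ((n + 1 : ℕ) : ℚ) * c := by push_cast; ring
      rw [et1, et2] at hstep
      rcases hstep with ⟨hs1, hs2⟩ | ⟨hs1, hs2⟩ <;> rcases hq with ⟨hq1, hq2⟩ | ⟨hq1, hq2⟩
      · -- fold(k+1) = min, fold(k-1) = abs; D(k+1) = abs, D(k-1) = min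
        have := H6Fold.unique hm hk1 hs2
        rw [hq1, ← this, hq2]; exact hs1
      · rw [hq2]; exact hs1
      · rw [hq1]; exact hs1
      · have := H6Fold.unique hm hk1 hs2
        rw [hq2, ← this, hq1]; exact hs1
  have hp1 : p - 1 = (p - 2) + 1 := by omega
  have hpm1 : H6Fold m ((p - 1 : ℕ) * c) c := by
    have := (chain (p - 2)).1 (by omega)
    rw [← hp1, hM.symm1, ← hc] at this
    exact this
  have hp2 : p - 2 = (p - 3) + 1 := by omega
  have hpm2 : H6Fold m ((p - 2 : ℕ) * c) (h6_clampD m (v.ord (x 2))) := by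
    have := (chain (p - 3)).1 (by omega)
    rw [← hp2, hM.symm2] at this
    exact this
  have h2c : H6Fold m ((2 : ℕ) * c) (h6_clampD m (v.ord (x 2))) := by
    have := (chain 0).2 (by omega)
    simpa using this
  have hodd : Odd p := hpp.odd_of_ne_two (by omega)
  have hcast1 : ((p - 1 : ℕ) : ℚ) = (p : ℚ) - 1 := by
    rw [Nat.cast_sub (by omega)]; simp
  have hcast2 : ((p - 2 : ℕ) : ℚ) = (p : ℚ) - 2 := by
    rw [Nat.cast_sub (by omega)]; simp
  -- `p * c ∈ 2mℤ`
  have hmain : ∃ j : ℤ, (p : ℚ) * c = j * (2 * m) := by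
    obtain ⟨-, -, n, hn⟩ := hpm1
    rw [hcast1] at hn
    rcases hn with hn | hn
    · -- `(p - 2) c = 2 m n`
      exfalso
      have h0 : H6Fold m ((p - 2 : ℕ) * c) 0 :=
        ⟨le_rfl, hm.le, n, Or.inl (by rw [hcast2]; linarith)⟩
      have hd2 : h6_clampD m (v.ord (x 2)) = 0 := H6Fold.unique hm hpm2 h0
      rw [hd2] at h2c
      obtain ⟨-, -, l, hl⟩ := h2c
      have hcm : c = m * l := by
        rcases hl with hl | hl <;> · push_cast at hl; linarith
      have hl1 : l = 1 := by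
        have h1 : (0 : ℚ) < l := by
          by_contra hc'
          rw [not_lt] at hc'
          nlinarith
        have h2' : (l : ℚ) ≤ 1 := by
          by_contra hc'
          rw [not_le] at hc'
          nlinarith
        have h1' : 0 < l := by exact_mod_cast h1
        have h2'' : l ≤ 1 := by exact_mod_cast h2'
        omega
      rw [hl1] at hcm
      have hch : c = m := by simpa using hcm
      rw [hch] at hn
      have hpn : (p : ℚ) - 2 = 2 * n := by
        have : ((p : ℚ) - 2 - 2 * n) * m = 0 := by linarith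
        rcases mul_eq_zero.mp this with h' | h'
        · linarith
        · exact absurd h' hm.ne'
      have hpn' : (p : ℤ) = 2 * n + 2 := by
        have : ((p : ℤ) : ℚ) = ((2 * n + 2 : ℤ) : ℚ) := by push_cast; linarith
        exact_mod_cast this
      obtain ⟨k, hk⟩ := hodd
      omega
    · exact ⟨n, by linarith⟩
  -- `c < m`
  have hclt : c < m := by
    rcases hc1.lt_or_eq with hlt | heq
    · exact hlt
    · exfalso
      obtain ⟨j, hj⟩ := hmain
      rw [heq] at hj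
      have hpj : (p : ℚ) = 2 * j := by
        have : ((p : ℚ) - 2 * j) * m = 0 := by linarith
        rcases mul_eq_zero.mp this with h' | h'
        · linarith
        · exact absurd h' hm.ne'
      have hpj' : (p : ℤ) = 2 * j := by
        have : ((p : ℤ) : ℚ) = ((2 * j : ℤ) : ℚ) := by push_cast; linarith
        exact_mod_cast this
      obtain ⟨k, hk⟩ := hodd
      omega
  -- hence `c = ord (x 1)`
  have hcord : c = v.ord (x 1) := by
    have hle : v.ord (x 1) < m := by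
      by_contra hge
      rw [not_lt] at hge
      have : c = m := by rw [hc]; exact h6_clampD_of_ge hm.le hge
      linarith
    rw [hc]; exact h6_clampD_of_mem hpos.le hle.le
  rw [← hcord]
  exact ⟨hclt, hmain⟩

end Chain

end Fermat.Agent.S13
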