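/-
S13 / C5 (helper69): two points with unit `x`, congruent mod `𝔪`, on a node model in residue
characteristic 2 differ by a point of the kernel of reduction.
-/
import Fermat.Agent.S13.Defs

set_option autoImplicit false
open WeierstrassCurve WeierstrassCurve.Affine WeierstrassCurve.Affine.Point

namespace Fermat.Agent.S13

open Fermat.Agent.S05

section C5

variable {K : Type*} [Field K]

/-- a nonzero element whose square plus a unit multiple is integral is integral. -/
private theorem h69_y_integral (v : OrdFn K) {x y r : K} (hx : v.HasOrd x 0)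
    (hr : v.Ge 0 r) (he : y ^ 2 + x * y = r) : v.Ge 0 y := by
  by_contra hy
  have hy0 : y ≠ 0 := fun h => hy (Or.inl h)
  have hlt : v.ord y < 0 := by
    by_contra hge
    exact hy (Or.inr (not_lt.mp hge))
  -- y^2 + x*y = y * (y + x), and ord (y + x) = ord y
  have h1 : v.HasOrd (y + x) (v.ord y) :=
    (OrdFn.hasOrd_of_ne hy0).add_gt (hx.gt hlt)
  have h2 : v.HasOrd (y * (y + x)) (v.ord y + v.ord y) := (OrdFn.hasOrd_of_ne hy0).mul h1
  have h3 : y * (y + x) = r := by rw [← he]; ring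
  rw [h3] at h2
  have := hr.le_ord h2.1
  rw [h2.2] at this
  linarith

variable [DecidableEq K] {W : WeierstrassCurve K}

theorem node_congr (v : OrdFn K) {m : ℚ} (hW : IsNodeModel v W m) {Q Q' : W.toAffine.Point}
    (hQ : v.HasOrd (rawX Q) 0) (hx : v.Gt 0 (rawX Q' - rawX Q))
    (hy : v.Gt 0 (rawY Q' - rawY Q)) : Q' = Q ∨ ¬ v.Ge 0 (rawX (Q' - Q)) := by
  -- the two points are affine
  rcases Q with _ | ⟨x, y, h⟩
  · exact absurd rfl hQ.1
  rcases Q' with _ | ⟨x', y', h'⟩
  · exfalso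
    have h1 : v.Gt 0 (-(x)) := by simpa [rawX] using hx
    have h2 := h1.neg
    rw [neg_neg] at h2
    have := h2.lt_ord hQ.1
    have h3 : v.ord x = 0 := hQ.2
    rw [h3] at this
    exact lt_irrefl _ this
  have hQ' : v.HasOrd x 0 := hQ
  have hx' : v.Gt 0 (x' - x) := hx
  have hy' : v.Gt 0 (y' - y) := hy
  -- the curve equation
  have heq : y ^ 2 + x * y = x ^ 3 + W.a₂ * x ^ 2 + W.a₄ * x := by
    have := (equation_iff x y).mp h.1
    simp only [toAffine] at this
    rw [hW.a₁, hW.a₃, hW.a₆] at this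
    linear_combination this
  have hxge : v.Ge 0 x := hQ'.ge le_rfl
  have ha₄ : v.Ge 0 W.a₄ := hW.a₄.ge hW.pos.le
  have hr : v.Ge 0 (x ^ 3 + W.a₂ * x ^ 2 + W.a₄ * x) := by
    have h3 : v.Ge 0 (x ^ 3) := (hxge.pow 3).mono (by norm_num)
    have h2 : v.Ge 0 (x ^ 2) := (hxge.pow 2).mono (by norm_num)
    have e1 : v.Ge 0 (W.a₂ * x ^ 2) := (hW.a₂.mul h2).mono (by norm_num)
    have e2 : v.Ge 0 (W.a₄ * x) := (ha₄.mul hxge).mono (by norm_num)
    exact (h3.add e1).add e2
  have hyge : v.Ge 0 y := h69_y_integral v hQ' hr heq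
  -- `2 y + x` is a unit
  have h2y : v.Gt 0 (2 * y) := (hW.two.mul_ge hyge).mono (by norm_num)
  have hunit : v.HasOrd (2 * y + x) 0 := hQ'.gt_add h2y
  by_cases hxx : x' = x
  · -- same `x`: then `y' = y` or `y' = -y - x`
    subst hxx
    rcases Y_eq_of_X_eq h'.1 h.1 rfl with hyy | hyy
    · left
      subst hyy
      rfl
    · exfalso
      have e : y' - y = -(2 * y + x') := by
        rw [hyy]
        simp only [negY, toAffine]
        rw [hW.a₁, hW.a₃]
        ring
      rw [e] at hy'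
      have := hy'.neg
      rw [neg_neg] at this
      have h4 := this.lt_ord hunit.1
      rw [hunit.2] at h4
      exact lt_irrefl _ h4
  · right
    have hd : v.HasOrd (x' - x) (v.ord (x' - x)) := OrdFn.hasOrd_of_ne (sub_ne_zero.mpr hxx)
    have hdpos : 0 < v.ord (x' - x) := hx'.lt_ord hd.1
    have hnum : v.HasOrd ((y' - y) + (2 * y + x)) 0 := hunit.gt_add hy'
    set ℓ : K := ((y' - y) + (2 * y + x)) / (x' - x) with hℓ
    have hℓord : v.HasOrd ℓ (0 - v.ord (x' - x)) := hnum.div hd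
    have hℓneg : v.ord ℓ < 0 := by rw [hℓord.2]; linarith
    have hsub : (some x' y' h' : W.toAffine.Point) - some x y h
        = some x' y' h' + some x (W.toAffine.negY x y) ((nonsingular_neg ..).mpr h) := by
      rw [sub_eq_add_neg, neg_some]
    rw [hsub, add_of_X_ne hxx]
    show ¬ v.Ge 0 (W.toAffine.addX x' x (W.toAffine.slope x' x y' (W.toAffine.negY x y)))
    have hslope : W.toAffine.slope x' x y' (W.toAffine.negY x y) = ℓ := by
      rw [slope_of_X_ne hxx, hℓ]
      congr 1
      simp only [negY, toAffine]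
      rw [hW.a₁, hW.a₃]
      ring
    rw [hslope]
    have haddX : W.toAffine.addX x' x ℓ = ℓ * (ℓ + 1) + (-W.a₂ - x' - x) := by
      simp only [addX, toAffine]
      rw [hW.a₁]
      ring
    rw [haddX]
    have hx'ge : v.Ge 0 x' := by
      have : x' = (x' - x) + x := by ring
      rw [this]
      exact hx'.ge.add hxge
    have hrest : v.Ge 0 (-W.a₂ - x' - x) := (hW.a₂.neg.sub hx'ge).sub hxge
    have hℓ1 : v.HasOrd (ℓ + 1) (v.ord ℓ) :=
      (OrdFn.hasOrd_of_ne hℓord.1).add_gt (OrdFn.hasOrd_one.gt hℓneg)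
    have hprod : v.HasOrd (ℓ * (ℓ + 1)) (v.ord ℓ + v.ord ℓ) :=
      (OrdFn.hasOrd_of_ne hℓord.1).mul hℓ1
    have hall : v.HasOrd (ℓ * (ℓ + 1) + (-W.a₂ - x' - x)) (v.ord ℓ + v.ord ℓ) :=
      hprod.add_gt (hrest.gt_of_lt (by linarith))
    intro hge
    have := hge.le_ord hall.1
    rw [hall.2] at this
    linarith

end C5

end Fermat.Agent.S13
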