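/-
S13 / C2 (helper13): no point of order `p` in the kernel of reduction, `NodeSeq` form, valid in
every residue characteristic in which `p` and `p - 2` are units (in particular residue char. 2).

Port of `Fermat.Agent.S05.MultSeq.ord_nonneg`: if `ord (x 1) < 0`, put `ξ k := (x k)⁻¹` and
`γ := ord (ξ 1) > 0`; by induction `ξ k ≡ k² ξ 1` modulo elements of order `> γ`
(`1 ≤ k ≤ p - 1`), and `symm1` gives `p (p - 2) ∈ 𝔪`.
-/
import Fermat.Agent.S13.Defs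
import Fermat.Agent.S05.NoTorsion

set_option autoImplicit false

namespace Fermat.Agent.S13

open Fermat.Agent.S05 Fermat.Agent.S05.OrdFn

variable {K : Type*} [Field K]

theorem NodeSeq.ge_zero (v : OrdFn K) {a₄ b₂ : K} {p : ℕ} {x : ℕ → K}
    (hM : NodeSeq a₄ b₂ p x) (hp5 : 5 ≤ p) (ha₄ : v.Ge 0 a₄) (hb₂ : v.Ge 0 b₂)
    (hp : v.HasOrd (p : K) 0) (hp2 : v.HasOrd ((p : K) - 2) 0) : v.Ge 0 (x 1) := by
  refine Or.inr ?_
  by_contra hneg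
  rw [not_le] at hneg
  -- nonvanishing of the `x k`
  have hX0 : ∀ k, 1 ≤ k → k ≤ p - 1 → x k ≠ 0 := fun k h1 h2 =>
    left_ne_zero_of_mul (hM.nondeg k h1 h2)
  have hx0 : x 1 ≠ 0 := hX0 1 le_rfl (by omega)
  -- `ξ = (x 1)⁻¹` has order `γ > 0`
  obtain ⟨γ, hγ⟩ : ∃ γ : ℚ, γ = -v.ord (x 1) := ⟨_, rfl⟩
  have hγ0 : 0 < γ := by linarith
  have hξ : v.HasOrd (x 1)⁻¹ γ := ⟨inv_ne_zero hx0, by rw [ord_inv hx0, hγ]⟩
  have hξge : v.Ge 0 (x 1)⁻¹ := hξ.ge hγ0.le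
  -- the constants
  have h4 : v.Ge 0 (4 : K) := h13_ge_four
  have h2' : v.Ge 0 (2 : K) := h13_ge_two
  have hc₂ : v.Ge 0 b₂ := hb₂
  have hc₄ : v.Ge 0 (2 * a₄) := h13_ge_zero_mul h2' ha₄
  have hc₈ : v.Ge 0 (-(a₄ ^ 2)) := (h13_ge_zero_pow ha₄ 2).neg
  have hc₆ : v.Ge 0 (0 : K) := ge_zero' 0
  -- main claim
  have claim : ∀ k, 1 ≤ k → k ≤ p - 1 → v.Gt γ ((x k)⁻¹ - (k : K) ^ 2 * (x 1)⁻¹) := by
    intro k
    induction k using Nat.strong_induction_on with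
    | _ k ih =>
    intro hk1 hkp
    rcases Nat.lt_or_ge k 2 with hk | hk
    · -- k = 1
      have : k = 1 := by omega
      subst this
      simp only [Nat.cast_one, one_pow, one_mul, sub_self]
      exact gt_zero' γ
    rcases Nat.lt_or_ge k 3 with hk3 | hk3
    · -- k = 2 : duplication
      have : k = 2 := by omega
      subst this
      have hx2 : x 2 ≠ 0 := hX0 2 (by omega) hkp
      have hD : x 2 * (4 * x 1 ^ 3 + b₂ * x 1 ^ 2 + 2 * (2 * a₄) * x 1 + 0) =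
          x 1 ^ 4 - (2 * a₄) * x 1 ^ 2 - 2 * 0 * x 1 - (-(a₄ ^ 2)) := by
        linear_combination hM.dbl
      have key := h13_nt_alg_dup hx0 hx2 hD
      have ht : v.Ge 0 (2 * a₄ + 2 * 0 * (x 1)⁻¹ + -(a₄ ^ 2) * (x 1)⁻¹ ^ 2) :=
        (hc₄.add (h13_ge_zero_mul (h13_ge_zero_mul h2' hc₆) hξge)).add
          (h13_ge_zero_mul hc₈ (h13_ge_zero_pow hξge 2))
      have hs : v.Ge 0 ((b₂ + 2 * (2 * a₄) * (x 1)⁻¹ + 0 * (x 1)⁻¹ ^ 2) +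
          4 * (x 1)⁻¹ * (2 * a₄ + 2 * 0 * (x 1)⁻¹ + -(a₄ ^ 2) * (x 1)⁻¹ ^ 2)) :=
        ((hc₂.add (h13_ge_zero_mul (h13_ge_zero_mul h2' hc₄) hξge)).add
          (h13_ge_zero_mul hc₆ (h13_ge_zero_pow hξge 2))).add
          (h13_ge_zero_mul (h13_ge_zero_mul h4 hξge) ht)
      have hξ2 : v.HasOrd ((x 1)⁻¹ ^ 2) (2 * γ) := by
        have := hξ.pow 2
        simpa using this
      have hu : v.HasOrd
          (1 - (x 1)⁻¹ ^ 2 * (2 * a₄ + 2 * 0 * (x 1)⁻¹ + -(a₄ ^ 2) * (x 1)⁻¹ ^ 2)) 0 :=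
        hasOrd_one.sub_gt (((hξ2.gt (by linarith : (0 : ℚ) < 2 * γ)).mul_ge ht).mono (by norm_num))
      have hrhs : v.Ge (2 * γ + 0) ((x 1)⁻¹ ^ 2 *
          ((b₂ + 2 * (2 * a₄) * (x 1)⁻¹ + 0 * (x 1)⁻¹ ^ 2) +
          4 * (x 1)⁻¹ * (2 * a₄ + 2 * 0 * (x 1)⁻¹ + -(a₄ ^ 2) * (x 1)⁻¹ ^ 2))) :=
        (hξ2.ge le_rfl).mul hs
      rw [← key] at hrhs
      have hE := hrhs.of_hasOrd_mul hu
      have hE' : v.Gt γ ((x 2)⁻¹ - 4 * (x 1)⁻¹) := hE.gt_of_lt (by linarith)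
      have e : (x 2)⁻¹ - ((2 : ℕ) : K) ^ 2 * (x 1)⁻¹ = (x 2)⁻¹ - 4 * (x 1)⁻¹ := by
        push_cast; ring
      rw [e]
      exact hE'
    · -- k ≥ 3 : step from `m = k - 1`
      obtain ⟨m, rfl⟩ : ∃ m, k = m + 1 := ⟨k - 1, by omega⟩
      have hm2 : 2 ≤ m := by omega
      have hmp : m ≤ p - 2 := by omega
      have ihm := ih m (by omega) (by omega) (by omega)
      have ihm1 := ih (m - 1) (by omega) (by omega) (by omega)
      have hxm : x m ≠ 0 := hX0 m (by omega) (by omega)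
      have hxm1 : x (m - 1) ≠ 0 := hX0 (m - 1) (by omega) (by omega)
      have hxk : x (m + 1) ≠ 0 := hX0 (m + 1) (by omega) hkp
      -- `(x m)⁻¹` has order `≥ γ`
      have hξm : v.Ge γ (x m)⁻¹ := by
        have e : (x m)⁻¹ = ((x m)⁻¹ - (m : K) ^ 2 * (x 1)⁻¹) + (m : K) ^ 2 * (x 1)⁻¹ := by ring
        rw [e]
        refine ihm.ge.add ?_
        exact ((h13_ge_zero_pow (ge_natCast m) 2).mul (hξ.ge le_rfl)).mono (by norm_num)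
      have hξm0 : v.Ge 0 (x m)⁻¹ := hξm.mono hγ0.le
      have hS : (x (m + 1) + x (m - 1)) * (x m - x 1) ^ 2 =
          2 * x m * x 1 * (x m + x 1) + b₂ * x m * x 1 +
            (2 * a₄) * (x m + x 1) + 0 := by
        linear_combination hM.sum m hm2 hmp
      have hT : x (m + 1) * x (m - 1) * (x m - x 1) ^ 2 =
          x m ^ 2 * x 1 ^ 2 - (2 * a₄) * x m * x 1 - 0 * (x m + x 1) -
            (-(a₄ ^ 2)) := by
        linear_combination hM.prod m hm2 hmp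
      have key := h13_nt_alg_sum hxm hx0 hxk hxm1 hS hT
      have hsum : v.Ge 0 ((x m)⁻¹ + (x 1)⁻¹) := hξm0.add hξge
      have hprod : v.Ge 0 ((x m)⁻¹ * (x 1)⁻¹) := h13_ge_zero_mul hξm0 hξge
      have ht : v.Ge 0 (2 * a₄ + 0 * ((x m)⁻¹ + (x 1)⁻¹) +
          -(a₄ ^ 2) * ((x m)⁻¹ * (x 1)⁻¹)) :=
        (hc₄.add (h13_ge_zero_mul hc₆ hsum)).add (h13_ge_zero_mul hc₈ hprod)
      have hs : v.Ge 0 ((b₂ + 2 * a₄ * ((x m)⁻¹ + (x 1)⁻¹) +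
          0 * ((x m)⁻¹ * (x 1)⁻¹)) + 2 * ((x m)⁻¹ + (x 1)⁻¹) *
          (2 * a₄ + 0 * ((x m)⁻¹ + (x 1)⁻¹) + -(a₄ ^ 2) * ((x m)⁻¹ * (x 1)⁻¹))) :=
        ((hc₂.add (h13_ge_zero_mul hc₄ hsum)).add (h13_ge_zero_mul hc₆ hprod)).add
          (h13_ge_zero_mul (h13_ge_zero_mul h2' hsum) ht)
      have hmx : v.Ge (γ + γ) ((x m)⁻¹ * (x 1)⁻¹) := hξm.mul (hξ.ge le_rfl)
      have hu : v.HasOrd (1 - (x m)⁻¹ * (x 1)⁻¹ * (2 * a₄ + 0 * ((x m)⁻¹ + (x 1)⁻¹) +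
          -(a₄ ^ 2) * ((x m)⁻¹ * (x 1)⁻¹))) 0 :=
        hasOrd_one.sub_gt (((hmx.gt_of_lt (by linarith : (0 : ℚ) < γ + γ)).mul_ge ht).mono
          (by norm_num))
      have hrhs := hmx.mul hs
      rw [← key] at hrhs
      have hE := hrhs.of_hasOrd_mul hu
      have hE' : v.Gt γ ((x (m + 1))⁻¹ + (x (m - 1))⁻¹ - 2 * ((x m)⁻¹ + (x 1)⁻¹)) :=
        hE.gt_of_lt (by linarith)
      have hcast : ((m - 1 : ℕ) : K) = (m : K) - 1 := by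
        rw [Nat.cast_sub (by omega)]; simp
      have e : (x (m + 1))⁻¹ - ((m + 1 : ℕ) : K) ^ 2 * (x 1)⁻¹ =
          ((x (m + 1))⁻¹ + (x (m - 1))⁻¹ - 2 * ((x m)⁻¹ + (x 1)⁻¹)) +
            2 * ((x m)⁻¹ - (m : K) ^ 2 * (x 1)⁻¹) -
            ((x (m - 1))⁻¹ - ((m - 1 : ℕ) : K) ^ 2 * (x 1)⁻¹) := by
        rw [hcast]; push_cast; ring
      rw [e]
      refine (hE'.add ?_).sub ihm1
      exact (h2'.mul_gt ihm).mono (by norm_num)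
  -- `symm1`
  have hcast1 : ((p - 1 : ℕ) : K) = (p : K) - 1 := by
    rw [Nat.cast_sub (by omega)]; simp
  have hA' : v.Gt 0 ((p : K) - 2) := by
    have h1 := claim (p - 1) (by omega) le_rfl
    rw [hM.symm1, hcast1] at h1
    have e : (x 1)⁻¹ - ((p : K) - 1) ^ 2 * (x 1)⁻¹ = -(((p : K) - 2) * (p : K)) * (x 1)⁻¹ := by
      ring
    rw [e] at h1
    have h3 := (h1.of_hasOrd_mul hξ).neg
    rw [neg_neg] at h3
    exact (h3.of_hasOrd_mul hp).mono (by norm_num)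
  exact h13_not_gt_of_hasOrd hp2 hA'

end Fermat.Agent.S13
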