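/-
S13 / C1 (helper69): the Frey curve in raw coordinates.
(a) `nodeSeq_of_torsion` : raw-coordinate `NodeSeq` of a torsion point of a Frey model.
(b) `frey_isNodeModel`   : the Frey curve is a node model at 2, `m = p * v₂(b) - 4`.
-/
import Fermat.Agent.S13.Defs
import Fermat.Agent.S05.FreyModel
import Fermat.Agent.S05.FreyArith
import Fermat.Agent.Lib.FreyModel

set_option autoImplicit false
open WeierstrassCurve WeierstrassCurve.Affine WeierstrassCurve.Affine.Point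

namespace Fermat.Agent.S13

open Fermat.Agent.S05

section C1a

variable {K : Type*} [Field K]
variable [DecidableEq K] {W : WeierstrassCurve K}

/-- C1 NodeModel.lean (a): raw-coordinate `NodeSeq` of a torsion point of a Frey model. -/
theorem nodeSeq_of_torsion {A B : K} (hW : IsFreyModel W A B) (h2 : (2 : K) ≠ 0) {p : ℕ}
    (hpp : p.Prime) (hp5 : 5 ≤ p) {P : W.toAffine.Point} (hP0 : P ≠ 0) (hP : p • P = 0) :
    NodeSeq W.a₄ (1 + 4 * W.a₂) p (fun k => rawX (k • P)) := by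
  have h4 : (4 : K) ≠ 0 := by
    have : (4 : K) = 2 * 2 := by norm_num
    rw [this]; exact mul_ne_zero h2 h2
  have h16 : (16 : K) ≠ 0 := by
    have : (16 : K) = 4 * 4 := by norm_num
    rw [this]; exact mul_ne_zero h4 h4
  have hM := NodeSeq.of_multSeq h2 (multSeq_of_torsion hW h2 hpp hp5 hP0 hP)
  have e1 : -(A * B) / 16 = W.a₄ := by
    rw [← hW.a₄]; field_simp
  have e2 : B - A = 1 + 4 * W.a₂ := by
    rw [hW.a₂]; ring
  have e3 : (fun k : ℕ => ptX (k • P) / 4) = fun k : ℕ => rawX (k • P) := by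
    funext k
    rw [ptX_eq_four_mul_rawX, mul_div_cancel_left₀ _ h4]
  rw [e1, e2, e3] at hM
  exact hM

end C1a

/-- `a` is odd. -/
private theorem h69_not_two_dvd_a (P : FreyPackage) : ¬ ((2 : ℕ) : ℤ) ∣ P.a := by
  have hb : ((2 : ℕ) : ℤ) ∣ P.b := (ZMod.intCast_zmod_eq_zero_iff_dvd P.b 2).1 P.hb2
  have hg : gcd P.b P.a = 1 := by rw [gcd_comm]; exact P.hgcdab
  exact h50_not_dvd_of_gcd_eq_one Nat.prime_two hg hb

/-- C1 NodeModel.lean (b): the Frey curve is a node model at 2, `m = p * v₂(b) - 4`. -/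
theorem frey_isNodeModel (P : FreyPackage) (v : OrdFn Qb)
    (hvint : ∀ n : ℤ, n ≠ 0 → v.HasOrd (n : Qb) (padicValInt 2 n)) :
    IsNodeModel v (P.freyCurve⁄Qb) ((P.p : ℚ) * padicValInt 2 P.b - 4) := by
  have : Fact (Nat.Prime 2) := ⟨Nat.prime_two⟩
  have hF : IsFreyModel (P.freyCurve⁄Qb) ((P.a ^ P.p : ℤ) : Qb) ((P.b ^ P.p : ℤ) : Qb) :=
    isFreyModel_freyCurve P Qb
  have hb2 : ((2 : ℕ) : ℤ) ∣ P.b := (ZMod.intCast_zmod_eq_zero_iff_dvd P.b 2).1 P.hb2
  -- orders of `2`, `4`, `16`, `A = a ^ p`, `B = b ^ p`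
  have h2 : v.HasOrd (2 : Qb) 1 := by
    have := hvint 2 (by norm_num)
    have e : padicValInt 2 2 = 1 := by
      simp [padicValInt]
    rw [e] at this
    simpa using this
  have h4 : v.HasOrd (4 : Qb) 2 := by
    have := h2.mul h2
    have e : (2 : Qb) * 2 = 4 := by norm_num
    rw [e] at this
    exact this.congr (by norm_num)
  have h16 : v.HasOrd (16 : Qb) 4 := by
    have := h4.mul h4
    have e : (4 : Qb) * 4 = 16 := by norm_num
    rw [e] at this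
    exact this.congr (by norm_num)
  have hA : v.HasOrd ((P.a ^ P.p : ℤ) : Qb) 0 :=
    h50_hasOrd_pow_of_not_dvd v hvint P.ha0 (h69_not_two_dvd_a P) P.p
  have hB : v.HasOrd ((P.b ^ P.p : ℤ) : Qb) ((P.p : ℚ) * (padicValInt 2 P.b : ℕ)) :=
    h50_hasOrd_pow_of_dvd v hvint P.hb0 P.p
  have hvb : 1 ≤ padicValInt 2 P.b := h50_padicValInt_pos P.hb0 hb2
  have hm : (0 : ℚ) < (P.p : ℚ) * (padicValInt 2 P.b : ℕ) - 4 := by
    have h5 : (5 : ℚ) ≤ P.p := by exact_mod_cast P.hp5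
    have h1 : (1 : ℚ) ≤ (padicValInt 2 P.b : ℕ) := by exact_mod_cast hvb
    nlinarith
  -- `a₂` is an integer
  obtain ⟨k, hk⟩ := Fermat.Agent.Lib.frey_four_dvd_a₂_num P
  have ha₂ : (P.freyCurve⁄Qb).a₂ = (k : Qb) := by
    have h4' : (4 : Qb) ≠ 0 := h4.1
    have e := hF.a₂
    have e' : ((P.b ^ P.p : ℤ) : Qb) - 1 - ((P.a ^ P.p : ℤ) : Qb) = 4 * (k : Qb) := by
      have := congrArg (fun z : ℤ => (z : Qb)) hk
      simpa using this
    rw [e'] at e
    exact mul_left_cancel₀ h4' e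
  refine ⟨hF.a₁, hF.a₃, hF.a₆, ?_, ?_, hm, ?_, h2.gt (by norm_num)⟩
  · rw [ha₂]; exact OrdFn.ge_intCast k
  · -- `a₄ = -(A * B) / 16`
    have e : (P.freyCurve⁄Qb).a₄ = -(((P.a ^ P.p : ℤ) : Qb) * ((P.b ^ P.p : ℤ) : Qb)) / 16 := by
      rw [← hF.a₄]; field_simp [h16.1]
    rw [e]
    exact ((hA.mul hB).neg.div h16).congr (by ring)
  · -- `1 + 4 a₂ = B - A`
    have e : 1 + 4 * (P.freyCurve⁄Qb).a₂ = ((P.b ^ P.p : ℤ) : Qb) - ((P.a ^ P.p : ℤ) : Qb) := by
      rw [hF.a₂]; ring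
    rw [e]
    exact hA.gt_sub (hB.gt (by linarith))

end Fermat.Agent.S13
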