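/-
S13, module D4 RATIONAL (helper27).

* `exists_rat_of_fixed` : an element of `Qbar` fixed by the whole Galois group is rational.
* `ord_rat_int`         : for an `OrdFn` on `Qbar` that restricts to the `q`-adic valuation on
                          nonzero integers, the order of a nonzero rational is an integer.
-/
import Fermat.Agent.S13.Defs

set_option autoImplicit false

namespace Fermat.Agent.S13

open Fermat.Agent.S05

/-- The two `ℚ`-algebra structures on `Qbar` agree. -/
theorem h27_algClosure_rat_algebra_eq :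
    (DivisionRing.toRatAlgebra : Algebra ℚ Qb) = AlgebraicClosure.instAlgebra ℚ :=
  Subsingleton.elim _ _

/-- `Qbar` is an algebraic closure of `ℚ` for the canonical `ℚ`-algebra structure. -/
theorem h27_isAlgClosure_rat : IsAlgClosure ℚ Qb := by
  rw [h27_algClosure_rat_algebra_eq]; infer_instance

/-- `Qbar / ℚ` is Galois. -/
theorem h27_isGalois_rat : IsGalois ℚ Qb := by
  have := h27_isAlgClosure_rat
  infer_instance

/-- D4 Rational.lean (a): a Galois-fixed element of `Qbar` is rational. -/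
theorem exists_rat_of_fixed (y : Qb) (hy : ∀ σ : GQ, σ y = y) :
    ∃ q : ℚ, y = algebraMap ℚ Qb q := by
  have := h27_isGalois_rat
  have hmem : y ∈ (⊥ : IntermediateField ℚ Qb) := (InfiniteGalois.mem_bot_iff_fixed y).mpr hy
  obtain ⟨q, hq⟩ := IntermediateField.mem_bot.mp hmem
  exact ⟨q, hq.symm⟩

/-- the order of a nonzero integer, as an integer. -/
theorem h27_ord_int (v : OrdFn Qb) (q : ℕ)
    (hvint : ∀ n : ℤ, n ≠ 0 → v.HasOrd (n : Qb) (padicValInt q n)) (n : ℤ) (hn : n ≠ 0) :
    v.HasOrd (algebraMap ℚ Qb (n : ℚ)) ((padicValInt q n : ℤ) : ℚ) := by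
  have h := hvint n hn
  have e : algebraMap ℚ Qb (n : ℚ) = (n : Qb) := by simp
  rw [e]
  exact h.congr (by push_cast; rfl)

/-- explicit form: the order of a nonzero rational `r` is `v_q(num r) - v_q(den r)`. -/
theorem h27_ord_rat (v : OrdFn Qb) (q : ℕ)
    (hvint : ∀ n : ℤ, n ≠ 0 → v.HasOrd (n : Qb) (padicValInt q n)) (r : ℚ) (hr : r ≠ 0) :
    v.HasOrd (algebraMap ℚ Qb r)
      (((padicValInt q r.num : ℤ) - (padicValInt q (r.den : ℤ) : ℤ) : ℤ) : ℚ) := by
  have hnum : r.num ≠ 0 := Rat.num_ne_zero.mpr hr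
  have hden : (r.den : ℤ) ≠ 0 := by exact_mod_cast r.den_ne_zero
  have h1 := h27_ord_int v q hvint r.num hnum
  have h2 := h27_ord_int v q hvint (r.den : ℤ) hden
  have e : algebraMap ℚ Qb r =
      algebraMap ℚ Qb ((r.num : ℤ) : ℚ) / algebraMap ℚ Qb (((r.den : ℤ) : ℤ) : ℚ) := by
    rw [← map_div₀]
    congr 1
    exact_mod_cast (Rat.num_div_den r).symm
  rw [e]
  exact (h1.div h2).congr (by push_cast; rfl)

/-- D4 Rational.lean (b): `ord` of a nonzero rational is an integer. -/
theorem ord_rat_int (v : OrdFn Qb) (q : ℕ)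
    (hvint : ∀ n : ℤ, n ≠ 0 → v.HasOrd (n : Qb) (padicValInt q n)) (r : ℚ) (hr : r ≠ 0) :
    ∃ j : ℤ, v.HasOrd (algebraMap ℚ Qb r) j :=
  ⟨_, h27_ord_rat v q hvint r hr⟩

end Fermat.Agent.S13
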