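/-
S13 / C3 (helper75): `NodeSeq.unit_of_unit`.

In residue characteristic `2` (i.e. `2 ∈ 𝔪`), on a node model `y² + xy = x³ + a₂x² + a₄x` with
`a₄ ∈ 𝔪` and `b₂ = 1 + 4a₂` a unit, if the multiples `k • P` (`1 ≤ k ≤ p - 1`) all have integral
raw `x`-coordinate and `x(P)` is a unit, then every `x(k • P)` is a unit.

* doubling: `x₂ · x₁ · (4x₁² + b₂x₁ + 4a₄) = (x₁² - a₄)²`, both the cofactor and the right-hand
  side are units;
* step `k ↦ k + 1`: `x_{k+1} · x_{k-1} · (x_k - x₁)² = (x_k x₁ - a₄)²`, the right-hand side is a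
  unit and the three factors on the left are integral, so each of them is a unit.
-/
import Fermat.Agent.S13.Defs

set_option autoImplicit false

namespace Fermat.Agent.S13

open Fermat.Agent.S05 Fermat.Agent.S05.OrdFn

variable {K : Type*} [Field K]

/-- a product of three integral elements which is a unit: the first factor is a unit. -/
private theorem h75_unit_of_mul3 (v : OrdFn K) {a b c : K} (ha : v.Ge 0 a) (hb : v.Ge 0 b)
    (hc : v.Ge 0 c) (h : v.HasOrd (a * b * c) 0) : v.HasOrd a 0 := by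
  have habc := h.1
  have hab : a * b ≠ 0 := left_ne_zero_of_mul habc
  have hc0 : c ≠ 0 := right_ne_zero_of_mul habc
  have ha0 : a ≠ 0 := left_ne_zero_of_mul hab
  have hb0 : b ≠ 0 := right_ne_zero_of_mul hab
  refine ⟨ha0, ?_⟩
  have e := h.2
  rw [ord_mul hab hc0, ord_mul ha0 hb0] at e
  have h1 := ha.le_ord ha0
  have h2 := hb.le_ord hb0
  have h3 := hc.le_ord hc0
  linarith

/-- the square of a unit is a unit. -/
private theorem h75_sq_unit (v : OrdFn K) {a : K} (ha : v.HasOrd a 0) : v.HasOrd (a ^ 2) 0 :=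
  (ha.pow 2).congr (by norm_num)

/-- the product of two units is a unit. -/
private theorem h75_mul_unit (v : OrdFn K) {a b : K} (ha : v.HasOrd a 0) (hb : v.HasOrd b 0) :
    v.HasOrd (a * b) 0 :=
  (ha.mul hb).congr (by norm_num)

/-- `𝔪` is an ideal of the integers. -/
private theorem h75_gt_mul (v : OrdFn K) {a b : K} (ha : v.Gt 0 a) (hb : v.Ge 0 b) :
    v.Gt 0 (a * b) :=
  (ha.mul_ge hb).mono (by norm_num)

/-- C3 UnitProp.lean: in residue char. 2, if `x(P)` is a unit so are all `x(kP)`. -/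
theorem NodeSeq.unit_of_unit (v : OrdFn K) {a₄ b₂ : K} {p : ℕ} {x : ℕ → K}
    (hM : NodeSeq a₄ b₂ p x) (hp5 : 5 ≤ p) (ha₄ : v.Gt 0 a₄) (hb₂ : v.HasOrd b₂ 0)
    (h2 : v.Gt 0 (2 : K)) (hint : ∀ k, 1 ≤ k → k ≤ p - 1 → v.Ge 0 (x k))
    (h1 : v.HasOrd (x 1) 0) : ∀ k, 1 ≤ k → k ≤ p - 1 → v.HasOrd (x k) 0 := by
  -- `4 ∈ 𝔪`
  have h4 : v.Gt 0 (4 : K) := by
    have e : (4 : K) = 2 * 2 := by norm_num
    rw [e]
    exact h75_gt_mul v h2 h2.ge
  have h1ge : v.Ge 0 (x 1) := h1.ge le_rfl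
  -- the doubling step
  have hx2 : v.HasOrd (x 2) 0 := by
    have hd : v.HasOrd (4 * x 1 ^ 2 + b₂ * x 1 + 4 * a₄) 0 := by
      have e : 4 * x 1 ^ 2 + b₂ * x 1 + 4 * a₄ = b₂ * x 1 + (4 * x 1 ^ 2 + 4 * a₄) := by ring
      rw [e]
      refine (h75_mul_unit v hb₂ h1).add_gt ?_
      refine Gt.add ?_ ?_
      · exact h75_gt_mul v h4 ((h75_sq_unit v h1).ge le_rfl)
      · exact h75_gt_mul v h4 ha₄.ge
    have hn : v.HasOrd ((x 1 ^ 2 - a₄) ^ 2) 0 :=
      h75_sq_unit v ((h75_sq_unit v h1).sub_gt ha₄)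
    rw [← hM.dbl] at hn
    exact (hn.of_mul (h75_mul_unit v h1 hd)).congr (by norm_num)
  intro k
  induction k with
  | zero => intro h; omega
  | succ k ih =>
    intro _ hk
    rcases Nat.lt_or_ge k 2 with hk2 | hk2
    · interval_cases k
      · exact h1
      · exact hx2
    · have hxk : v.HasOrd (x k) 0 := ih (by omega) (by omega)
      have hpr := hM.prod k hk2 (by omega)
      have hn : v.HasOrd ((x k * x 1 - a₄) ^ 2) 0 :=
        h75_sq_unit v ((h75_mul_unit v hxk h1).sub_gt ha₄)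
      rw [← hpr] at hn
      have hsq : v.Ge 0 ((x k - x 1) ^ 2) :=
        (((hxk.ge le_rfl).sub h1ge).pow 2).mono (by norm_num)
      exact h75_unit_of_mul3 v (hint (k + 1) (by omega) hk)
        (hint (k - 1) (by omega) (by omega)) hsq hn

end Fermat.Agent.S13
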