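/-
S13 / C8 (helper34): the Frey curve has no rational point of order `p`.

A `GQ`-fixed point `R ≠ 0` of order `p` has rational raw coordinates.  At a valuation `v | 2`:
* `ord x(R) < 0` is excluded by C2 (`NodeSeq.ge_zero`);
* `ord x(R) = 0`: `x(2R)` is a unit as well (C3), all of `x(R), y(R), x(2R), y(2R)` are rational
  and integral, hence congruent to `0` or `1` mod `𝔪`; so `2R ≡ R` or `2R ≡ -R`, and C5
  (`node_congr`) makes `R` or `3R` a point of the kernel of reduction (or `0`), against C2;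
* `ord x(R) = c > 0`: C4 gives `c < m` and `p c = 2 j m` with `m = p v₂(b) - 4`; as `c ∈ ℤ`,
  `p ∣ 8 j`, so `p ∣ j` and `c ≥ 2 m`, a contradiction.
-/
import Fermat.Agent.S13.Rational
import Fermat.Agent.S13.NodeModel
import Fermat.Agent.S13.NoTorsion2
import Fermat.Agent.S13.UnitProp
import Fermat.Agent.S13.Component2
import Fermat.Agent.S13.Congr2
import Fermat.Agent.S05.OrdConstruct
import Fermat.Agent.S05.FreyArith

set_option autoImplicit false
open WeierstrassCurve WeierstrassCurve.Affine WeierstrassCurve.Affine.Point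

namespace Fermat.Agent.S13

open Fermat.Agent.S05 Fermat.Agent.S05.OrdFn

/-- there is a valuation subring of `Qbar` lying over `2`. -/
theorem h34_exists_valSubring_two : ∃ A : ValuationSubring Qb, A.LiesOverPrime 2 := by
  let f : ℤ →+* Qb := Int.castRingHom Qb
  let A₀ : Subring Qb := f.range
  have h2mem : (2 : Qb) ∈ A₀ := ⟨2, by simp [f]⟩
  let I : Ideal A₀ := Ideal.span {⟨2, h2mem⟩}
  have hI : I ≠ ⊤ := by
    intro h
    have h1 : (1 : A₀) ∈ I := by rw [h]; trivial
    obtain ⟨a, ha⟩ := Ideal.mem_span_singleton'.mp h1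
    obtain ⟨n, hn⟩ := a.2
    have h3 : (a : Qb) * 2 = 1 := congrArg Subtype.val ha
    rw [← hn] at h3
    have h4 : ((n * 2 : ℤ) : Qb) = ((1 : ℤ) : Qb) := by
      push_cast
      simpa [f] using h3
    have h5 : n * 2 = 1 := Int.cast_injective h4
    omega
  obtain ⟨B, -, hB⟩ := Ideal.image_subset_nonunits_valuationSubring I hI
  refine ⟨B, ?_⟩
  unfold ValuationSubring.LiesOverPrime
  have : (2 : Qb) ∈ A₀.subtype '' (I : Set A₀) :=
    ⟨⟨2, h2mem⟩, Ideal.subset_span rfl, rfl⟩
  simpa using hB this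

theorem h34_rawX_smul (P : FreyPackage) (σ : GQ) (R : (P.freyCurve⁄Qb).Point) :
    rawX (σ • R) = σ (rawX R) := by
  rw [algEquiv_smul_def]
  rcases R with _ | ⟨x, y, h⟩
  · simp [rawX, ← Point.zero_def]
  · simp [rawX, Point.map_some]

theorem h34_rawY_smul (P : FreyPackage) (σ : GQ) (R : (P.freyCurve⁄Qb).Point) :
    rawY (σ • R) = σ (rawY R) := by
  rw [algEquiv_smul_def]
  rcases R with _ | ⟨x, y, h⟩
  · simp [rawY, ← Point.zero_def]
  · simp [rawY, Point.map_some]

/-- an even integer over an odd integer lies in `𝔪` (`v | 2`). -/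
theorem h34_even_div_odd (v : OrdFn Qb)
    (hvint : ∀ n : ℤ, n ≠ 0 → v.HasOrd (n : Qb) (padicValInt 2 n)) (k d : ℤ)
    (hk : (2 : ℤ) ∣ k) (hd : ¬ (2 : ℤ) ∣ d) : v.Gt 0 ((k : Qb) / (d : Qb)) := by
  have : Fact (Nat.Prime 2) := ⟨Nat.prime_two⟩
  by_cases hk0 : k = 0
  · left; simp [hk0]
  have hd0 : d ≠ 0 := by rintro rfl; exact hd (dvd_zero _)
  have h1 := hvint k hk0
  have h2 := hvint d hd0
  have h3 : padicValInt 2 d = 0 := padicValInt.eq_zero_of_not_dvd (by exact_mod_cast hd)
  have h4 : 0 < padicValInt 2 k := h50_padicValInt_pos hk0 (by exact_mod_cast hk)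
  rw [h3] at h2
  have h5 := h1.div h2
  refine h5.gt ?_
  have : (0 : ℚ) < (padicValInt 2 k : ℕ) := by exact_mod_cast h4
  simpa using this

/-- the residue field of `v | 2` restricted to `ℚ` is `𝔽₂`. -/
theorem h34_rat_res (v : OrdFn Qb)
    (hvint : ∀ n : ℤ, n ≠ 0 → v.HasOrd (n : Qb) (padicValInt 2 n)) (r : ℚ)
    (hr : v.Ge 0 (algebraMap ℚ Qb r)) :
    v.Gt 0 (algebraMap ℚ Qb r) ∨ v.Gt 0 (algebraMap ℚ Qb r - 1) := by
  have : Fact (Nat.Prime 2) := ⟨Nat.prime_two⟩
  have hcast : algebraMap ℚ Qb r = ((r.num : ℤ) : Qb) / ((r.den : ℤ) : Qb) := by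
    rw [eq_ratCast, Rat.cast_def]; simp
  have hden0 : ((r.den : ℤ) : Qb) ≠ 0 := by
    have := r.den_ne_zero
    exact_mod_cast this
  by_cases hd : (2 : ℤ) ∣ (r.den : ℤ)
  · -- impossible: the numerator is odd
    exfalso
    have hn : ¬ (2 : ℤ) ∣ r.num := by
      intro hn
      have h1 : (2 : ℕ) ∣ r.num.natAbs := by
        have := Int.natAbs_dvd_natAbs.mpr hn
        simpa using this
      have h2 : (2 : ℕ) ∣ r.den := by exact_mod_cast hd
      have h3 := Nat.dvd_gcd h1 h2
      rw [r.reduced] at h3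
      omega
    have hn0 : r.num ≠ 0 := by rintro h; exact hn (h ▸ dvd_zero _)
    have hdz : (r.den : ℤ) ≠ 0 := by exact_mod_cast r.den_ne_zero
    have h1 := hvint r.num hn0
    have h2 := hvint (r.den : ℤ) hdz
    have h3 : padicValInt 2 r.num = 0 := padicValInt.eq_zero_of_not_dvd (by exact_mod_cast hn)
    have h4 : 0 < padicValInt 2 (r.den : ℤ) := h50_padicValInt_pos hdz (by exact_mod_cast hd)
    rw [h3] at h1
    have h5 := h1.div h2
    rw [← hcast] at h5
    have h6 := hr.le_ord h5.ne_zero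
    rw [h5.ord_eq] at h6
    have : (0 : ℚ) < (padicValInt 2 (r.den : ℤ) : ℕ) := by exact_mod_cast h4
    rw [Nat.cast_zero] at h6
    linarith
  · by_cases hn : (2 : ℤ) ∣ r.num
    · left
      rw [hcast]
      exact h34_even_div_odd v hvint _ _ hn hd
    · right
      have h1 : (2 : ℤ) ∣ r.num - (r.den : ℤ) := by omega
      have h2 := h34_even_div_odd v hvint _ _ h1 hd
      have h3 : algebraMap ℚ Qb r - 1 = ((r.num - (r.den : ℤ) : ℤ) : Qb) / ((r.den : ℤ) : Qb) := by
        rw [hcast]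
        push_cast
        field_simp
      rw [h3]
      exact h2

section Node

variable {K : Type*} [Field K] {W : WeierstrassCurve K}

/-- integrality of the raw `y`-coordinate of a point with integral raw `x`-coordinate. -/
theorem h34_rawY_ge (v : OrdFn K) {m : ℚ} (hW : IsNodeModel v W m) (Q : W.toAffine.Point)
    (hx : v.Ge 0 (rawX Q)) : v.Ge 0 (rawY Q) := by
  rcases Q with _ | ⟨x, y, h⟩
  · exact ge_zero' 0
  · show v.Ge 0 y
    have hx' : v.Ge 0 x := hx
    have heq := (WeierstrassCurve.Affine.equation_iff (W := W.toAffine) x y).mp h.1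
    rw [hW.a₁, hW.a₃, hW.a₆] at heq
    by_contra hy
    have hy0 : y ≠ 0 := fun h0 => hy (Or.inl h0)
    have hylt : v.ord y < 0 := by
      by_contra hge
      exact hy (Or.inr (not_lt.mp hge))
    have hyo : v.HasOrd y (v.ord y) := hasOrd_of_ne hy0
    have hyx : v.HasOrd (y + x) (v.ord y) := hyo.add_gt (hx'.gt_of_lt hylt)
    have hl : v.HasOrd (y * (y + x)) (v.ord y + v.ord y) := hyo.mul hyx
    have ha₄ : v.Ge 0 W.a₄ := hW.a₄.ge hW.pos.le
    have hr : v.Ge 0 (x ^ 3 + W.a₂ * x ^ 2 + W.a₄ * x) := by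
      have h1 : v.Ge 0 (x ^ 3) := by simpa using hx'.pow 3
      have h2 : v.Ge 0 (W.a₂ * x ^ 2) := by
        have := hW.a₂.mul (hx'.pow 2)
        simpa using this
      have h3 : v.Ge 0 (W.a₄ * x) := by simpa using ha₄.mul hx'
      exact (h1.add h2).add h3
    have he : y * (y + x) = x ^ 3 + W.a₂ * x ^ 2 + W.a₄ * x := by
      linear_combination heq
    rw [← he] at hr
    have := hr.le_ord hl.ne_zero
    rw [hl.ord_eq] at this
    linarith

theorem h34_rawX_neg (Q : W.toAffine.Point) : rawX (-Q) = rawX Q := by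
  rcases Q with _ | ⟨x, y, h⟩
  · rfl
  · rfl

theorem h34_rawY_neg (v : OrdFn K) {m : ℚ} (hW : IsNodeModel v W m) (Q : W.toAffine.Point) :
    rawY (-Q) = -rawY Q - rawX Q := by
  rcases Q with _ | ⟨x, y, h⟩
  · show (0 : K) = -0 - 0
    simp
  · show W.toAffine.negY x y = -y - x
    rw [WeierstrassCurve.Affine.negY, hW.a₁, hW.a₃]
    ring

end Node

/-- arithmetic core of the case `ord x > 0`. -/
theorem h34_arith {p : ℕ} (hpp : p.Prime) (hp5 : 5 ≤ p) (V n j : ℤ)
    (hn : 0 < n) (hlt : n < p * V - 4) (h : (p : ℤ) * n = j * (2 * (p * V - 4))) : False := by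
  have hpz : Prime (p : ℤ) := Nat.prime_iff_prime_int.mp hpp
  have h1 : (p : ℤ) ∣ 8 * j := ⟨2 * j * V - n, by linear_combination h⟩
  have h2 : (p : ℤ) ∣ j := by
    rcases hpz.dvd_or_dvd h1 with h8 | hj
    · exfalso
      have h8' : p ∣ 8 := by exact_mod_cast h8
      have hle := Nat.le_of_dvd (by norm_num) h8'
      have : p ∣ 2 ^ 3 := by simpa using h8'
      have := (Nat.prime_dvd_prime_iff_eq hpp Nat.prime_two).mp (hpp.dvd_of_dvd_pow this)
      omega
    · exact hj
  obtain ⟨j', rfl⟩ := h2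
  have hp0 : (p : ℤ) ≠ 0 := by exact_mod_cast hpp.ne_zero
  have h3 : n = j' * (2 * (p * V - 4)) := by
    apply mul_left_cancel₀ hp0
    linear_combination h
  have hM : 0 < (p : ℤ) * V - 4 := by linarith
  have hj' : 0 < j' := by
    by_contra hneg
    have : j' ≤ 0 := not_lt.mp hneg
    nlinarith
  nlinarith

/-- generic core of C8: a point of order `p` on a node model all of whose multiples have
coordinates in a set `S` of elements with integral order and residue `0` or `1` cannot exist. -/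
theorem h34_core {K : Type*} [Field K] [DecidableEq K] (v : OrdFn K) {W : WeierstrassCurve K}
    {A B : K} {m : ℚ} (hW : IsFreyModel W A B) (hN : IsNodeModel v W m) (h2ne : (2 : K) ≠ 0)
    {p : ℕ} (hpp : p.Prime) (hp5 : 5 ≤ p)
    (hp0 : v.HasOrd (p : K) 0) (hp2 : v.HasOrd ((p : K) - 2) 0)
    (V : ℤ) (hm : m = (p : ℚ) * V - 4) (S : Set K)
    (hSint : ∀ y ∈ S, y ≠ 0 → ∃ j : ℤ, v.HasOrd y j)
    (hres : ∀ y ∈ S, v.Ge 0 y → v.Gt 0 y ∨ v.Gt 0 (y - 1))
    (R : W.toAffine.Point) (hR0 : R ≠ 0) (hpR : p • R = 0)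
    (hratX : ∀ k : ℕ, rawX (k • R) ∈ S) (hratY : ∀ k : ℕ, rawY (k • R) ∈ S) : False := by
  -- the multiples `k • R`, `1 ≤ k ≤ p - 1`, are nonzero of order `p`
  have hkne : ∀ k : ℕ, 1 ≤ k → k ≤ p - 1 → k • R ≠ 0 := by
    intro k h1 hk h0
    have hd1 : addOrderOf R ∣ p := addOrderOf_dvd_of_nsmul_eq_zero hpR
    have hd2 : addOrderOf R ∣ k := addOrderOf_dvd_of_nsmul_eq_zero h0
    rcases (Nat.dvd_prime hpp).mp hd1 with h | h
    · exact hR0 (AddMonoid.addOrderOf_eq_one_iff.mp h)
    · rw [h] at hd2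
      have := Nat.le_of_dvd (by omega) hd2
      omega
  have hkp : ∀ k : ℕ, p • (k • R) = 0 := fun k => by rw [smul_comm, hpR, nsmul_zero]
  have ha₄ge : v.Ge 0 W.a₄ := hN.a₄.ge hN.pos.le
  have hb₂ge : v.Ge 0 (1 + 4 * W.a₂) := hN.b₂.ge le_rfl
  -- integrality of all `x (k • R)`
  have hint : ∀ k : ℕ, 1 ≤ k → k ≤ p - 1 → v.Ge 0 (rawX (k • R)) := by
    intro k h1 hk
    have hMk := nodeSeq_of_torsion hW h2ne hpp hp5 (hkne k h1 hk) (hkp k)
    have h := hMk.ge_zero v hp5 ha₄ge hb₂ge hp0 hp2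
    simpa only [one_nsmul] using h
  have hM := nodeSeq_of_torsion hW h2ne hpp hp5 hR0 hpR
  have hX0 : rawX R ≠ 0 := by
    have := hM.nondeg 1 le_rfl (by omega)
    simp only [one_nsmul] at this
    exact left_ne_zero_of_mul this
  have hratX1 : rawX R ∈ S := by
    have := hratX 1
    rwa [one_nsmul] at this
  have hratY1 : rawY R ∈ S := by
    have := hratY 1
    rwa [one_nsmul] at this
  obtain ⟨j, hj⟩ := hSint _ hratX1 hX0
  have hint1 : v.Ge 0 (rawX R) := by
    have := hint 1 le_rfl (by omega)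
    rwa [one_nsmul] at this
  have hj0 : (0 : ℚ) ≤ j := by
    have := hint1.le_ord hX0
    rwa [hj.ord_eq] at this
  rcases eq_or_lt_of_le hj0 with hzero | hpos
  · -- unit case
    have h1 : v.HasOrd (rawX R) 0 := hj.congr hzero.symm
    have hunit := hM.unit_of_unit v hp5 (hN.a₄.gt hN.pos) hN.b₂ hN.two hint
      (by simpa only [one_nsmul] using h1)
    have h2u : v.HasOrd (rawX (2 • R)) 0 := hunit 2 (by norm_num) (by omega)
    have hres1 : ∀ y ∈ S, v.HasOrd y 0 → v.Gt 0 (y - 1) := by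
      intro y hy hy0
      rcases hres y hy (hy0.ge le_rfl) with h | h
      · exfalso
        have := h.lt_ord hy0.ne_zero
        rw [hy0.ord_eq] at this
        exact lt_irrefl _ this
      · exact h
    have hX1 : v.Gt 0 (rawX R - 1) := hres1 _ hratX1 h1
    have hX2 : v.Gt 0 (rawX (2 • R) - 1) := hres1 _ (hratX 2) h2u
    have hx12 : v.Gt 0 (rawX (2 • R) - rawX R) := by
      have := hX2.sub hX1
      have e : rawX (2 • R) - 1 - (rawX R - 1) = rawX (2 • R) - rawX R := by ring
      rwa [e] at this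
    have hY1 : v.Ge 0 (rawY R) := h34_rawY_ge v hN R hint1
    have hY2 : v.Ge 0 (rawY (2 • R)) := h34_rawY_ge v hN (2 • R) (h2u.ge le_rfl)
    have h3R : v.Ge 0 (rawX (3 • R)) := hint 3 (by norm_num) (by omega)
    have h3ne : (3 : ℕ) • R ≠ 0 := hkne 3 (by norm_num) (by omega)
    have h2mem : v.Gt 0 (2 : K) := hN.two
    -- the two alternatives
    have same : v.Gt 0 (rawY (2 • R) - rawY R) → False := by
      intro hy
      rcases node_congr v hN h1 hx12 hy with h | h
      · apply hR0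
        have : R + R = R := by rw [← two_nsmul]; exact h
        simpa using this
      · apply h
        have e : (2 : ℕ) • R - R = R := by rw [two_nsmul]; abel
        rw [e]
        exact hint1
    have opp : v.Gt 0 (rawY (2 • R) + rawY R + 1) → False := by
      intro hy
      have hQ : v.HasOrd (rawX (-R)) 0 := by rw [h34_rawX_neg]; exact h1
      have hx' : v.Gt 0 (rawX (2 • R) - rawX (-R)) := by rw [h34_rawX_neg]; exact hx12
      have hy' : v.Gt 0 (rawY (2 • R) - rawY (-R)) := by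
        rw [h34_rawY_neg v hN]
        have := (hy.add hX1)
        have e : rawY (2 • R) + rawY R + 1 + (rawX R - 1) =
            rawY (2 • R) - (-rawY R - rawX R) := by ring
        rwa [e] at this
      rcases node_congr v hN hQ hx' hy' with h | h
      · apply h3ne
        have e : (3 : ℕ) • R = 2 • R + R := succ_nsmul R 2
        rw [e, h]
        simp
      · apply h
        have e : (2 : ℕ) • R - -R = 3 • R := by
          rw [sub_neg_eq_add]; exact (succ_nsmul R 2).symm
        rw [e]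
        exact h3R
    rcases hres _ hratY1 hY1 with ha | ha <;> rcases hres _ (hratY 2) hY2 with hb | hb
    · exact same (hb.sub ha)
    · apply opp
      have := (hb.add ha).add (h2mem)
      have e : rawY (2 • R) - 1 + rawY R + 2 = rawY (2 • R) + rawY R + 1 := by ring
      rwa [e] at this
    · apply opp
      have := (hb.add ha).add (h2mem)
      have e : rawY (2 • R) + (rawY R - 1) + 2 = rawY (2 • R) + rawY R + 1 := by ring
      rwa [e] at this
    · apply same
      have := hb.sub ha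
      have e : rawY (2 • R) - 1 - (rawY R - 1) = rawY (2 • R) - rawY R := by ring
      rwa [e] at this
  · -- positive order
    have hpos' : 0 < v.ord (rawX ((1 : ℕ) • R)) := by
      rw [one_nsmul, hj.ord_eq]; exact hpos
    obtain ⟨hlt, i, hi⟩ := hM.ord_pos_integral v hpp hp5 hN.a₄ hN.pos hN.b₂ hint hpos'
    rw [one_nsmul, hj.ord_eq, hm] at hlt hi
    have hjpos : 0 < j := by exact_mod_cast hpos
    refine h34_arith hpp hp5 V j i hjpos ?_ ?_
    · have : (j : ℚ) < (((p : ℤ) * V - 4 : ℤ) : ℚ) := by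
        push_cast
        exact hlt
      exact_mod_cast this
    · have : (((p : ℤ) * j : ℤ) : ℚ) = ((i * (2 * ((p : ℤ) * V - 4)) : ℤ) : ℚ) := by
        push_cast
        exact hi
      exact_mod_cast this

/-- C8: the Frey curve has no rational point of order `p`. -/
theorem no_fixed_point (P : FreyPackage) (x : Tors P) (hx : ∀ σ : GQ, σ • x = x) : x = 0 := by
  by_contra hx0
  obtain ⟨A, hA⟩ := h34_exists_valSubring_two
  obtain ⟨v, -, hvint, -, -⟩ := exists_ordFn 2 Nat.prime_two A hA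
  have hp5 := P.hp5
  obtain ⟨R, hR⟩ : ∃ R : (P.freyCurve⁄Qb).Point, R = x.1 := ⟨_, rfl⟩
  have hR0 : R ≠ 0 := by
    rw [hR]
    intro h
    exact hx0 (Subtype.ext h)
  have hpR : P.p • R = 0 := by
    have h := (Submodule.mem_torsionBy_iff _ _).mp x.2
    rw [natCast_zsmul] at h
    rw [hR]
    exact h
  have hfix : ∀ σ : GQ, σ • R = R := fun σ => by
    rw [hR]
    exact congrArg Subtype.val (hx σ)
  have hW := isFreyModel_freyCurve P Qb
  have hN := frey_isNodeModel P v hvint
  have h2ne : (2 : Qb) ≠ 0 := two_ne_zero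
  -- all multiples are fixed, hence have rational coordinates
  have hfixk : ∀ (k : ℕ) (σ : GQ), σ • (k • R) = k • R := fun k σ => by
    rw [← natCast_zsmul, algEquiv_smul_zsmul, hfix σ]
  have hratX : ∀ k : ℕ, rawX (k • R) ∈ Set.range (algebraMap ℚ Qb) := fun k => by
    obtain ⟨q, hq⟩ := exists_rat_of_fixed (rawX (k • R))
      (fun σ => by rw [← h34_rawX_smul, hfixk k σ])
    exact ⟨q, hq.symm⟩
  have hratY : ∀ k : ℕ, rawY (k • R) ∈ Set.range (algebraMap ℚ Qb) := fun k => by
    obtain ⟨q, hq⟩ := exists_rat_of_fixed (rawY (k • R))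
      (fun σ => by rw [← h34_rawY_smul, hfixk k σ])
    exact ⟨q, hq.symm⟩
  -- `p` and `p - 2` are units at `2`
  have hpodd : ¬ (2 : ℤ) ∣ (P.p : ℤ) := by
    have := P.hp_odd
    intro h
    have h' : 2 ∣ P.p := by exact_mod_cast h
    exact (Nat.not_even_iff_odd.mpr this) (even_iff_two_dvd.mpr h')
  have hp0 : v.HasOrd (P.p : Qb) 0 := by
    have h := hvint P.p (by exact_mod_cast P.hp0)
    rw [padicValInt.eq_zero_of_not_dvd (by exact_mod_cast hpodd)] at h
    simpa using h
  have hp2 : v.HasOrd ((P.p : Qb) - 2) 0 := by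
    have hne : (P.p : ℤ) - 2 ≠ 0 := by omega
    have hnd : ¬ (2 : ℤ) ∣ (P.p : ℤ) - 2 := by omega
    have h := hvint ((P.p : ℤ) - 2) hne
    rw [padicValInt.eq_zero_of_not_dvd (by exact_mod_cast hnd)] at h
    simpa using h
  refine h34_core v hW hN h2ne P.pp hp5 hp0 hp2 ((padicValInt 2 P.b : ℕ) : ℤ) (by push_cast; rfl)
    (Set.range (algebraMap ℚ Qb)) ?_ ?_ R hR0 hpR hratX hratY
  · rintro y ⟨q, rfl⟩ hy0
    exact ord_rat_int v 2 hvint q (by rintro rfl; exact hy0 (_root_.map_zero _))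
  · rintro y ⟨q, rfl⟩ hy
    exact h34_rat_res v hvint q hy

end Fermat.Agent.S13
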