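/-
S13, task E1 (helper73): point stabilisers in `G_ℚ` of `p`-torsion points are open, and the two
subgroups attached to a line `N ⊆ E[p]`:

* `h73_fixSub P N`  (`H₁`) : the pointwise stabiliser of `N`,
* `h73_quotSub P N` (`H₂`) : the elements acting trivially on `E[p] / N`,

are open (given finiteness of `E[p]`) and normal (given Galois stability of `N`).
-/
import Fermat.Agent.S13.Defs

set_option autoImplicit false
open WeierstrassCurve WeierstrassCurve.Affine WeierstrassCurve.Affine.Point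

namespace Fermat.Agent.S13

open Fermat.Agent.S05

theorem h73_isIntegral_rat : Algebra.IsIntegral ℚ Qb := by
  have e : (DivisionRing.toRatAlgebra : Algebra ℚ (AlgebraicClosure ℚ)) =
      AlgebraicClosure.instAlgebra ℚ := Subsingleton.elim _ _
  unfold Qb
  rw [e]
  infer_instance

/-- the stabiliser of a point of the Frey curve over `Qbar` is open. -/
theorem h73_isOpen_stabilizer_point (P : FreyPackage) (R : (P.freyCurve⁄Qb).Point) :
    IsOpen {σ : GQ | σ • R = R} := by
  rcases R with _ | ⟨x0, y0, h⟩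
  · convert isOpen_univ using 1
    ext σ
    simp only [Set.mem_ofPred_eq, Set.mem_univ, iff_true]
    rfl
  · have e : {σ : GQ | σ • (Point.some x0 y0 h : (P.freyCurve⁄Qb).Point) = Point.some x0 y0 h} =
        (MulAction.stabilizer GQ x0 : Set GQ) ∩ (MulAction.stabilizer GQ y0 : Set GQ) := by
      ext σ
      simp only [Set.mem_ofPred_eq, Set.mem_inter_iff, SetLike.mem_coe,
        MulAction.mem_stabilizer_iff, algEquiv_smul_def, Point.map_some, Point.some.injEq]
      rfl
    rw [e]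
    have := h73_isIntegral_rat
    exact (stabilizer_isOpen_of_isIntegral x0).inter (stabilizer_isOpen_of_isIntegral y0)

/-- E1: point stabilisers are open. -/
theorem isOpen_stabilizer (P : FreyPackage) (x : Tors P) : IsOpen {σ : GQ | σ • x = x} := by
  have e : {σ : GQ | σ • x = x} = {σ : GQ | σ • (x : (P.freyCurve⁄Qb).Point) = x} := by
    ext σ
    simp only [Set.mem_ofPred_eq]
    exact Subtype.ext_iff
  rw [e]
  exact h73_isOpen_stabilizer_point P x

/-- the kernel of the action of `G_ℚ` on `E[p]`. -/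
def h73_kerSub (P : FreyPackage) : Subgroup GQ where
  carrier := {σ | ∀ x : Tors P, σ • x = x}
  mul_mem' := fun {σ τ} hσ hτ x => by rw [mul_smul, hτ x, hσ x]
  one_mem' := fun x => one_smul _ x
  inv_mem' := fun {σ} hσ x => by
    conv_lhs => rw [← hσ x]
    rw [inv_smul_smul]

theorem h73_mem_kerSub (P : FreyPackage) (σ : GQ) :
    σ ∈ h73_kerSub P ↔ ∀ x : Tors P, σ • x = x := Iff.rfl

theorem h73_isOpen_kerSub (P : FreyPackage) (hfin : Finite (Tors P)) :
    IsOpen (h73_kerSub P : Set GQ) := by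
  have e : (h73_kerSub P : Set GQ) = ⋂ x : Tors P, {σ : GQ | σ • x = x} := by
    ext σ
    simp only [SetLike.mem_coe, h73_mem_kerSub, Set.mem_iInter, Set.mem_ofPred_eq]
  rw [e]
  exact isOpen_iInter_of_finite fun x => isOpen_stabilizer P x

/-- `H₁`: the pointwise stabiliser of `N`. -/
def h73_fixSub (P : FreyPackage) (N : Submodule (ZMod P.p) (Tors P)) : Subgroup GQ where
  carrier := {σ | ∀ x ∈ N, σ • x = x}
  mul_mem' := fun {σ τ} hσ hτ x hx => by rw [mul_smul, hτ x hx, hσ x hx]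
  one_mem' := fun x _ => one_smul _ x
  inv_mem' := fun {σ} hσ x hx => by
    conv_lhs => rw [← hσ x hx]
    rw [inv_smul_smul]

theorem h73_mem_fixSub (P : FreyPackage) (N : Submodule (ZMod P.p) (Tors P)) (σ : GQ) :
    σ ∈ h73_fixSub P N ↔ ∀ x ∈ N, σ • x = x := Iff.rfl

theorem h73_kerSub_le_fixSub (P : FreyPackage) (N : Submodule (ZMod P.p) (Tors P)) :
    h73_kerSub P ≤ h73_fixSub P N := fun _ hσ x _ => hσ x

theorem h73_isOpen_fixSub (P : FreyPackage) (hfin : Finite (Tors P))
    (N : Submodule (ZMod P.p) (Tors P)) : IsOpen (h73_fixSub P N : Set GQ) :=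
  Subgroup.isOpen_mono (h73_kerSub_le_fixSub P N) (h73_isOpen_kerSub P hfin)

theorem h73_fixSub_normal (P : FreyPackage) (N : Submodule (ZMod P.p) (Tors P))
    (hN : IsGaloisStable ℚ N) : (h73_fixSub P N).Normal := by
  refine ⟨fun σ hσ τ x hx => ?_⟩
  have h1 : τ⁻¹ • x ∈ N := hN τ⁻¹ x hx
  rw [mul_smul, mul_smul, hσ _ h1, smul_inv_smul]

/-- `H₂`: the elements acting trivially on `E[p] / N`. -/
def h73_quotSub (P : FreyPackage) (N : Submodule (ZMod P.p) (Tors P)) : Subgroup GQ where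
  carrier := {σ | ∀ x : Tors P, σ • x - x ∈ N}
  mul_mem' := fun {σ τ} hσ hτ x => by
    have h1 : σ • τ • x - τ • x ∈ N := hσ (τ • x)
    have h2 : τ • x - x ∈ N := hτ x
    have e : (σ * τ) • x - x = (σ • τ • x - τ • x) + (τ • x - x) := by
      rw [mul_smul]; abel
    rw [e]
    exact N.add_mem h1 h2
  one_mem' := fun x => by
    rw [one_smul, sub_self]; exact N.zero_mem
  inv_mem' := fun {σ} hσ x => by
    have h1 : σ • σ⁻¹ • x - σ⁻¹ • x ∈ N := hσ (σ⁻¹ • x)
    rw [smul_inv_smul] at h1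
    have e : σ⁻¹ • x - x = -(x - σ⁻¹ • x) := by abel
    rw [e]
    exact N.neg_mem h1

theorem h73_mem_quotSub (P : FreyPackage) (N : Submodule (ZMod P.p) (Tors P)) (σ : GQ) :
    σ ∈ h73_quotSub P N ↔ ∀ x : Tors P, σ • x - x ∈ N := Iff.rfl

theorem h73_kerSub_le_quotSub (P : FreyPackage) (N : Submodule (ZMod P.p) (Tors P)) :
    h73_kerSub P ≤ h73_quotSub P N := fun σ hσ x => by
  show σ • x - x ∈ N
  rw [hσ x, sub_self]; exact N.zero_mem

theorem h73_isOpen_quotSub (P : FreyPackage) (hfin : Finite (Tors P))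
    (N : Submodule (ZMod P.p) (Tors P)) : IsOpen (h73_quotSub P N : Set GQ) :=
  Subgroup.isOpen_mono (h73_kerSub_le_quotSub P N) (h73_isOpen_kerSub P hfin)

theorem h73_quotSub_normal (P : FreyPackage) (N : Submodule (ZMod P.p) (Tors P))
    (hN : IsGaloisStable ℚ N) : (h73_quotSub P N).Normal := by
  refine ⟨fun σ hσ τ x => ?_⟩
  have h1 : σ • τ⁻¹ • x - τ⁻¹ • x ∈ N := hσ (τ⁻¹ • x)
  have h2 := hN τ _ h1
  have e : (τ * σ * τ⁻¹) • x - x = τ • (σ • τ⁻¹ • x - τ⁻¹ • x) := by
    rw [mul_smul, mul_smul, smul_sub, smul_inv_smul]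
  rw [e]
  exact h2

end Fermat.Agent.S13
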