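/-
S13 helper (helper12): x-only LADDER POLYNOMIALS for the Frey model `Y² = X (X - A) (X + B)`.

`lad A B n = (Φ_n, Q_n)` are polynomials in the normalised coordinate `X = ptX P` of a point `P`
such that (projectively) `ptX (n • P) = Φ_n / Q_n`.  They are defined by a division-free binary
recursion (doubling + differential addition with difference `P`), so no elliptic-net identity is
needed.  Main results:

* `lad_spec`   : `n • P = 0 ↔ Q_n(ptX P) = 0`, and `ptX (n • P) * Q_n = Φ_n` otherwise;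
* `lad_leadΦ`, `lad_leadQ` : `Φ_n` is monic of degree `n²`, `Q_n` has degree `≤ n² - 1` and
  coefficient `n²` there;
* `ladG A B m = Φ_{m+1} Q_m - Φ_m Q_{m+1}` satisfies `Q_{2m+1} = (ladG m)²`, has degree
  `≤ 2m² + 2m` and coefficient `-(2m+1)` there.
-/
import Mathlib
import Fermat.Agent.S05.FreyModel

set_option autoImplicit false

open Polynomial

namespace Fermat.Agent.S13

open Fermat.Agent.S05

section Defs

variable {R : Type*} [CommRing R]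

/-- numerator of the doubling formula -/
noncomputable def dblΦ (A B : R) (φ q : R[X]) : R[X] := (φ ^ 2 + C (A * B) * q ^ 2) ^ 2

/-- denominator of the doubling formula -/
noncomputable def dblQ (A B : R) (φ q : R[X]) : R[X] :=
  4 * φ * (φ - C A * q) * (φ + C B * q) * q

/-- denominator of the differential addition formula -/
noncomputable def addQ (φ₁ q₁ φ₀ q₀ : R[X]) : R[X] := (φ₁ * q₀ - φ₀ * q₁) ^ 2

/-- numerator of the differential addition formula (difference of the two points = base point) -/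
noncomputable def addΦ (A B : R) (φ₁ q₁ φ₀ q₀ : R[X]) : R[X] :=
  2 * ((φ₁ * q₀ + φ₀ * q₁) * (φ₁ * φ₀ - C (A * B) * (q₁ * q₀)) +
    2 * C (B - A) * (φ₁ * φ₀ * (q₁ * q₀))) - X * addQ φ₁ q₁ φ₀ q₀

/-- the ladder polynomials `(Φ_n, Q_n)` -/
noncomputable def lad (A B : R) : ℕ → R[X] × R[X]
  | 0 => (1, 0)
  | 1 => (X, 1)
  | (n + 2) =>
    if h : (n + 2) % 2 = 0 then
      (dblΦ A B (lad A B ((n + 2) / 2)).1 (lad A B ((n + 2) / 2)).2,
        dblQ A B (lad A B ((n + 2) / 2)).1 (lad A B ((n + 2) / 2)).2)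
    else
      (addΦ A B (lad A B ((n + 2) / 2 + 1)).1 (lad A B ((n + 2) / 2 + 1)).2
          (lad A B ((n + 2) / 2)).1 (lad A B ((n + 2) / 2)).2,
        addQ (lad A B ((n + 2) / 2 + 1)).1 (lad A B ((n + 2) / 2 + 1)).2
          (lad A B ((n + 2) / 2)).1 (lad A B ((n + 2) / 2)).2)
  decreasing_by all_goals omega

theorem lad_zero (A B : R) : lad A B 0 = (1, 0) := by
  rw [lad]

theorem lad_one (A B : R) : lad A B 1 = (X, 1) := by
  rw [lad]

theorem lad_two_mul (A B : R) {m : ℕ} (hm : 1 ≤ m) :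
    lad A B (2 * m) = (dblΦ A B (lad A B m).1 (lad A B m).2,
      dblQ A B (lad A B m).1 (lad A B m).2) := by
  obtain ⟨k, rfl⟩ : ∃ k, m = k + 1 := ⟨m - 1, by omega⟩
  have e : 2 * (k + 1) = 2 * k + 2 := by ring
  rw [e, lad]
  have h1 : (2 * k + 2) % 2 = 0 := by omega
  have h2 : (2 * k + 2) / 2 = k + 1 := by omega
  rw [dif_pos h1, h2]

theorem lad_two_mul_add_one (A B : R) {m : ℕ} (hm : 1 ≤ m) :
    lad A B (2 * m + 1) = (addΦ A B (lad A B (m + 1)).1 (lad A B (m + 1)).2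
        (lad A B m).1 (lad A B m).2,
      addQ (lad A B (m + 1)).1 (lad A B (m + 1)).2 (lad A B m).1 (lad A B m).2) := by
  obtain ⟨k, rfl⟩ : ∃ k, m = k + 1 := ⟨m - 1, by omega⟩
  have e : 2 * (k + 1) + 1 = (2 * k + 1) + 2 := by ring
  rw [e, lad]
  have h1 : ¬ (2 * k + 1 + 2) % 2 = 0 := by omega
  have h2 : (2 * k + 1 + 2) / 2 = k + 1 := by omega
  rw [dif_neg h1, h2]

/-- `ladG A B m = Φ_{m+1} Q_m - Φ_m Q_{m+1}`; its square is `Q_{2m+1}`. -/
noncomputable def ladG (A B : R) (m : ℕ) : R[X] :=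
  (lad A B (m + 1)).1 * (lad A B m).2 - (lad A B m).1 * (lad A B (m + 1)).2

theorem ladQ_odd (A B : R) {m : ℕ} (hm : 1 ≤ m) :
    (lad A B (2 * m + 1)).2 = ladG A B m ^ 2 := by
  rw [lad_two_mul_add_one A B hm]
  rfl

end Defs

section Spec

variable {K : Type*} [Field K] [DecidableEq K] {W : WeierstrassCurve K} {A B : K}

/-- doubling step on values -/
theorem dbl_spec (hW : IsFreyModel W A B) (h2 : (2 : K) ≠ 0) (hA : A ≠ 0) (hB : B ≠ 0)
    (hAB : A + B ≠ 0) {R : W.toAffine.Point} {φ q : K}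
    (hnz : φ ≠ 0 ∨ q ≠ 0) (hz : R = 0 ↔ q = 0) (hx : R ≠ 0 → ptX R * q = φ) :
    ((φ ^ 2 + A * B * q ^ 2) ^ 2 ≠ 0 ∨ 4 * φ * (φ - A * q) * (φ + B * q) * q ≠ 0) ∧
    (R + R = 0 ↔ 4 * φ * (φ - A * q) * (φ + B * q) * q = 0) ∧
    (R + R ≠ 0 → ptX (R + R) * (4 * φ * (φ - A * q) * (φ + B * q) * q) =
      (φ ^ 2 + A * B * q ^ 2) ^ 2) := by
  have h4 : (4 : K) ≠ 0 := by
    have : (4 : K) = 2 * 2 := by norm_num
    rw [this]; exact mul_ne_zero h2 h2
  by_cases hR : R = 0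
  · have hq : q = 0 := hz.mp hR
    have hφ : φ ≠ 0 := hnz.resolve_right (not_not.mpr hq)
    subst hq
    refine ⟨Or.inl ?_, ?_, ?_⟩
    · simpa using hφ
    · simp [hR]
    · intro h; exact absurd (by simp [hR]) h
  · have hq : q ≠ 0 := fun h => hR (hz.mpr h)
    have hX := hx hR
    have hY2 := ptY_sq hW R
    have hq' : 4 * φ * (φ - A * q) * (φ + B * q) * q = 4 * q ^ 4 * ptY R ^ 2 := by
      rw [hY2, ← hX]; ring
    have hφ' : (φ ^ 2 + A * B * q ^ 2) ^ 2 = q ^ 4 * (ptX R ^ 2 + A * B) ^ 2 := by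
      rw [← hX]; ring
    by_cases hY : ptY R = 0
    · have hRR : R + R = 0 := add_self_eq_zero_of_ptY_eq_zero hW h2 hY
      refine ⟨Or.inl ?_, ?_, ?_⟩
      · rw [hφ']
        refine mul_ne_zero (pow_ne_zero 4 hq) (pow_ne_zero 2 ?_)
        rw [hY] at hY2
        have h0 : ptX R * (ptX R - A) * (ptX R + B) = 0 := by rw [← hY2]; ring
        rcases mul_eq_zero.mp h0 with h0 | h0
        · rcases mul_eq_zero.mp h0 with h0 | h0
          · rw [h0]; simpa using mul_ne_zero hA hB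
          · have : ptX R = A := by linear_combination h0
            rw [this]
            have : A ^ 2 + A * B = A * (A + B) := by ring
            rw [this]; exact mul_ne_zero hA hAB
        · have : ptX R = -B := by linear_combination h0
          rw [this]
          have : (-B) ^ 2 + A * B = B * (A + B) := by ring
          rw [this]; exact mul_ne_zero hB hAB
      · rw [hq', hY]; simp [hRR]
      · intro h; exact absurd hRR h
    · obtain ⟨hRR, hdbl⟩ := ptX_two_mul hW hR hY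
      have hq'0 : 4 * φ * (φ - A * q) * (φ + B * q) * q ≠ 0 := by
        rw [hq']
        exact mul_ne_zero (mul_ne_zero h4 (pow_ne_zero 4 hq)) (pow_ne_zero 2 hY)
      refine ⟨Or.inr hq'0, ?_, ?_⟩
      · exact ⟨fun h => absurd h hRR, fun h => absurd h hq'0⟩
      · intro _
        rw [hq', hφ']
        linear_combination q ^ 4 * hdbl

/-- differential addition step on values: `R' = R + P`, output for `R' + R`. -/
theorem add_spec (hW : IsFreyModel W A B) (h2 : (2 : K) ≠ 0)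
    {P R R' : W.toAffine.Point} (hP : P ≠ 0) (hRR' : R' = R + P) {φ₀ q₀ φ₁ q₁ : K}
    (hnz₀ : φ₀ ≠ 0 ∨ q₀ ≠ 0) (hz₀ : R = 0 ↔ q₀ = 0) (hx₀ : R ≠ 0 → ptX R * q₀ = φ₀)
    (hnz₁ : φ₁ ≠ 0 ∨ q₁ ≠ 0) (hz₁ : R' = 0 ↔ q₁ = 0) (hx₁ : R' ≠ 0 → ptX R' * q₁ = φ₁) :
    (2 * ((φ₁ * q₀ + φ₀ * q₁) * (φ₁ * φ₀ - A * B * (q₁ * q₀)) +
        2 * (B - A) * (φ₁ * φ₀ * (q₁ * q₀))) - ptX P * (φ₁ * q₀ - φ₀ * q₁) ^ 2 ≠ 0 ∨
      (φ₁ * q₀ - φ₀ * q₁) ^ 2 ≠ 0) ∧
    (R' + R = 0 ↔ (φ₁ * q₀ - φ₀ * q₁) ^ 2 = 0) ∧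
    (R' + R ≠ 0 → ptX (R' + R) * (φ₁ * q₀ - φ₀ * q₁) ^ 2 =
      2 * ((φ₁ * q₀ + φ₀ * q₁) * (φ₁ * φ₀ - A * B * (q₁ * q₀)) +
        2 * (B - A) * (φ₁ * φ₀ * (q₁ * q₀))) - ptX P * (φ₁ * q₀ - φ₀ * q₁) ^ 2) := by
  by_cases hR : R = 0
  · -- `R = 0`, `R' = P`
    have hR' : R' = P := by rw [hRR', hR, zero_add]
    have hq₀ : q₀ = 0 := hz₀.mp hR
    have hφ₀ : φ₀ ≠ 0 := hnz₀.resolve_right (not_not.mpr hq₀)
    have hR'0 : R' ≠ 0 := by rw [hR']; exact hP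
    have hq₁ : q₁ ≠ 0 := fun h => hR'0 (hz₁.mpr h)
    have hX₁ := hx₁ hR'0
    rw [hR'] at hX₁
    have hsum : R' + R = P := by rw [hR, add_zero, hR']
    have hq' : (φ₁ * q₀ - φ₀ * q₁) ^ 2 ≠ 0 := by
      rw [hq₀]
      simpa using mul_ne_zero hφ₀ hq₁
    refine ⟨Or.inr hq', ?_, ?_⟩
    · rw [hsum]; exact ⟨fun h => absurd h hP, fun h => absurd h hq'⟩
    · intro _
      rw [hsum, hq₀, ← hX₁]; ring
  by_cases hR' : R' = 0
  · -- `R' = 0`, `R = -P`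
    have hRP : R = -P := by
      have : R + P = 0 := by rw [← hRR', hR']
      exact eq_neg_of_add_eq_zero_left this
    have hq₁ : q₁ = 0 := hz₁.mp hR'
    have hφ₁ : φ₁ ≠ 0 := hnz₁.resolve_right (not_not.mpr hq₁)
    have hq₀ : q₀ ≠ 0 := fun h => hR (hz₀.mpr h)
    have hX₀ := hx₀ hR
    rw [hRP, ptX_neg] at hX₀
    have hsum : R' + R = R := by rw [hR', zero_add]
    have hq' : (φ₁ * q₀ - φ₀ * q₁) ^ 2 ≠ 0 := by
      rw [hq₁]
      simpa using mul_ne_zero hφ₁ hq₀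
    refine ⟨Or.inr hq', ?_, ?_⟩
    · rw [hsum]; exact ⟨fun h => absurd h hR, fun h => absurd h hq'⟩
    · intro _
      rw [hsum, hRP, ptX_neg, hq₁, ← hX₀]; ring
  -- both nonzero
  have hq₀ : q₀ ≠ 0 := fun h => hR (hz₀.mpr h)
  have hq₁ : q₁ ≠ 0 := fun h => hR' (hz₁.mpr h)
  have hX₀ := hx₀ hR
  have hX₁ := hx₁ hR'
  have hY₀ := ptY_sq hW R
  have hY₁ := ptY_sq hW R'
  have hdiff : R' - R = P := by rw [hRR']; abel
  have hq'eq : (φ₁ * q₀ - φ₀ * q₁) ^ 2 = (q₁ * q₀) ^ 2 * (ptX R' - ptX R) ^ 2 := by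
    rw [← hX₀, ← hX₁]; ring
  by_cases hXX : ptX R' = ptX R
  · rcases eq_or_eq_neg_of_ptX_eq h2 hR' hR hXX with h | h
    · exfalso
      apply hP
      rw [← hdiff, h, sub_self]
    · have hsum : R' + R = 0 := by rw [h, neg_add_cancel]
      have hYR : ptY R ≠ 0 := by
        intro hY
        have hRR : R + R = 0 := add_self_eq_zero_of_ptY_eq_zero hW h2 hY
        have : R' = R := by rw [h]; exact (eq_neg_of_add_eq_zero_left hRR).symm
        apply hP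
        rw [← hdiff, this, sub_self]
      have hq' : (φ₁ * q₀ - φ₀ * q₁) ^ 2 = 0 := by rw [hq'eq, hXX]; ring
      refine ⟨Or.inl ?_, ?_, ?_⟩
      · rw [hq', mul_zero, sub_zero]
        have e : 2 * ((φ₁ * q₀ + φ₀ * q₁) * (φ₁ * φ₀ - A * B * (q₁ * q₀)) +
            2 * (B - A) * (φ₁ * φ₀ * (q₁ * q₀))) = 4 * (q₁ * q₀) ^ 2 * ptY R ^ 2 := by
          rw [hY₀, ← hX₀, ← hX₁, hXX]; ring
        rw [e]
        have h4 : (4 : K) ≠ 0 := by
          have : (4 : K) = 2 * 2 := by norm_num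
          rw [this]; exact mul_ne_zero h2 h2
        exact mul_ne_zero (mul_ne_zero h4 (pow_ne_zero 2 (mul_ne_zero hq₁ hq₀)))
          (pow_ne_zero 2 hYR)
      · exact ⟨fun _ => hq', fun _ => hsum⟩
      · intro h'; exact absurd hsum h'
  · obtain ⟨hs0, hs⟩ := ptX_add_mul hW hR' hR hXX
    obtain ⟨-, hd⟩ := ptX_sub_mul hW hR' hR hXX
    rw [hdiff] at hd
    have hq' : (φ₁ * q₀ - φ₀ * q₁) ^ 2 ≠ 0 := by
      rw [hq'eq]
      exact mul_ne_zero (pow_ne_zero 2 (mul_ne_zero hq₁ hq₀))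
        (pow_ne_zero 2 (sub_ne_zero.mpr hXX))
    refine ⟨Or.inr hq', ?_, ?_⟩
    · exact ⟨fun h => absurd h hs0, fun h => absurd h hq'⟩
    · intro _
      rw [hq'eq, ← hX₀, ← hX₁]
      linear_combination (q₁ * q₀) ^ 2 * hs + (q₁ * q₀) ^ 2 * hd
        + 2 * (q₁ * q₀) ^ 2 * hY₀ + 2 * (q₁ * q₀) ^ 2 * hY₁

/-- **Ladder link.** For a nonzero point `P` of a Frey model with `X`-coordinate `ξ = ptX P`:
`n • P = 0 ↔ Q_n(ξ) = 0`, and otherwise `ptX (n • P) = Φ_n(ξ) / Q_n(ξ)`. -/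
theorem lad_spec (hW : IsFreyModel W A B) (h2 : (2 : K) ≠ 0) (hA : A ≠ 0) (hB : B ≠ 0)
    (hAB : A + B ≠ 0) {P : W.toAffine.Point} (hP : P ≠ 0) (n : ℕ) :
    ((lad A B n).1.eval (ptX P) ≠ 0 ∨ (lad A B n).2.eval (ptX P) ≠ 0) ∧
    (n • P = 0 ↔ (lad A B n).2.eval (ptX P) = 0) ∧
    (n • P ≠ 0 → ptX (n • P) * (lad A B n).2.eval (ptX P) = (lad A B n).1.eval (ptX P)) := by
  induction n using Nat.strong_induction_on with
  | _ n ih =>
  rcases Nat.lt_or_ge n 2 with hn | hn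
  · interval_cases n
    · rw [lad_zero]; simp
    · rw [lad_one]; simp [hP]
  rcases Nat.even_or_odd' n with ⟨m, rfl | rfl⟩
  · have hm : 1 ≤ m := by omega
    have key := dbl_spec hW h2 hA hB hAB (ih m (by omega)).1 (ih m (by omega)).2.1
      (ih m (by omega)).2.2
    have e : (2 * m) • P = m • P + m • P := by rw [two_mul, add_nsmul]
    rw [lad_two_mul A B hm, e]
    simpa [dblΦ, dblQ] using key
  · have hm : 1 ≤ m := by omega
    have hRR' : (m + 1) • P = m • P + P := succ_nsmul P m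
    have key := add_spec hW h2 hP hRR' (ih m (by omega)).1 (ih m (by omega)).2.1
      (ih m (by omega)).2.2 (ih (m + 1) (by omega)).1 (ih (m + 1) (by omega)).2.1
      (ih (m + 1) (by omega)).2.2
    have e : (2 * m + 1) • P = (m + 1) • P + m • P := by
      rw [← add_nsmul]; congr 1; omega
    rw [lad_two_mul_add_one A B hm, e]
    simpa [addΦ, addQ] using key

end Spec

section Degree

variable {R : Type*} [CommRing R]

/-- `f` has degree `≤ d` and coefficient `c` in degree `d`. -/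
def LeadIs (f : R[X]) (d : ℕ) (c : R) : Prop := f.natDegree ≤ d ∧ f.coeff d = c

namespace LeadIs

variable {f g : R[X]} {d e : ℕ} {c c' : R}

lemma mul (hf : LeadIs f d c) (hg : LeadIs g e c') : LeadIs (f * g) (d + e) (c * c') :=
  ⟨natDegree_mul_le.trans (add_le_add hf.1 hg.1),
    by rw [coeff_mul_add_eq_of_natDegree_le hf.1 hg.1, hf.2, hg.2]⟩

lemma add (hf : LeadIs f d c) (hg : LeadIs g d c') : LeadIs (f + g) d (c + c') :=
  ⟨(natDegree_add_le _ _).trans (max_le hf.1 hg.1), by rw [coeff_add, hf.2, hg.2]⟩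

lemma neg (hf : LeadIs f d c) : LeadIs (-f) d (-c) :=
  ⟨by rw [natDegree_neg]; exact hf.1, by rw [coeff_neg, hf.2]⟩

lemma sub (hf : LeadIs f d c) (hg : LeadIs g d c') : LeadIs (f - g) d (c - c') := by
  rw [sub_eq_add_neg, sub_eq_add_neg]; exact hf.add hg.neg

lemma pow (hf : LeadIs f d c) (n : ℕ) : LeadIs (f ^ n) (n * d) (c ^ n) := by
  induction n with
  | zero => exact ⟨by simp, by simp⟩
  | succ n ih =>
    have := ih.mul hf
    rw [pow_succ, pow_succ]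
    have e : (n + 1) * d = n * d + d := by ring
    rw [e]; exact this

lemma congr (hf : LeadIs f d c) (hd : d = e) (hc : c = c') : LeadIs f e c' := by
  subst hd; subst hc; exact hf

lemma of_lt (hf : LeadIs f d c) (hde : d < e) : LeadIs f e 0 :=
  ⟨hf.1.trans hde.le, coeff_eq_zero_of_natDegree_lt (lt_of_le_of_lt hf.1 hde)⟩

end LeadIs

lemma leadIs_C (a : R) : LeadIs (C a) 0 a := ⟨by simp, by simp⟩

lemma leadIs_X : LeadIs (X : R[X]) 1 1 := ⟨natDegree_X_le, by simp⟩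

lemma leadIs_one : LeadIs (1 : R[X]) 0 1 := ⟨by simp, by simp⟩

lemma leadIs_two : LeadIs (2 : R[X]) 0 2 := by
  have h : (2 : R[X]) = C 2 := (map_ofNat C 2).symm
  rw [h]; exact leadIs_C 2

lemma leadIs_four : LeadIs (4 : R[X]) 0 4 := by
  have h : (4 : R[X]) = C 4 := (map_ofNat C 4).symm
  rw [h]; exact leadIs_C 4

/-- the three leading-coefficient statements for one odd step -/
theorem lead_add_step (A B : R) {m : ℕ} (hm : 1 ≤ m) {φ₁ q₁ φ₀ q₀ : R[X]}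
    (hΦ₀ : LeadIs φ₀ (m ^ 2) 1) (hQ₀ : LeadIs q₀ (m ^ 2 - 1) ((m : R) ^ 2))
    (hΦ₁ : LeadIs φ₁ ((m + 1) ^ 2) 1) (hQ₁ : LeadIs q₁ ((m + 1) ^ 2 - 1) (((m + 1 : ℕ) : R) ^ 2)) :
    LeadIs (φ₁ * q₀ - φ₀ * q₁) (2 * m ^ 2 + 2 * m) (-((2 * m + 1 : ℕ) : R)) ∧
    LeadIs (addQ φ₁ q₁ φ₀ q₀) ((2 * m + 1) ^ 2 - 1) (((2 * m + 1 : ℕ) : R) ^ 2) ∧
    LeadIs (addΦ A B φ₁ q₁ φ₀ q₀) ((2 * m + 1) ^ 2) 1 := by
  have hs1 : 1 ≤ m ^ 2 := Nat.one_le_pow _ _ hm
  have e1 : (m + 1) ^ 2 = m ^ 2 + 2 * m + 1 := by ring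
  have e2 : (2 * m + 1) ^ 2 = 4 * m ^ 2 + 4 * m + 1 := by ring
  -- `D = 2 m² + 2 m`
  have h10 : LeadIs (φ₁ * q₀) (2 * m ^ 2 + 2 * m) ((m : R) ^ 2) :=
    (hΦ₁.mul hQ₀).congr (by omega) (by ring)
  have h01 : LeadIs (φ₀ * q₁) (2 * m ^ 2 + 2 * m) (((m + 1 : ℕ) : R) ^ 2) :=
    (hΦ₀.mul hQ₁).congr (by omega) (by ring)
  have hG : LeadIs (φ₁ * q₀ - φ₀ * q₁) (2 * m ^ 2 + 2 * m) (-((2 * m + 1 : ℕ) : R)) :=
    (h10.sub h01).congr rfl (by push_cast; ring)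
  have hAQ : LeadIs (addQ φ₁ q₁ φ₀ q₀) ((2 * m + 1) ^ 2 - 1) (((2 * m + 1 : ℕ) : R) ^ 2) := by
    unfold addQ
    exact (hG.pow 2).congr (by omega) (by ring)
  refine ⟨hG, hAQ, ?_⟩
  unfold addΦ
  have hsum : LeadIs (φ₁ * q₀ + φ₀ * q₁) (2 * m ^ 2 + 2 * m)
      ((m : R) ^ 2 + ((m + 1 : ℕ) : R) ^ 2) := h10.add h01
  have hqq : LeadIs (C (A * B) * (q₁ * q₀)) ((m + 1) ^ 2 + m ^ 2) 0 :=
    ((leadIs_C (A * B)).mul (hQ₁.mul hQ₀)).of_lt (by omega)
  have hφφ : LeadIs (φ₁ * φ₀ - C (A * B) * (q₁ * q₀)) ((m + 1) ^ 2 + m ^ 2) 1 :=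
    ((hΦ₁.mul hΦ₀).sub hqq).congr rfl (by ring)
  have hlow : LeadIs (2 * C (B - A) * (φ₁ * φ₀ * (q₁ * q₀)))
      (2 * m ^ 2 + 2 * m + ((m + 1) ^ 2 + m ^ 2)) 0 :=
    ((leadIs_two.mul (leadIs_C (B - A))).mul ((hΦ₁.mul hΦ₀).mul (hQ₁.mul hQ₀))).of_lt (by omega)
  have hmain := leadIs_two.mul ((hsum.mul hφφ).add hlow)
  have hX : LeadIs (X * addQ φ₁ q₁ φ₀ q₀) (1 + ((2 * m + 1) ^ 2 - 1))
      (1 * ((2 * m + 1 : ℕ) : R) ^ 2) := leadIs_X.mul hAQ
  refine ((hmain.congr (by omega) rfl).sub (hX.congr (by omega) rfl)).congr rfl ?_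
  push_cast; ring

theorem lad_lead (A B : R) (n : ℕ) :
    LeadIs (lad A B n).1 (n ^ 2) 1 ∧ (1 ≤ n → LeadIs (lad A B n).2 (n ^ 2 - 1) ((n : R) ^ 2)) := by
  induction n using Nat.strong_induction_on with
  | _ n ih =>
  rcases Nat.lt_or_ge n 2 with hn | hn
  · interval_cases n
    · rw [lad_zero]; exact ⟨leadIs_one, fun h => absurd h (by norm_num)⟩
    · rw [lad_one]
      exact ⟨leadIs_X.congr (by norm_num) rfl, fun _ => leadIs_one.congr (by norm_num) (by simp)⟩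
  rcases Nat.even_or_odd' n with ⟨m, rfl | rfl⟩
  · have hm : 1 ≤ m := by omega
    obtain ⟨hΦ, hQ'⟩ := ih m (by omega)
    have hQ := hQ' hm
    have hs1 : 1 ≤ m ^ 2 := Nat.one_le_pow _ _ hm
    have e2 : (2 * m) ^ 2 = 4 * m ^ 2 := by ring
    rw [lad_two_mul A B hm]
    have hAq : LeadIs (C A * (lad A B m).2) (m ^ 2) 0 := ((leadIs_C A).mul hQ).of_lt (by omega)
    have hBq : LeadIs (C B * (lad A B m).2) (m ^ 2) 0 := ((leadIs_C B).mul hQ).of_lt (by omega)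
    have hABq : LeadIs (C (A * B) * (lad A B m).2 ^ 2) (2 * m ^ 2) 0 :=
      ((leadIs_C (A * B)).mul (hQ.pow 2)).of_lt (by omega)
    refine ⟨?_, fun _ => ?_⟩
    · show LeadIs (dblΦ A B (lad A B m).1 (lad A B m).2) ((2 * m) ^ 2) 1
      unfold dblΦ
      exact (((hΦ.pow 2).add hABq).pow 2).congr (by omega) (by ring)
    · show LeadIs (dblQ A B (lad A B m).1 (lad A B m).2) ((2 * m) ^ 2 - 1) (((2 * m : ℕ) : R) ^ 2)
      unfold dblQ
      exact ((((leadIs_four.mul hΦ).mul (hΦ.sub hAq)).mul (hΦ.add hBq)).mul hQ).congr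
        (by omega) (by push_cast; ring)
  · have hm : 1 ≤ m := by omega
    obtain ⟨hΦ₀, hQ₀'⟩ := ih m (by omega)
    obtain ⟨hΦ₁, hQ₁'⟩ := ih (m + 1) (by omega)
    have key := lead_add_step A B hm hΦ₀ (hQ₀' hm) hΦ₁ (hQ₁' (by omega))
    rw [lad_two_mul_add_one A B hm]
    exact ⟨key.2.2, fun _ => key.2.1⟩

theorem lad_leadΦ (A B : R) (n : ℕ) : LeadIs (lad A B n).1 (n ^ 2) 1 := (lad_lead A B n).1

theorem lad_leadQ (A B : R) {n : ℕ} (hn : 1 ≤ n) :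
    LeadIs (lad A B n).2 (n ^ 2 - 1) ((n : R) ^ 2) := (lad_lead A B n).2 hn

theorem ladG_lead (A B : R) {m : ℕ} (hm : 1 ≤ m) :
    LeadIs (ladG A B m) (2 * m ^ 2 + 2 * m) (-((2 * m + 1 : ℕ) : R)) :=
  (lead_add_step A B hm (lad_leadΦ A B m) (lad_leadQ A B hm) (lad_leadΦ A B (m + 1))
    (lad_leadQ A B (by omega))).1

/-- compatibility of the ladder with ring homomorphisms -/
theorem lad_map {S : Type*} [CommRing S] (f : R →+* S) (A B : R) (n : ℕ) :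
    lad (f A) (f B) n = ((lad A B n).1.map f, (lad A B n).2.map f) := by
  induction n using Nat.strong_induction_on with
  | _ n ih =>
  rcases Nat.lt_or_ge n 2 with hn | hn
  · interval_cases n
    · rw [lad_zero, lad_zero]; simp
    · rw [lad_one, lad_one]; simp
  rcases Nat.even_or_odd' n with ⟨m, rfl | rfl⟩
  · have hm : 1 ≤ m := by omega
    rw [lad_two_mul _ _ hm, lad_two_mul _ _ hm, ih m (by omega)]
    simp [dblΦ, dblQ, Polynomial.map_ofNat]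
  · have hm : 1 ≤ m := by omega
    rw [lad_two_mul_add_one _ _ hm, lad_two_mul_add_one _ _ hm, ih m (by omega),
      ih (m + 1) (by omega)]
    simp [addΦ, addQ, Polynomial.map_ofNat]

theorem ladG_map {S : Type*} [CommRing S] (f : R →+* S) (A B : R) (m : ℕ) :
    ladG (f A) (f B) m = (ladG A B m).map f := by
  unfold ladG
  rw [lad_map f A B m, lad_map f A B (m + 1)]
  simp

end Degree

end Fermat.Agent.S13
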