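/-
S13 helper (helper12): `p`-torsion of a Frey model over an algebraically closed field of
characteristic zero, via the ladder polynomials of `Ladder.lean`.

* `exists_point_of_ptX`   : every `r : K` is the `X`-coordinate of a nonzero point;
* `smul_eq_zero_iff_ladG` : `(2m+1) • P = 0 ↔ (ladG A B m)(ptX P) = 0`  (`P ≠ 0`, `m ≥ 1`);
* `exists_torsion`        : a nonzero point killed by `2m+1`;
* `ncard_torsion_le`      : at most `(2m+1)²` points are killed by `2m+1`.
-/
import Mathlib
import Fermat.Agent.S05.FreyModel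
import Fermat.Agent.S05.FreyArith
import Fermat.Agent.S13.Ladder

set_option autoImplicit false

open Polynomial WeierstrassCurve WeierstrassCurve.Affine

namespace Fermat.Agent.S13

open Fermat.Agent.S05

section General

variable {K : Type*} [Field K] [DecidableEq K] [CharZero K] {W : WeierstrassCurve K} {A B : K}

/-- every `r` is the normalised `X`-coordinate of a nonzero point (over an alg. closed field). -/
theorem exists_point_of_ptX [IsAlgClosed K] (hW : IsFreyModel W A B)
    (hA : A ≠ 0) (hB : B ≠ 0) (hAB : A + B ≠ 0) (r : K) :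
    ∃ P : W.toAffine.Point, P ≠ 0 ∧ ptX P = r := by
  obtain ⟨Y, hY⟩ := IsAlgClosed.exists_pow_nat_eq (r * (r - A) * (r + B)) (n := 2) (by norm_num)
  have ha₂ := hW.a₂
  have ha₄ := hW.a₄
  have heq : W.toAffine.Equation (r / 4) ((Y - r) / 8) := by
    rw [Affine.equation_iff, hW.a₁, hW.a₃, hW.a₆]
    linear_combination (1 / 64 : K) * hY - (r ^ 2 / 64) * ha₂ - (r / 64) * ha₄
  have hns : W.toAffine.Nonsingular (r / 4) ((Y - r) / 8) := by
    rw [Affine.nonsingular_iff]
    refine ⟨heq, ?_⟩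
    by_cases hY0 : Y = 0
    · left
      rw [hW.a₁]
      intro h
      have hf' : 3 * r ^ 2 + 2 * (B - A) * r - A * B = 0 := by
        rw [hY0] at h
        linear_combination (-16 : K) * h - 2 * r * ha₂ - ha₄
      have hf : r * (r - A) * (r + B) = 0 := by rw [← hY, hY0]; ring
      rcases mul_eq_zero.mp hf with hf | hf
      · rcases mul_eq_zero.mp hf with hf | hf
        · rw [hf] at hf'
          exact mul_ne_zero hA hB (by linear_combination -hf')
        · have hr : r = A := by linear_combination hf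
          rw [hr] at hf'
          exact mul_ne_zero hA hAB (by linear_combination hf')
      · have hr : r = -B := by linear_combination hf
        rw [hr] at hf'
        exact mul_ne_zero hB hAB (by linear_combination hf')
    · right
      rw [hW.a₁, hW.a₃]
      intro h
      apply hY0
      linear_combination (4 : K) * h
  refine ⟨Point.some _ _ hns, Point.some_ne_zero hns, ?_⟩
  show 4 * (r / 4) = r
  ring

/-- `(2m+1)`-torsion is cut out by `ladG A B m`. -/
theorem smul_eq_zero_iff_ladG (hW : IsFreyModel W A B) (hA : A ≠ 0) (hB : B ≠ 0)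
    (hAB : A + B ≠ 0) {m : ℕ} (hm : 1 ≤ m) {P : W.toAffine.Point} (hP : P ≠ 0) :
    (2 * m + 1) • P = 0 ↔ (ladG A B m).eval (ptX P) = 0 := by
  have h2 : (2 : K) ≠ 0 := two_ne_zero
  rw [(lad_spec hW h2 hA hB hAB hP (2 * m + 1)).2.1, ladQ_odd A B hm, eval_pow]
  exact pow_eq_zero_iff (by norm_num)

omit [DecidableEq K] in
/-- the degree of `ladG` in characteristic zero -/
theorem natDegree_ladG (A B : K) {m : ℕ} (hm : 1 ≤ m) :
    (ladG A B m).natDegree = 2 * m ^ 2 + 2 * m ∧
      (ladG A B m).leadingCoeff = -((2 * m + 1 : ℕ) : K) := by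
  obtain ⟨h1, h2⟩ := ladG_lead A B hm
  have hc : (ladG A B m).coeff (2 * m ^ 2 + 2 * m) ≠ 0 := by
    rw [h2, neg_ne_zero]
    exact_mod_cast (by omega : (2 * m + 1 : ℕ) ≠ 0)
  have hd : (ladG A B m).natDegree = 2 * m ^ 2 + 2 * m :=
    le_antisymm h1 (le_natDegree_of_ne_zero hc)
  exact ⟨hd, by rw [leadingCoeff, hd, h2]⟩

omit [DecidableEq K] in
theorem ladG_ne_zero (A B : K) {m : ℕ} (hm : 1 ≤ m) : ladG A B m ≠ 0 := by
  intro h
  have := (natDegree_ladG A B hm).2
  rw [h, leadingCoeff_zero] at this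
  have h' : ((2 * m + 1 : ℕ) : K) = 0 := by linear_combination this
  exact absurd h' (by exact_mod_cast (by omega : (2 * m + 1 : ℕ) ≠ 0))

/-- existence of a nonzero point killed by `2m+1`. -/
theorem exists_torsion [IsAlgClosed K] (hW : IsFreyModel W A B)
    (hA : A ≠ 0) (hB : B ≠ 0) (hAB : A + B ≠ 0) {m : ℕ} (hm : 1 ≤ m) :
    ∃ P : W.toAffine.Point, P ≠ 0 ∧ (2 * m + 1) • P = 0 := by
  have hdeg : (ladG A B m).degree ≠ 0 := by
    rw [degree_eq_natDegree (ladG_ne_zero A B hm), (natDegree_ladG A B hm).1]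
    have : 1 ≤ m ^ 2 := Nat.one_le_pow _ _ hm
    exact_mod_cast (by omega : 2 * m ^ 2 + 2 * m ≠ 0)
  obtain ⟨r, hr⟩ := IsAlgClosed.exists_root (ladG A B m) hdeg
  obtain ⟨P, hP, hPr⟩ := exists_point_of_ptX hW hA hB hAB r
  refine ⟨P, hP, (smul_eq_zero_iff_ladG hW hA hB hAB hm hP).mpr ?_⟩
  rw [hPr]; exact hr

/-- at most `(2m+1)²` points are killed by `2m+1`. -/
theorem ncard_torsion_le [IsAlgClosed K] (hW : IsFreyModel W A B)
    (hA : A ≠ 0) (hB : B ≠ 0) (hAB : A + B ≠ 0) {m : ℕ} (hm : 1 ≤ m) :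
    {P : W.toAffine.Point | (2 * m + 1) • P = 0}.Finite ∧
      {P : W.toAffine.Point | (2 * m + 1) • P = 0}.ncard ≤ (2 * m + 1) ^ 2 := by
  classical
  have h2 : (2 : K) ≠ 0 := two_ne_zero
  -- a chosen point above each `r`
  choose pt hpt0 hptX using fun r : K => exists_point_of_ptX hW hA hB hAB r
  let F : K × Bool → W.toAffine.Point := fun rb => if rb.2 then pt rb.1 else -pt rb.1
  let S : Finset (K × Bool) := (ladG A B m).roots.toFinset ×ˢ Finset.univ
  have hsub : {P : W.toAffine.Point | (2 * m + 1) • P = 0} ⊆ insert 0 (F '' (S : Set (K × Bool))) := by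
    intro P hP
    by_cases hP0 : P = 0
    · exact Or.inl hP0
    right
    have hroot : (ladG A B m).eval (ptX P) = 0 :=
      (smul_eq_zero_iff_ladG hW hA hB hAB hm hP0).mp hP
    have hmem : ptX P ∈ (ladG A B m).roots.toFinset := by
      rw [Multiset.mem_toFinset, mem_roots (ladG_ne_zero A B hm)]
      exact hroot
    rcases eq_or_eq_neg_of_ptX_eq h2 hP0 (hpt0 (ptX P)) (hptX (ptX P)).symm with h | h
    · refine ⟨(ptX P, true), ?_, ?_⟩
      · simp only [S, Finset.coe_product, Set.mem_prod, Finset.mem_coe]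
        exact ⟨hmem, Finset.mem_univ _⟩
      · simp [F, h.symm]
    · refine ⟨(ptX P, false), ?_, ?_⟩
      · simp only [S, Finset.coe_product, Set.mem_prod, Finset.mem_coe]
        exact ⟨hmem, Finset.mem_univ _⟩
      · simp [F, h.symm]
  have hfin : (insert 0 (F '' (S : Set (K × Bool))) : Set W.toAffine.Point).Finite :=
    (S.finite_toSet.image F).insert 0
  refine ⟨hfin.subset hsub, ?_⟩
  calc {P : W.toAffine.Point | (2 * m + 1) • P = 0}.ncard
      ≤ (insert 0 (F '' (S : Set (K × Bool))) : Set W.toAffine.Point).ncard :=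
        Set.ncard_le_ncard hsub hfin
    _ ≤ (F '' (S : Set (K × Bool))).ncard + 1 := Set.ncard_insert_le _ _
    _ ≤ (S : Set (K × Bool)).ncard + 1 := by
        gcongr
        exact Set.ncard_image_le S.finite_toSet
    _ = S.card + 1 := by rw [Set.ncard_coe_finset]
    _ ≤ (2 * m ^ 2 + 2 * m) * 2 + 1 := by
        gcongr
        simp only [S, Finset.card_product, Finset.card_univ, Fintype.card_bool]
        gcongr
        calc (ladG A B m).roots.toFinset.card ≤ Multiset.card (ladG A B m).roots :=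
              Multiset.toFinset_card_le _
          _ ≤ (ladG A B m).natDegree := card_roots' _
          _ = 2 * m ^ 2 + 2 * m := (natDegree_ladG A B hm).1
    _ = (2 * m + 1) ^ 2 := by ring

end General

section Ord

variable {K : Type*} [Field K]

/-- order of a product over a multiset of nonzero elements -/
theorem ord_multiset_prod (v : OrdFn K) (M : Multiset K) (hM : ∀ r ∈ M, r ≠ 0) :
    M.prod ≠ 0 ∧ v.ord M.prod = (M.map v.ord).sum := by
  induction M using Multiset.induction_on with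
  | empty => exact ⟨by simp, by simp [OrdFn.ord_one]⟩
  | cons a M ih =>
    have ha : a ≠ 0 := hM a (Multiset.mem_cons_self a M)
    obtain ⟨h0, h1⟩ := ih (fun r hr => hM r (Multiset.mem_cons_of_mem hr))
    refine ⟨by rw [Multiset.prod_cons]; exact mul_ne_zero ha h0, ?_⟩
    rw [Multiset.prod_cons, OrdFn.ord_mul ha h0, h1, Multiset.map_cons, Multiset.sum_cons]

end Ord

section Frey

open FreyPackage

/-- `p = 2 m + 1` with `m = (p - 1) / 2 ≥ 2`. -/
theorem frey_p_eq (P : FreyPackage) : 2 * ((P.p - 1) / 2) + 1 = P.p ∧ 2 ≤ (P.p - 1) / 2 := by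
  obtain ⟨k, hk⟩ := P.hp_odd
  have := P.hp5
  omega

theorem frey_A_ne_zero (P : FreyPackage) (K : Type*) [Field K] [CharZero K] :
    ((P.a ^ P.p : ℤ) : K) ≠ 0 := by
  exact_mod_cast pow_ne_zero _ P.ha0

theorem frey_B_ne_zero (P : FreyPackage) (K : Type*) [Field K] [CharZero K] :
    ((P.b ^ P.p : ℤ) : K) ≠ 0 := by
  exact_mod_cast pow_ne_zero _ P.hb0

theorem frey_AB_ne_zero (P : FreyPackage) (K : Type*) [Field K] [CharZero K] :
    ((P.a ^ P.p : ℤ) : K) + ((P.b ^ P.p : ℤ) : K) ≠ 0 := by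
  rw [← Int.cast_add, P.hFLT]
  exact_mod_cast pow_ne_zero _ P.hc0

/-- the integral `p`-division polynomial of the Frey curve in the coordinate `X = ptX`:
degree `(p² - 1)/2`, leading coefficient `-p`, roots = `X`-coordinates of `E[p] \ 0`. -/
noncomputable def freyG (P : FreyPackage) : ℤ[X] :=
  ladG (P.a ^ P.p) (P.b ^ P.p) ((P.p - 1) / 2)

theorem freyG_map (P : FreyPackage) (K : Type*) [Field K] :
    (freyG P).map (Int.castRingHom K) =
      ladG ((P.a ^ P.p : ℤ) : K) ((P.b ^ P.p : ℤ) : K) ((P.p - 1) / 2) := by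
  rw [freyG, ← ladG_map]
  rfl

variable (P : FreyPackage) {K : Type*} [Field K] [DecidableEq K] [Algebra ℚ K]

/-- `p`-torsion of the Frey curve is cut out by `freyG`. -/
theorem frey_smul_eq_zero_iff [CharZero K] {Pt : (P.freyCurve.map (algebraMap ℚ K)).toAffine.Point}
    (hPt : Pt ≠ 0) :
    P.p • Pt = 0 ↔ ((freyG P).map (Int.castRingHom K)).eval (ptX Pt) = 0 := by
  have hW := isFreyModel_freyCurve P K
  obtain ⟨hp, hm⟩ := frey_p_eq P
  rw [freyG_map, ← smul_eq_zero_iff_ladG hW (frey_A_ne_zero P K) (frey_B_ne_zero P K)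
    (frey_AB_ne_zero P K) (by omega) hPt, hp]

theorem frey_exists_torsion [CharZero K] [IsAlgClosed K] :
    ∃ Pt : (P.freyCurve.map (algebraMap ℚ K)).toAffine.Point, Pt ≠ 0 ∧ P.p • Pt = 0 := by
  have hW := isFreyModel_freyCurve P K
  obtain ⟨hp, hm⟩ := frey_p_eq P
  have := exists_torsion hW (frey_A_ne_zero P K) (frey_B_ne_zero P K)
    (frey_AB_ne_zero P K) (m := (P.p - 1) / 2) (by omega)
  rwa [hp] at this

theorem frey_ncard_torsion_le [CharZero K] [IsAlgClosed K] :
    {Pt : (P.freyCurve.map (algebraMap ℚ K)).toAffine.Point | P.p • Pt = 0}.Finite ∧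
      {Pt : (P.freyCurve.map (algebraMap ℚ K)).toAffine.Point | P.p • Pt = 0}.ncard ≤ P.p ^ 2 := by
  have hW := isFreyModel_freyCurve P K
  obtain ⟨hp, hm⟩ := frey_p_eq P
  have := ncard_torsion_le hW (frey_A_ne_zero P K) (frey_B_ne_zero P K)
    (frey_AB_ne_zero P K) (m := (P.p - 1) / 2) (by omega)
  rwa [hp] at this

/-- **Newton-polygon bound at `p`.**  If every nonzero `p`-torsion point has `ord X < 0`
(for an `OrdFn` with `ord p = 1`), then any set `S` of fewer than `(p² - 1)/2` `X`-coordinates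
of nonzero `p`-torsion points satisfies `∑_{r ∈ S} (- ord r) < 1`. -/
theorem frey_sum_ord_lt_one [CharZero K] [IsAlgClosed K] (v : OrdFn K)
    (hvp : v.HasOrd ((P.p : ℕ) : K) 1)
    (hall : ∀ Pt : (P.freyCurve.map (algebraMap ℚ K)).toAffine.Point, Pt ≠ 0 → P.p • Pt = 0 →
      v.ord (ptX Pt) < 0)
    (S : Finset K)
    (hS : ∀ r ∈ S, ∃ Pt : (P.freyCurve.map (algebraMap ℚ K)).toAffine.Point,
      Pt ≠ 0 ∧ P.p • Pt = 0 ∧ ptX Pt = r)
    (hcard : 2 * S.card < P.p ^ 2 - 1) :
    ∑ r ∈ S, (-v.ord r) < 1 := by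
  classical
  have hW := isFreyModel_freyCurve P K
  obtain ⟨hp, hm⟩ := frey_p_eq P
  have hA := frey_A_ne_zero P K
  have hB := frey_B_ne_zero P K
  have hAB := frey_AB_ne_zero P K
  have h2 : (2 : K) ≠ 0 := two_ne_zero
  set G : K[X] := (freyG P).map (Int.castRingHom K) with hG
  have hGeq : G = ladG ((P.a ^ P.p : ℤ) : K) ((P.b ^ P.p : ℤ) : K) ((P.p - 1) / 2) :=
    freyG_map P K
  have hG0 : G ≠ 0 := by rw [hGeq]; exact ladG_ne_zero _ _ (by omega)
  obtain ⟨hdeg, hlc⟩ := natDegree_ladG ((P.a ^ P.p : ℤ) : K) ((P.b ^ P.p : ℤ) : K)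
    (m := (P.p - 1) / 2) (by omega)
  rw [← hGeq] at hdeg hlc
  rw [hp] at hlc
  have hsplit : G.Splits := IsAlgClosed.splits G
  -- every root is the `X`-coordinate of a nonzero torsion point
  have hroot : ∀ r ∈ G.roots, r ≠ 0 ∧ v.ord r < 0 := by
    intro r hr
    rw [mem_roots hG0] at hr
    obtain ⟨Pt, hPt0, hPtr⟩ := exists_point_of_ptX hW hA hB hAB r
    have htor : P.p • Pt = 0 := by
      rw [frey_smul_eq_zero_iff P hPt0, hPtr]; exact hr
    have hM := multSeq_of_torsion hW h2 P.pp P.hp5 hPt0 htor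
    have hnd := hM.nondeg 1 le_rfl (by have := P.hp5; omega)
    simp only [one_smul] at hnd
    rw [hPtr] at hnd
    refine ⟨left_ne_zero_of_mul (left_ne_zero_of_mul hnd), ?_⟩
    have := hall Pt hPt0 htor
    rwa [hPtr] at this
  -- evaluate at `0`
  have heval : G.eval 0 = G.leadingCoeff * (G.roots.map (0 - ·)).prod :=
    hsplit.eval_eq_prod_roots 0
  have hint : v.Ge 0 (G.eval 0) := by
    have : G.eval 0 = (((freyG P).eval 0 : ℤ) : K) := by
      rw [hG]
      simp
    rw [this]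
    exact OrdFn.ge_intCast _
  have hneg : ∀ r ∈ G.roots.map (0 - ·), r ≠ 0 := by
    intro r hr
    obtain ⟨a, ha, rfl⟩ := Multiset.mem_map.mp hr
    simpa using (hroot a ha).1
  obtain ⟨hprod0, hprodord⟩ := ord_multiset_prod v _ hneg
  have hlcord : v.HasOrd G.leadingCoeff 1 := by rw [hlc]; exact hvp.neg
  have hordsum : ((G.roots.map (0 - ·)).map v.ord).sum = (G.roots.map v.ord).sum := by
    rw [Multiset.map_map]
    congr 1
    apply Multiset.map_congr rfl
    intro a _
    simp [OrdFn.ord_neg]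
  have hEne : G.eval 0 ≠ 0 := by rw [heval]; exact mul_ne_zero hlcord.1 hprod0
  have hEord : v.ord (G.eval 0) = 1 + (G.roots.map v.ord).sum := by
    rw [heval, OrdFn.ord_mul hlcord.1 hprod0, hlcord.2, hprodord, hordsum]
  have htotal : (G.roots.map (fun r => -v.ord r)).sum ≤ 1 := by
    have h0 := hint.le_ord hEne
    rw [hEord] at h0
    have : (G.roots.map (fun r => -v.ord r)).sum = -(G.roots.map v.ord).sum := by
      rw [Multiset.sum_map_neg]
    rw [this]; linarith
  -- `S ≤ roots`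
  have hSle : S.val ≤ G.roots := by
    rw [Multiset.le_iff_subset S.nodup]
    intro r hr
    obtain ⟨Pt, hPt0, htor, hPtr⟩ := hS r (Finset.mem_def.mpr hr)
    rw [mem_roots hG0]
    show G.eval r = 0
    rw [← hPtr]
    exact (frey_smul_eq_zero_iff P hPt0).mp htor
  obtain ⟨T, hT⟩ : ∃ T, G.roots = S.val + T := ⟨G.roots - S.val, (add_tsub_cancel_of_le hSle).symm⟩
  have hcardroots : Multiset.card G.roots = 2 * ((P.p - 1) / 2) ^ 2 + 2 * ((P.p - 1) / 2) := by
    rw [← hsplit.natDegree_eq_card_roots, hdeg]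
  have hTpos : 0 < Multiset.card T := by
    have h1 : Multiset.card G.roots = S.card + Multiset.card T := by
      rw [hT, Multiset.card_add]; rfl
    have h2' : P.p ^ 2 = 4 * ((P.p - 1) / 2) ^ 2 + 4 * ((P.p - 1) / 2) + 1 := by
      conv_lhs => rw [← hp]
      ring
    omega
  have hTnonneg : ∀ r ∈ T, 0 < -v.ord r := by
    intro r hr
    have : r ∈ G.roots := by rw [hT]; exact Multiset.mem_add.mpr (Or.inr hr)
    linarith [(hroot r this).2]
  have hTsum : 0 < (T.map (fun r => -v.ord r)).sum := by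
    obtain ⟨r₀, hr₀⟩ := Multiset.card_pos_iff_exists_mem.mp hTpos
    obtain ⟨T', rfl⟩ := Multiset.exists_cons_of_mem hr₀
    rw [Multiset.map_cons, Multiset.sum_cons]
    have h1 := hTnonneg r₀ (Multiset.mem_cons_self _ _)
    have h2' : 0 ≤ (T'.map (fun r => -v.ord r)).sum := by
      apply Multiset.sum_nonneg
      intro x hx
      obtain ⟨a, ha, rfl⟩ := Multiset.mem_map.mp hx
      exact (hTnonneg a (Multiset.mem_cons_of_mem ha)).le
    linarith
  have hsplitsum : (G.roots.map (fun r => -v.ord r)).sum =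
      ∑ r ∈ S, (-v.ord r) + (T.map (fun r => -v.ord r)).sum := by
    rw [hT, Multiset.map_add, Multiset.sum_add]
    rfl
  linarith

/-- membership in the Prelude's torsion submodule, in `ℕ`-scalar form -/
theorem mem_torsionBy_iff_nsmul {M : Type*} [AddCommGroup M] (n : ℕ) (x : M) :
    x ∈ Submodule.torsionBy ℤ M n ↔ n • x = 0 := by
  rw [Submodule.mem_torsionBy_iff, Nat.cast_smul_eq_nsmul]

/-- `E[p](ℚ̄)` is nontrivial. -/
theorem frey_torsion_nontrivial :
    Nontrivial (Submodule.torsionBy ℤ (P.freyCurve⁄(AlgebraicClosure ℚ)).Point P.p) := by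
  obtain ⟨Pt, hPt0, htor⟩ := frey_exists_torsion P (K := AlgebraicClosure ℚ)
  refine ⟨⟨⟨Pt, (mem_torsionBy_iff_nsmul _ _).mpr htor⟩, 0, ?_⟩⟩
  intro h
  exact hPt0 (congrArg Subtype.val h)

/-- `E[p](ℚ̄)` is finite with at most `p²` elements. -/
theorem frey_torsion_card_le :
    Finite (Submodule.torsionBy ℤ (P.freyCurve⁄(AlgebraicClosure ℚ)).Point P.p) ∧
      Nat.card (Submodule.torsionBy ℤ (P.freyCurve⁄(AlgebraicClosure ℚ)).Point P.p) ≤ P.p ^ 2 := by
  obtain ⟨hfin, hcard⟩ := frey_ncard_torsion_le P (K := AlgebraicClosure ℚ)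
  have hset : ((Submodule.torsionBy ℤ (P.freyCurve⁄(AlgebraicClosure ℚ)).Point P.p :
      Submodule ℤ _) : Set (P.freyCurve⁄(AlgebraicClosure ℚ)).Point) =
      {Pt | P.p • Pt = 0} := by
    ext x
    exact mem_torsionBy_iff_nsmul _ _
  constructor
  · have : Finite ((Submodule.torsionBy ℤ (P.freyCurve⁄(AlgebraicClosure ℚ)).Point P.p :
        Submodule ℤ _) : Set (P.freyCurve⁄(AlgebraicClosure ℚ)).Point) := by
      rw [hset]; exact hfin.to_subtype
    exact this
  · have h1 : Nat.card (Submodule.torsionBy ℤ (P.freyCurve⁄(AlgebraicClosure ℚ)).Point P.p) =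
        ((Submodule.torsionBy ℤ (P.freyCurve⁄(AlgebraicClosure ℚ)).Point P.p :
          Submodule ℤ _) : Set (P.freyCurve⁄(AlgebraicClosure ℚ)).Point).ncard :=
      (_root_.Nat.card_coe_set_eq _)
    rw [h1, hset]
    exact hcard

end Frey

end Fermat.Agent.S13
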