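/-
S13 module (A) (helper12): the blueprint exports `torsion_nontrivial`, `torsion_finite`,
`torsion_card_le`, `exists_divPoly` (exact signatures of the S13 blueprint), derived from
`Ladder.lean` / `Torsion.lean`.
-/
import Fermat.Agent.S13.Defs
import Fermat.Agent.S13.Torsion

set_option autoImplicit false
open WeierstrassCurve WeierstrassCurve.Affine WeierstrassCurve.Affine.Point

namespace Fermat.Agent.S13

open Fermat.Agent.S05 Polynomial

theorem torsion_nontrivial (P : FreyPackage) : ∃ x : Tors P, x ≠ 0 := by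
  obtain ⟨⟨x, y, hxy⟩⟩ := frey_torsion_nontrivial P
  by_cases hx : x = 0
  · exact ⟨y, fun hy => hxy (hx.trans hy.symm)⟩
  · exact ⟨x, hx⟩

theorem torsion_finite (P : FreyPackage) : Finite (Tors P) := (frey_torsion_card_le P).1

theorem torsion_card_le (P : FreyPackage) : Nat.card (Tors P) ≤ P.p ^ 2 :=
  (frey_torsion_card_le P).2

/-- degree and leading coefficient of the integral division polynomial `freyG P`. -/
theorem freyG_natDegree (P : FreyPackage) :
    (freyG P).natDegree = (P.p ^ 2 - 1) / 2 ∧ (freyG P).leadingCoeff = -(P.p : ℤ) := by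
  obtain ⟨hp, hm⟩ := frey_p_eq P
  obtain ⟨h1, h2⟩ := ladG_lead (P.a ^ P.p) (P.b ^ P.p) (m := (P.p - 1) / 2) (by omega)
  have hc : (freyG P).coeff (2 * ((P.p - 1) / 2) ^ 2 + 2 * ((P.p - 1) / 2)) ≠ 0 := by
    rw [freyG, h2, neg_ne_zero]
    exact_mod_cast (by omega : (2 * ((P.p - 1) / 2) + 1 : ℕ) ≠ 0)
  have hd : (freyG P).natDegree = 2 * ((P.p - 1) / 2) ^ 2 + 2 * ((P.p - 1) / 2) :=
    le_antisymm h1 (le_natDegree_of_ne_zero hc)
  have hp2 : P.p ^ 2 = 4 * ((P.p - 1) / 2) ^ 2 + 4 * ((P.p - 1) / 2) + 1 := by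
    conv_lhs => rw [← hp]
    ring
  refine ⟨by rw [hd]; omega, ?_⟩
  rw [leadingCoeff, hd]
  show (ladG (P.a ^ P.p) (P.b ^ P.p) ((P.p - 1) / 2)).coeff _ = _
  rw [h2, hp]

theorem exists_divPoly (P : FreyPackage) : ∃ G : Polynomial ℤ,
    G.natDegree = (P.p ^ 2 - 1) / 2 ∧ G.leadingCoeff = -(P.p : ℤ) ∧
    ∀ Q : (P.freyCurve⁄Qb).Point, Q ≠ 0 → P.p • Q = 0 →
      (G.map (Int.castRingHom Qb)).eval (ptX Q) = 0 :=
  ⟨freyG P, (freyG_natDegree P).1, (freyG_natDegree P).2,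
    fun _ hQ0 hQ => (frey_smul_eq_zero_iff P hQ0).mp hQ⟩

end Fermat.Agent.S13
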