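/-
S13, module (C)(i): inertia at `2` acts unipotently on the odd torsion of a curve
`y² + xy = x³ + a₂ x² + a₄ x` with `ord 2 > 0`, `a₂` integral, `ord a₄ > 0`
(multiplicative reduction with a node at `(0,0)` whose tangent directions are the roots of
`t² + t = a₂`).  Everything is stated for an abstract valued field `(K, v)`, a ring
endomorphism `σ` of `K` preserving `v` and acting trivially on the residue field, and an
additive endomorphism `τ` of the group of points which acts through `σ` on coordinates.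

Coordinates are the raw affine coordinates `rawX`, `rawY` of `Defs.lean` (`0` at infinity).
-/
import Fermat.Agent.S13.Defs

set_option autoImplicit false
open WeierstrassCurve WeierstrassCurve.Affine WeierstrassCurve.Affine.Point

namespace Fermat.Agent.S13

open Fermat.Agent.S05 OrdFn

section Coord
variable {K : Type*} [Field K] {W : WeierstrassCurve K}

theorem u2_eqn (ha₁ : W.a₁ = 1) (ha₃ : W.a₃ = 0) (ha₆ : W.a₆ = 0) (P : W.toAffine.Point) :
    rawY P ^ 2 + rawX P * rawY P = rawX P ^ 3 + W.a₂ * rawX P ^ 2 + W.a₄ * rawX P := by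
  rcases P with _ | ⟨x, y, h⟩
  · simp [rawX, rawY]
  · simp only [rawX, rawY]
    have heq := h.1
    rw [Affine.equation_iff] at heq
    rw [ha₁, ha₃, ha₆] at heq
    linear_combination heq

theorem u2_rawX_neg (P : W.toAffine.Point) : rawX (-P) = rawX P := by
  rcases P with _ | ⟨x, y, h⟩
  · rfl
  · rfl

theorem u2_rawY_neg (ha₁ : W.a₁ = 1) (ha₃ : W.a₃ = 0) (P : W.toAffine.Point) :
    rawY (-P) = -rawY P - rawX P := by
  rcases P with _ | ⟨x, y, h⟩
  · simp [rawX, rawY, ← Point.zero_def]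
  · simp only [Point.neg_some, rawX, rawY, negY, ha₁, ha₃]
    ring

theorem u2_eq_or_eq_neg {P Q : W.toAffine.Point} (hP : P ≠ 0) (hQ : Q ≠ 0)
    (h : rawX P = rawX Q) : P = Q ∨ P = -Q := by
  rcases P with _ | ⟨x₁, y₁, h₁⟩
  · exact absurd rfl hP
  rcases Q with _ | ⟨x₂, y₂, h₂⟩
  · exact absurd rfl hQ
  exact Point.X_eq_iff.mp h

theorem u2_ext {P Q : W.toAffine.Point} (hP : P ≠ 0) (hQ : Q ≠ 0)
    (hx : rawX P = rawX Q) (hy : rawY P = rawY Q) : P = Q := by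
  rcases P with _ | ⟨x₁, y₁, h₁⟩
  · exact absurd rfl hP
  rcases Q with _ | ⟨x₂, y₂, h₂⟩
  · exact absurd rfl hQ
  simp only [rawX, rawY] at hx hy
  subst hx
  subst hy
  rfl

variable [DecidableEq K]

/-- the `x`-coordinate of a difference of two points with distinct `x`-coordinates. -/
theorem u2_sub (ha₁ : W.a₁ = 1) (ha₃ : W.a₃ = 0) {P P' : W.toAffine.Point}
    (hP : P ≠ 0) (hP' : P' ≠ 0) (h : rawX P' ≠ rawX P) :
    P' - P ≠ 0 ∧ rawX (P' - P) * (rawX P' - rawX P) ^ 2 =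
      (rawY P' + rawY P + rawX P) ^ 2 + (rawY P' + rawY P + rawX P) * (rawX P' - rawX P)
        - (W.a₂ + rawX P + rawX P') * (rawX P' - rawX P) ^ 2 := by
  rcases P with _ | ⟨x, y, hxy⟩
  · exact absurd rfl hP
  rcases P' with _ | ⟨x', y', hxy'⟩
  · exact absurd rfl hP'
  have hx : x' ≠ x := h
  rw [sub_eq_add_neg, Point.neg_some, add_of_X_ne hx]
  refine ⟨some_ne_zero _, ?_⟩
  simp only [rawX, rawY]
  rw [slope_of_X_ne hx, addX, negY, ha₁, ha₃]
  have hx' : x' - x ≠ 0 := sub_ne_zero.mpr hx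
  field_simp
  ring

/-- duplication formula for the `x`-coordinate. -/
theorem u2_dbl (ha₁ : W.a₁ = 1) (ha₃ : W.a₃ = 0) (ha₆ : W.a₆ = 0) {P : W.toAffine.Point}
    (hP : P ≠ 0) (hY : 2 * rawY P + rawX P ≠ 0) :
    P + P ≠ 0 ∧ rawX (P + P) * (2 * rawY P + rawX P) ^ 2 = (rawX P ^ 2 - W.a₄) ^ 2 := by
  rcases P with _ | ⟨x, y, h⟩
  · exact absurd rfl hP
  simp only [rawX, rawY] at hY
  have hy : y ≠ W.toAffine.negY x y := by
    intro hy
    apply hY
    simp only [negY, ha₁, ha₃] at hy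
    linear_combination hy
  rw [add_self_of_Y_ne hy]
  refine ⟨some_ne_zero _, ?_⟩
  simp only [rawX, rawY]
  rw [slope_of_Y_ne rfl hy, addX, negY, ha₁, ha₃]
  have heq := h.1
  rw [Affine.equation_iff] at heq
  rw [ha₁, ha₃, ha₆] at heq
  have e1 : y - (-y - 1 * x - 0) = 2 * y + x := by ring
  rw [e1]
  field_simp
  linear_combination (-(1 + 4 * W.toAffine.a₂ + 8 * x)) * heq

theorem u2_dbl_ne (ha₁ : W.a₁ = 1) (ha₃ : W.a₃ = 0) {P : W.toAffine.Point}
    (h : P + P ≠ 0) : 2 * rawY P + rawX P ≠ 0 := by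
  intro h0
  apply h
  rcases P with _ | ⟨x, y, hns⟩
  · rfl
  · simp only [rawX, rawY] at h0
    apply add_self_of_Y_eq
    simp only [negY, ha₁, ha₃]
    linear_combination h0

end Coord

section Val
variable {K : Type*} [Field K] (v : OrdFn K)

/-- exact order `c` is incompatible with order `> c`. -/
theorem u2_not_gt {x : K} {c : ℚ} (h : v.HasOrd x c) (h' : v.Gt c x) : False := by
  rcases h' with h0 | hlt
  · exact h.1 h0
  · rw [h.2] at hlt; exact lt_irrefl _ hlt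

/-- if `x` is not of order `> c` but is of order `≥ c`, it has exact order `c`. -/
theorem u2_hasOrd_of_ge_not_gt {x : K} {c : ℚ} (h : v.Ge c x) (h' : ¬ v.Gt c x) :
    v.HasOrd x c := by
  have hx0 : x ≠ 0 := fun h0 => h' (Or.inl h0)
  refine ⟨hx0, le_antisymm ?_ (h.le_ord hx0)⟩
  by_contra hlt
  exact h' (Or.inr (not_le.mp hlt))

/-- a root `y` of `y (y + x) = r` with `x`, `r` integral is integral. -/
theorem u2_ge_of_quad {x y r : K} (hx : v.Ge 0 x) (hr : v.Ge 0 r) (h : y * (y + x) = r) :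
    v.Ge 0 y := by
  by_contra hy
  have hy0 : y ≠ 0 := fun h0 => hy (Or.inl h0)
  have hlt : v.ord y < 0 := by
    by_contra hge; exact hy (Or.inr (not_lt.mp hge))
  have h1 : v.HasOrd y (v.ord y) := ⟨hy0, rfl⟩
  have h2 : v.HasOrd (y + x) (v.ord y) := h1.add_gt (hx.gt_of_lt hlt)
  have h3 := h1.mul h2
  rw [h] at h3
  have := hr.le_ord h3.1
  rw [h3.2] at this
  linarith

/-- congruent points with unit `x`: the `x`-coordinate of the difference is not integral. -/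
theorem u2_core_congr {x y x' y' a₂ X : K} (h2 : v.Gt 0 (2 : K)) (ha₂ : v.Ge 0 a₂)
    (hx : v.HasOrd x 0) (hy : v.Ge 0 y) (hxx : v.Gt 0 (x' - x)) (hyy : v.Gt 0 (y' - y))
    (hne : x' ≠ x)
    (hX : X * (x' - x) ^ 2 = (y' + y + x) ^ 2 + (y' + y + x) * (x' - x)
        - (a₂ + x + x') * (x' - x) ^ 2) : ¬ v.Ge 0 X := by
  have hD0 : x' - x ≠ 0 := sub_ne_zero.mpr hne
  have he : 0 < v.ord (x' - x) := hxx.lt_ord hD0
  have hD : v.HasOrd (x' - x) (v.ord (x' - x)) := ⟨hD0, rfl⟩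
  have h2y : v.Gt 0 (2 * y) := by simpa using h2.mul_ge hy
  have hN : v.HasOrd (y' + y + x) 0 := by
    have : y' + y + x = x + ((y' - y) + 2 * y) := by ring
    rw [this]
    exact hx.add_gt (hyy.add h2y)
  have hx' : v.Ge 0 x' := by
    have : x' = x + (x' - x) := by ring
    rw [this]; exact (hx.ge le_rfl).add hxx.ge
  have hR : v.HasOrd ((y' + y + x) ^ 2 + (y' + y + x) * (x' - x)
        - (a₂ + x + x') * (x' - x) ^ 2) 0 := by
    have h1 : v.HasOrd ((y' + y + x) ^ 2) 0 := by simpa using hN.pow 2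
    have h2' : v.Gt 0 ((y' + y + x) * (x' - x)) := by
      simpa using (hN.ge le_rfl).mul_gt hxx
    have h3 : v.Gt 0 ((a₂ + x + x') * (x' - x) ^ 2) := by
      have h4 : v.Gt 0 ((x' - x) ^ 2) := by
        rw [pow_two]; simpa using hxx.mul_ge hxx.ge
      simpa using ((ha₂.add (hx.ge le_rfl)).add hx').mul_gt h4
    exact (h1.add_gt h2').sub_gt h3
  rw [← hX] at hR
  have hX' := hR.of_mul (hD.pow 2)
  intro hge
  have := hge.le_ord hX'.1
  rw [hX'.2] at this
  push_cast at this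
  linarith

/-- duplication of a point deep in the node: `x(2P)` is not of positive order. -/
theorem u2_core_dbl {x y a₂ a₄ X : K} {h : ℚ} (ha₂ : v.Ge 0 a₂)
    (hh : 0 < h) (ha₄ : v.HasOrd a₄ h) (hx : v.Ge h x)
    (heq : y ^ 2 + x * y = x ^ 3 + a₂ * x ^ 2 + a₄ * x)
    (hD : 2 * y + x ≠ 0) (hX : X * (2 * y + x) ^ 2 = (x ^ 2 - a₄) ^ 2) : ¬ v.Gt 0 X := by
  have hx0 : x ≠ 0 := by
    intro hx0
    rw [hx0] at heq
    have hy0 : y = 0 := by
      have : y ^ 2 = 0 := by linear_combination heq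
      exact pow_eq_zero_iff (n := 2) (by norm_num) |>.mp this
    apply hD; rw [hx0, hy0]; ring
  have hc : h ≤ v.ord x := hx.le_ord hx0
  have hxo : v.HasOrd x (v.ord x) := ⟨hx0, rfl⟩
  have hx2 : v.HasOrd (x ^ 2) (2 * v.ord x) := by simpa using hxo.pow 2
  have hnum : v.HasOrd (x ^ 2 - a₄) h := ha₄.gt_sub (hx2.gt (by linarith))
  have hT : (2 * y + x) ^ 2 = x * (4 * x ^ 2 + (1 + 4 * a₂) * x + 4 * a₄) := by
    linear_combination 4 * heq
  have hT0 : 4 * x ^ 2 + (1 + 4 * a₂) * x + 4 * a₄ ≠ 0 := by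
    intro h0
    rw [h0, mul_zero] at hT
    exact hD (pow_eq_zero_iff (n := 2) (by norm_num) |>.mp hT)
  have h4 : v.Ge 0 (4 : K) := by exact_mod_cast ge_natCast (v := v) 4
  have hTge : v.Ge h (4 * x ^ 2 + (1 + 4 * a₂) * x + 4 * a₄) := by
    refine (Ge.add ?_ ?_).add ?_
    · exact (h4.mul (hx2.ge le_rfl)).mono (by linarith)
    · exact (((ge_one (v := v)).add ((h4.mul ha₂).mono (by linarith))).mul hx).mono
        (by linarith)
    · exact (h4.mul (ha₄.ge le_rfl)).mono (by linarith)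
  have hTo : v.HasOrd (4 * x ^ 2 + (1 + 4 * a₂) * x + 4 * a₄)
      (v.ord (4 * x ^ 2 + (1 + 4 * a₂) * x + 4 * a₄)) := ⟨hT0, rfl⟩
  have hDD := hxo.mul hTo
  rw [← hT] at hDD
  have hXD : v.HasOrd (X * (2 * y + x) ^ 2) (2 * h) := by
    rw [hX]; simpa using hnum.pow 2
  have hX' := hXD.of_mul hDD
  intro hgt
  have h1 := hgt.lt_ord hX'.1
  rw [hX'.2] at h1
  have h3 := hTge.le_ord hT0
  linarith

/-- the two tangent branches at the node: exactly one of `u = y - βx`, `w = y + (1+β)x`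
has the order of `x`, the other one is smaller. -/
theorem u2_branch {x y a₂ a₄ β : K} {c h : ℚ} (h2 : v.Gt 0 (2 : K))
    (hβ : β ^ 2 + β = a₂) (hβ0 : v.Ge 0 β) (ha₄ : v.HasOrd a₄ h) (hc : 0 < c) (hch : c < h)
    (hx : v.HasOrd x c) (heq : y ^ 2 + x * y = x ^ 3 + a₂ * x ^ 2 + a₄ * x) :
    (v.HasOrd (y - β * x) c ∧ v.Gt c (y + (1 + β) * x)) ∨
    (v.HasOrd (y + (1 + β) * x) c ∧ v.Gt c (y - β * x)) := by
  have hδ : v.HasOrd (1 + 2 * β) 0 := hasOrd_one.add_gt (by simpa using h2.mul_ge hβ0)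
  have hwu : v.HasOrd ((y + (1 + β) * x) - (y - β * x)) c := by
    have : (y + (1 + β) * x) - (y - β * x) = (1 + 2 * β) * x := by ring
    rw [this]; simpa using hδ.mul hx
  have hprod : (y - β * x) * (y + (1 + β) * x) = x * (x ^ 2 + a₄) := by
    linear_combination heq - x ^ 2 * hβ
  have hx2 : v.HasOrd (x ^ 2) (2 * c) := by simpa using hx.pow 2
  have hq : v.Gt c (x ^ 2 + a₄) := Gt.add (hx2.gt (by linarith)) (ha₄.gt hch)
  have hpg : v.Gt (2 * c) ((y - β * x) * (y + (1 + β) * x)) := by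
    rw [hprod]
    exact ((hx.ge le_rfl).mul_gt hq).mono (by linarith)
  by_cases hu : v.Gt c (y - β * x)
  · right
    refine ⟨?_, hu⟩
    have : y + (1 + β) * x = ((y + (1 + β) * x) - (y - β * x)) + (y - β * x) := by ring
    rw [this]; exact hwu.add_gt hu
  · left
    have hu0 : y - β * x ≠ 0 := fun h0 => hu (Or.inl h0)
    have hule : v.ord (y - β * x) ≤ c := by
      by_contra hlt; exact hu (Or.inr (not_le.mp hlt))
    have hw : v.Gt c (y + (1 + β) * x) := by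
      by_cases hw0 : y + (1 + β) * x = 0
      · exact Or.inl hw0
      · refine Or.inr ?_
        have := hpg.lt_ord (mul_ne_zero hu0 hw0)
        rw [ord_mul hu0 hw0] at this
        linarith
    refine ⟨?_, hw⟩
    have : y - β * x = -((y + (1 + β) * x) - (y - β * x)) + (y + (1 + β) * x) := by ring
    rw [this]; exact hwu.neg.add_gt hw

/-- two points on the same tangent branch at the node: the `x`-coordinate of the difference
is not of positive order. -/
theorem u2_core_mid {x y x' y' a₂ β X : K} {c : ℚ} (hβ : β ^ 2 + β = a₂) (hc : 0 < c)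
    (hx : v.HasOrd x c) (hx' : v.HasOrd x' c) (hne : x' ≠ x)
    (hbr : (v.HasOrd (y - β * x) c ∧ v.Gt c (y + (1 + β) * x) ∧
              v.HasOrd (y' - β * x') c ∧ v.Gt c (y' + (1 + β) * x')) ∨
           (v.HasOrd (y + (1 + β) * x) c ∧ v.Gt c (y - β * x) ∧
              v.HasOrd (y' + (1 + β) * x') c ∧ v.Gt c (y' - β * x')))
    (hX : X * (x' - x) ^ 2 = (y' + y + x) ^ 2 + (y' + y + x) * (x' - x)
        - (a₂ + x + x') * (x' - x) ^ 2) : ¬ v.Gt 0 X := by
  have hm : v.HasOrd ((y' - β * x') + (y + (1 + β) * x)) c ∧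
      v.HasOrd ((y' + (1 + β) * x') + (y - β * x)) c := by
    rcases hbr with ⟨hu, hw, hu', hw'⟩ | ⟨hw, hu, hw', hu'⟩
    · exact ⟨hu'.add_gt hw, hu.gt_add hw'⟩
    · exact ⟨hw.gt_add hu', hw'.add_gt hu⟩
  have key : X * (x' - x) ^ 2 =
      ((y' - β * x') + (y + (1 + β) * x)) * ((y' + (1 + β) * x') + (y - β * x))
        - (x + x') * (x' - x) ^ 2 := by
    linear_combination hX + (x' - x) ^ 2 * hβ
  have hD0 : x' - x ≠ 0 := sub_ne_zero.mpr hne
  have hD : v.HasOrd (x' - x) (v.ord (x' - x)) := ⟨hD0, rfl⟩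
  have hDge : c ≤ v.ord (x' - x) := ((hx'.ge le_rfl).sub (hx.ge le_rfl)).le_ord hD0
  have hD2 : v.HasOrd ((x' - x) ^ 2) (2 * v.ord (x' - x)) := by simpa using hD.pow 2
  have hR : v.HasOrd (X * (x' - x) ^ 2) (c + c) := by
    rw [key]
    refine (hm.1.mul hm.2).sub_gt ?_
    exact ((((hx.ge le_rfl).add (hx'.ge le_rfl)).mul (hD2.ge le_rfl)).gt_of_lt (by linarith))
  have hX' := hR.of_mul hD2
  intro hgt
  have h1 := hgt.lt_ord hX'.1
  rw [hX'.2] at h1
  linarith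

end Val

section Main
variable {K : Type*} [Field K] [DecidableEq K] (v : OrdFn K) {W : WeierstrassCurve K}

omit [DecidableEq K] in
/-- integrality of `y` for a point with integral `x`. -/
theorem rawY_ge (ha₁ : W.a₁ = 1) (ha₃ : W.a₃ = 0) (ha₆ : W.a₆ = 0) (ha₂ : v.Ge 0 W.a₂)
    (ha₄ : v.Ge 0 W.a₄) (P : W.toAffine.Point) (hx : v.Ge 0 (rawX P)) : v.Ge 0 (rawY P) := by
  refine u2_ge_of_quad v hx (r := rawX P ^ 3 + W.a₂ * rawX P ^ 2 + W.a₄ * rawX P) ?_ ?_
  · have h3 : v.Ge 0 (rawX P ^ 3) := (hx.pow 3).mono (by norm_num)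
    have h2 : v.Ge 0 (rawX P ^ 2) := (hx.pow 2).mono (by norm_num)
    exact (h3.add ((ha₂.mul h2).mono (by norm_num))).add ((ha₄.mul hx).mono (by norm_num))
  · linear_combination u2_eqn ha₁ ha₃ ha₆ P

/-- **Congruence lemma.**  Two distinct points which are congruent modulo the maximal ideal,
the first with unit `x`-coordinate: their difference has non-integral `x`-coordinate (it lies
in the kernel of reduction). -/
theorem u2_congr (ha₁ : W.a₁ = 1) (ha₃ : W.a₃ = 0) (ha₆ : W.a₆ = 0) (h2 : v.Gt 0 (2 : K))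
    (ha₂ : v.Ge 0 W.a₂) (ha₄ : v.Ge 0 W.a₄) {P P' : W.toAffine.Point} (hP : P ≠ 0)
    (hP' : P' ≠ 0) (hx : v.HasOrd (rawX P) 0) (hxx : v.Gt 0 (rawX P' - rawX P))
    (hyy : v.Gt 0 (rawY P' - rawY P)) (hne : P' ≠ P) :
    P' - P ≠ 0 ∧ ¬ v.Ge 0 (rawX (P' - P)) := by
  have hy : v.Ge 0 (rawY P) := rawY_ge v ha₁ ha₃ ha₆ ha₂ ha₄ P (hx.ge le_rfl)
  have h2y : v.Gt 0 (2 * rawY P) := by simpa using h2.mul_ge hy
  have hxne : rawX P' ≠ rawX P := by
    intro hxe
    rcases u2_eq_or_eq_neg hP' hP hxe with h | h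
    · exact hne h
    · have hy' : rawY P' = -rawY P - rawX P := by rw [h]; exact u2_rawY_neg ha₁ ha₃ P
      rw [hy'] at hyy
      have : v.HasOrd (-rawY P - rawX P - rawY P) 0 := by
        have e : -rawY P - rawX P - rawY P = -(rawX P + 2 * rawY P) := by ring
        rw [e]
        exact (hx.add_gt h2y).neg
      exact u2_not_gt v this hyy
  obtain ⟨h0, hX⟩ := u2_sub ha₁ ha₃ hP hP' hxne
  exact ⟨h0, u2_core_congr v h2 ha₂ hx hy hxx hyy hxne hX⟩

/-- a point killed by `2` and by an odd number is zero. -/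
theorem u2_eq_zero_of_two_of_odd {G : Type*} [AddCommGroup G] {p : ℕ} (hp : Odd p) {Q : G}
    (h2 : Q + Q = 0) (hpQ : p • Q = 0) : Q = 0 := by
  obtain ⟨k, rfl⟩ := hp
  have : (2 * k + 1) • Q = k • (Q + Q) + Q := by
    rw [add_nsmul, one_nsmul, mul_nsmul, two_nsmul]
  rw [this, h2, smul_zero, zero_add] at hpQ
  exact hpQ

/-- standing hypotheses of the unipotence theorem at `2`. -/
structure U2Ctx (v : OrdFn K) (W : WeierstrassCurve K) (h : ℚ) (β : K) (σ : K →+* K)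
    (τ : W.toAffine.Point →+ W.toAffine.Point) (p : ℕ) : Prop where
  a₁ : W.a₁ = 1
  a₃ : W.a₃ = 0
  a₆ : W.a₆ = 0
  two : v.Gt 0 (2 : K)
  a₂ : v.Ge 0 W.a₂
  hpos : 0 < h
  a₄ : v.HasOrd W.a₄ h
  beta : β ^ 2 + β = W.a₂
  sord : ∀ x, v.ord (σ x) = v.ord x
  sres : ∀ x, v.Ge 0 x → v.Gt 0 (σ x - x)
  sa₂ : σ W.a₂ = W.a₂
  tx : ∀ P, rawX (τ P) = σ (rawX P)
  ty : ∀ P, rawY (τ P) = σ (rawY P)
  t0 : ∀ P, τ P = 0 → P = 0
  odd : Odd p
  nd : ∀ Q : W.toAffine.Point, Q ≠ 0 → p • Q = 0 → v.Ge 0 (rawX Q)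

namespace U2Ctx

variable {v} {h : ℚ} {β : K} {σ : K →+* K} {τ : W.toAffine.Point →+ W.toAffine.Point} {p : ℕ}

theorem sHasOrd (C : U2Ctx v W h β σ τ p) {x : K} {c : ℚ} (hx : v.HasOrd x c) :
    v.HasOrd (σ x) c :=
  ⟨(map_ne_zero σ).mpr hx.1, by rw [C.sord, hx.2]⟩

theorem sGt (C : U2Ctx v W h β σ τ p) {x : K} {c : ℚ} (hx : v.Gt c x) : v.Gt c (σ x) := by
  rcases hx with h0 | hlt
  · exact Or.inl (by rw [h0, _root_.map_zero])
  · exact Or.inr (by rw [C.sord]; exact hlt)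

theorem beta_ge (C : U2Ctx v W h β σ τ p) : v.Ge 0 β := by
  refine u2_ge_of_quad v (ge_one (v := v)) C.a₂ (y := β) ?_
  linear_combination C.beta

theorem delta (C : U2Ctx v W h β σ τ p) : v.HasOrd (1 + 2 * β) 0 :=
  hasOrd_one.add_gt (by simpa using C.two.mul_ge C.beta_ge)

/-- `σ` fixes the tangent direction `β`. -/
theorem sbeta (C : U2Ctx v W h β σ τ p) : σ β = β := by
  have h1 : σ β ^ 2 + σ β = β ^ 2 + β := by
    rw [C.beta, ← C.sa₂, ← C.beta, map_add, map_pow]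
  have h2 : (σ β - β) * (σ β + β + 1) = 0 := by linear_combination h1
  rcases mul_eq_zero.mp h2 with h3 | h3
  · exact sub_eq_zero.mp h3
  · exfalso
    have h4 : σ β - β = -(1 + 2 * β) := by linear_combination h3
    have h5 := C.sres β C.beta_ge
    rw [h4] at h5
    exact u2_not_gt v C.delta.neg h5

theorem a₄ge (C : U2Ctx v W h β σ τ p) : v.Ge 0 W.a₄ := C.a₄.ge C.hpos.le

theorem tors (_C : U2Ctx v W h β σ τ p) {P : W.toAffine.Point} (hP : p • P = 0) :
    p • (τ P - P) = 0 := by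
  rw [smul_sub, ← map_nsmul, hP, _root_.map_zero, sub_zero]

/-- points with unit `x`-coordinate are fixed. -/
theorem fix_unit (C : U2Ctx v W h β σ τ p) {P : W.toAffine.Point} (hP0 : P ≠ 0)
    (hP : p • P = 0) (hx : v.HasOrd (rawX P) 0) : τ P = P := by
  by_contra hne
  have hP' : τ P ≠ 0 := fun h0 => hP0 (C.t0 P h0)
  have hy : v.Ge 0 (rawY P) := rawY_ge v C.a₁ C.a₃ C.a₆ C.a₂ C.a₄ge P (hx.ge le_rfl)
  have hxx : v.Gt 0 (rawX (τ P) - rawX P) := by rw [C.tx]; exact C.sres _ (hx.ge le_rfl)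
  have hyy : v.Gt 0 (rawY (τ P) - rawY P) := by rw [C.ty]; exact C.sres _ hy
  obtain ⟨h0, hX⟩ := u2_congr v C.a₁ C.a₃ C.a₆ C.two C.a₂ C.a₄ge hP0 hP' hx hxx hyy hne
  exact hX (C.nd _ h0 (C.tors hP))

/-- points deep in the node (`ord x ≥ ord a₄`) are fixed. -/
theorem fix_deep (C : U2Ctx v W h β σ τ p) {P : W.toAffine.Point} (hP0 : P ≠ 0)
    (hP : p • P = 0) (hx : v.Ge h (rawX P)) : τ P = P := by
  have h2P : P + P ≠ 0 := fun h0 => hP0 (u2_eq_zero_of_two_of_odd C.odd h0 hP)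
  have hD := u2_dbl_ne C.a₁ C.a₃ h2P
  obtain ⟨-, hX⟩ := u2_dbl C.a₁ C.a₃ C.a₆ hP0 hD
  have hngt := u2_core_dbl v C.a₂ C.hpos C.a₄ hx (u2_eqn C.a₁ C.a₃ C.a₆ P) hD hX
  have hp2 : p • (P + P) = 0 := by rw [smul_add, hP, add_zero]
  have hge := C.nd _ h2P hp2
  have hfix := C.fix_unit h2P hp2 (u2_hasOrd_of_ge_not_gt v hge hngt)
  have h3 : (τ P - P) + (τ P - P) = 0 := by
    rw [map_add] at hfix
    have : (τ P - P) + (τ P - P) = (τ P + τ P) - (P + P) := by abel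
    rw [this, hfix, sub_self]
  exact sub_eq_zero.mp (u2_eq_zero_of_two_of_odd C.odd h3 (C.tors hP))

/-- points near the node (`0 < ord x < ord a₄`): `τ P - P` is fixed. -/
theorem fix_mid (C : U2Ctx v W h β σ τ p) {P : W.toAffine.Point} (hP0 : P ≠ 0)
    (hP : p • P = 0) {c : ℚ} (hx : v.HasOrd (rawX P) c) (hc : 0 < c) (hch : c < h) :
    τ (τ P - P) = τ P - P := by
  by_cases hPP : τ P = P
  · rw [hPP, sub_self, _root_.map_zero]
  have hP' : τ P ≠ 0 := fun h0 => hP0 (C.t0 P h0)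
  have hx' : v.HasOrd (rawX (τ P)) c := by rw [C.tx]; exact C.sHasOrd hx
  have eu : rawY (τ P) - β * rawX (τ P) = σ (rawY P - β * rawX P) := by
    rw [C.tx, C.ty, map_sub, map_mul, C.sbeta]
  have ew : rawY (τ P) + (1 + β) * rawX (τ P) = σ (rawY P + (1 + β) * rawX P) := by
    rw [C.tx, C.ty, map_add, map_mul, map_add, map_one, C.sbeta]
  have hbr : (v.HasOrd (rawY P - β * rawX P) c ∧ v.Gt c (rawY P + (1 + β) * rawX P) ∧
              v.HasOrd (rawY (τ P) - β * rawX (τ P)) c ∧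
              v.Gt c (rawY (τ P) + (1 + β) * rawX (τ P))) ∨
           (v.HasOrd (rawY P + (1 + β) * rawX P) c ∧ v.Gt c (rawY P - β * rawX P) ∧
              v.HasOrd (rawY (τ P) + (1 + β) * rawX (τ P)) c ∧
              v.Gt c (rawY (τ P) - β * rawX (τ P))) := by
    rcases u2_branch v C.two C.beta C.beta_ge C.a₄ hc hch hx (u2_eqn C.a₁ C.a₃ C.a₆ P) with
      ⟨hu, hw⟩ | ⟨hw, hu⟩
    · left
      refine ⟨hu, hw, ?_, ?_⟩
      · rw [eu]; exact C.sHasOrd hu
      · rw [ew]; exact C.sGt hw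
    · right
      refine ⟨hw, hu, ?_, ?_⟩
      · rw [ew]; exact C.sHasOrd hw
      · rw [eu]; exact C.sGt hu
  have hxne : rawX (τ P) ≠ rawX P := by
    intro hxe
    rcases u2_eq_or_eq_neg hP' hP0 hxe with h1 | h1
    · exact hPP h1
    · have hy' : rawY (τ P) = -rawY P - rawX P := by rw [h1]; exact u2_rawY_neg C.a₁ C.a₃ P
      rcases hbr with ⟨-, hw, hu', -⟩ | ⟨-, hu, hw', -⟩
      · have e : rawY (τ P) - β * rawX (τ P) = -(rawY P + (1 + β) * rawX P) := by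
          rw [hy', hxe]; ring
        rw [e] at hu'
        exact u2_not_gt v hu' hw.neg
      · have e : rawY (τ P) + (1 + β) * rawX (τ P) = -(rawY P - β * rawX P) := by
          rw [hy', hxe]; ring
        rw [e] at hw'
        exact u2_not_gt v hw' hu.neg
  obtain ⟨hQ0, hX⟩ := u2_sub C.a₁ C.a₃ hP0 hP' hxne
  have hngt := u2_core_mid v C.beta hc hx hx' hxne hbr hX
  have hge := C.nd _ hQ0 (C.tors hP)
  exact C.fix_unit hQ0 (C.tors hP) (u2_hasOrd_of_ge_not_gt v hge hngt)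

/-- `(τ - 1)² = 0` on the `p`-torsion. -/
theorem unipotent (C : U2Ctx v W h β σ τ p) (P : W.toAffine.Point) (hP : p • P = 0) :
    τ (τ P - P) = τ P - P := by
  by_cases hP0 : P = 0
  · rw [hP0, _root_.map_zero, sub_self, _root_.map_zero]
  have hge := C.nd P hP0 hP
  by_cases hx0 : rawX P = 0
  · rw [C.fix_deep hP0 hP (Or.inl hx0), sub_self, _root_.map_zero]
  have hc0 : 0 ≤ v.ord (rawX P) := hge.le_ord hx0
  rcases hc0.lt_or_eq with hc | hc
  · by_cases hch : v.ord (rawX P) < h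
    · exact C.fix_mid hP0 hP ⟨hx0, rfl⟩ hc hch
    · rw [C.fix_deep hP0 hP (Or.inr (not_lt.mp hch)), sub_self, _root_.map_zero]
  · rw [C.fix_unit hP0 hP ⟨hx0, hc.symm⟩, sub_self, _root_.map_zero]

end U2Ctx

/-- **Unipotence of inertia at `2`.**  On `y² + xy = x³ + a₂ x² + a₄ x` with `ord 2 > 0`,
`a₂` integral, `ord a₄ > 0`: if `σ` preserves the valuation and is trivial on the residue
field, `τ` is an additive self-map of the points acting by `σ` on coordinates, `p` is odd and no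
nonzero `p`-torsion point lies in the kernel of reduction, then `(τ - 1)² = 0` on the
`p`-torsion. -/
theorem u2_unipotent (v : OrdFn K) {W : WeierstrassCurve K} (ha₁ : W.a₁ = 1) (ha₃ : W.a₃ = 0)
    (ha₆ : W.a₆ = 0) (h2 : v.Gt 0 (2 : K)) (ha₂ : v.Ge 0 W.a₂) {h : ℚ} (hh : 0 < h)
    (ha₄ : v.HasOrd W.a₄ h) {β : K} (hβ : β ^ 2 + β = W.a₂) (σ : K →+* K)
    (hσord : ∀ x, v.ord (σ x) = v.ord x) (hσres : ∀ x, v.Ge 0 x → v.Gt 0 (σ x - x))
    (hσa₂ : σ W.a₂ = W.a₂) (τ : W.toAffine.Point →+ W.toAffine.Point)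
    (hτx : ∀ P, rawX (τ P) = σ (rawX P)) (hτy : ∀ P, rawY (τ P) = σ (rawY P))
    (hτ0 : ∀ P, τ P = 0 → P = 0) {p : ℕ} (hp : Odd p)
    (hnd : ∀ Q : W.toAffine.Point, Q ≠ 0 → p • Q = 0 → v.Ge 0 (rawX Q))
    (P : W.toAffine.Point) (hP : p • P = 0) : τ (τ P - P) = τ P - P :=
  U2Ctx.unipotent (v := v) (h := h) (β := β) (σ := σ)
    ⟨ha₁, ha₃, ha₆, h2, ha₂, hh, ha₄, hβ, hσord, hσres, hσa₂, hτx, hτy, hτ0, hp, hnd⟩
    P hP

/-- a `τ`-stable cyclic subgroup of the `p`-torsion (`p` prime) is fixed pointwise. -/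
theorem u2_fix_of_stable {G : Type*} [AddCommGroup G] (τ : G →+ G) {p : ℕ} (hp : p.Prime)
    {P : G} (hP : p • P = 0) (hun : τ (τ P - P) = τ P - P) {k : ℤ} (hk : τ P = k • P) :
    τ P = P := by
  by_cases hP0 : P = 0
  · rw [hP0, _root_.map_zero]
  have : Fact p.Prime := ⟨hp⟩
  have hord : addOrderOf P = p := addOrderOf_eq_prime hP hP0
  have h1 : τ P - P = (k - 1) • P := by rw [hk, sub_smul, one_smul]
  have h2 : ((k - 1) * (k - 1)) • P = 0 := by
    have h3 : τ ((k - 1) • P) = ((k - 1) * k) • P := by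
      rw [map_zsmul, hk, mul_smul]
    rw [h1, h3] at hun
    have : ((k - 1) * (k - 1)) • P = ((k - 1) * k) • P - (k - 1) • P := by
      rw [← sub_smul]; congr 1; ring
    rw [this, hun, sub_self]
  have h4 : (p : ℤ) ∣ (k - 1) * (k - 1) := by
    rw [← hord]; exact (addOrderOf_dvd_iff_zsmul_eq_zero).mpr h2
  have h5 : (p : ℤ) ∣ k - 1 := by
    rcases (Nat.prime_iff_prime_int.mp hp).dvd_or_dvd h4 with h | h <;> exact h
  have h6 : (k - 1) • P = 0 := by
    rw [← hord] at h5; exact (addOrderOf_dvd_iff_zsmul_eq_zero).mp h5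
  exact sub_eq_zero.mp (by rw [h1, h6])

end Main

end Fermat.Agent.S13
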