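/-
S13 / C7 (helper3): inertia at `2` acts unipotently on `E[p]` of the Frey curve.

Generic statement: `Unip2.lean` (`u2_unipotent`); here it is specialised to the Frey curve over
`Qbar`, with the valuation of a valuation subring over `2` (S05 `exists_ordFn`), the node model
(`frey_isNodeModel`, C1) and the absence of `p`-torsion in the kernel of reduction
(`NodeSeq.ge_zero`, C2).
-/
import Fermat.Agent.S13.Unip2
import Fermat.Agent.S13.NoTorsion2
import Fermat.Agent.S13.NodeModel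
import Fermat.Agent.S05.OrdConstruct
import Fermat.Agent.S05.FreyArith

set_option autoImplicit false
open WeierstrassCurve WeierstrassCurve.Affine WeierstrassCurve.Affine.Point
open FreyPackage

namespace Fermat.Agent.S13

open Fermat.Agent.S05 OrdFn

theorem h3_rawX_smul (W' : WeierstrassCurve.Affine ℚ) (σ : GQ) (Q : (W'⁄Qb).Point) :
    rawX (W := W'⁄Qb) (σ • Q) = σ (rawX (W := W'⁄Qb) Q) := by
  rw [algEquiv_smul_def]
  rcases Q with _ | ⟨x, y, h⟩
  · simp [rawX, ← Point.zero_def]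
  · simp [rawX, Point.map_some]

theorem h3_rawY_smul (W' : WeierstrassCurve.Affine ℚ) (σ : GQ) (Q : (W'⁄Qb).Point) :
    rawY (W := W'⁄Qb) (σ • Q) = σ (rawY (W := W'⁄Qb) Q) := by
  rw [algEquiv_smul_def]
  rcases Q with _ | ⟨x, y, h⟩
  · simp [rawY, ← Point.zero_def]
  · simp [rawY, Point.map_some]

/-- C7: inertia at 2 acts unipotently on `E[p]`. -/
theorem two_unipotent (P : FreyPackage) (A : ValuationSubring Qb) (hA : A.LiesOverPrime 2)
    (σ : GQ) (hσ : σ ∈ A.inertiaSubgroupIn ℚ) (x : Tors P) :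
    σ • (σ • x - x) = σ • x - x := by
  obtain ⟨v, -, hvint, hσord, hσres⟩ := exists_ordFn 2 Nat.prime_two A hA
  have hN := frey_isNodeModel P v hvint
  have hW := isFreyModel_freyCurve P Qb
  have h2K : (2 : Qb) ≠ 0 := two_ne_zero
  -- a tangent direction at the node
  obtain ⟨z, hz⟩ := IsAlgClosed.exists_pow_nat_eq (1 + 4 * (P.freyCurve⁄Qb).a₂) (n := 2)
    (by norm_num)
  have hβ : ((z - 1) / 2) ^ 2 + (z - 1) / 2 = (P.freyCurve⁄Qb).a₂ := by
    field_simp
    linear_combination hz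
  have hσa₂ : σ (P.freyCurve⁄Qb).a₂ = (P.freyCurve⁄Qb).a₂ := by
    simp
  -- `p` and `p - 2` are units at 2
  have hpodd : ¬ (2 : ℤ) ∣ (P.p : ℤ) := by
    have := P.hp_odd
    intro h
    have h' : 2 ∣ P.p := by exact_mod_cast h
    exact (Nat.not_even_iff_odd.mpr this) (even_iff_two_dvd.mpr h')
  have hp : v.HasOrd ((P.p : ℕ) : Qb) 0 := by
    have h := hvint (P.p : ℤ) (by exact_mod_cast P.hp0)
    rw [padicValInt.eq_zero_of_not_dvd hpodd] at h
    simpa using h
  have hp2 : v.HasOrd (((P.p : ℕ) : Qb) - 2) 0 := by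
    have hne : (P.p : ℤ) - 2 ≠ 0 := by
      have := P.hp5
      omega
    have hnd : ¬ (2 : ℤ) ∣ (P.p : ℤ) - 2 := by
      intro h
      exact hpodd ((dvd_sub_self_right).mp h)
    have h := hvint ((P.p : ℤ) - 2) hne
    rw [padicValInt.eq_zero_of_not_dvd hnd] at h
    simpa using h
  have hnd : ∀ Q : (P.freyCurve⁄Qb).Point, Q ≠ 0 → P.p • Q = 0 → v.Ge 0 (rawX Q) := by
    intro Q hQ0 hQ
    have hM := nodeSeq_of_torsion hW h2K P.pp P.hp5 hQ0 hQ
    have h1 := hM.ge_zero v P.hp5 (hN.a₄.ge hN.pos.le) (hN.b₂.ge le_rfl) hp hp2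
    simp only [one_smul] at h1
    exact h1
  obtain ⟨x, hx⟩ := x
  apply Subtype.ext
  show σ • (σ • x - x) = σ • x - x
  have hx' : P.p • x = 0 := by
    have := (Submodule.mem_torsionBy_iff _ _).mp hx
    simpa using this
  exact u2_unipotent v hN.a₁ hN.a₃ hN.a₆ hN.two hN.a₂ hN.pos hN.a₄ hβ
    (σ : Qb →+* Qb) (hσord σ hσ) (hσres σ hσ) hσa₂ (Point.map σ.toAlgHom)
    (fun Q => h3_rawX_smul _ σ Q) (fun Q => h3_rawY_smul _ σ Q)
    (fun Q h => Point.map_injective σ.toAlgHom (h.trans (Point.map_zero σ.toAlgHom).symm))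
    P.hp_odd hnd x hx'

end Fermat.Agent.S13
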