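/-
S13, module D1 (helper5): the kernel of reduction of a Frey model (points whose normalised
`X`-coordinate `ptX` is not integral) is closed under subtraction.

Proof: with `x₁ = ptX P`, `x₂ = ptX Q` of negative order, the two numbers
`Xp = ptX (P + Q)`, `Xm = ptX (P - Q)` satisfy
`(Xp + Xm) (x₁ - x₂)² = 2 ((x₁ + x₂)(x₁ x₂ - A B) + 2 (B - A) x₁ x₂)` and
`Xp Xm (x₁ - x₂)² = (x₁ x₂ + A B)²`; a Newton polygon argument shows both have negative order.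
-/
import Fermat.Agent.S13.Defs
import Fermat.Agent.S05.FreyModel

set_option autoImplicit false
open WeierstrassCurve WeierstrassCurve.Affine WeierstrassCurve.Affine.Point

namespace Fermat.Agent.S13

open Fermat.Agent.S05

section Abstract

variable {K : Type*} [Field K]

/-- `¬ v.Ge 0 x` means `x ≠ 0` and `ord x < 0`. -/
theorem ks_not_ge {v : OrdFn K} {x : K} (h : ¬ v.Ge 0 x) : x ≠ 0 ∧ v.ord x < 0 := by
  exact ⟨fun h0 => h (Or.inl h0), lt_of_not_ge fun h' => h (Or.inr h')⟩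

theorem ks_not_ge_of {v : OrdFn K} {x : K} (h0 : x ≠ 0) (h : v.ord x < 0) : ¬ v.Ge 0 x := by
  rintro (h' | h')
  · exact h0 h'
  · linarith

/-- Newton polygon of the "addition quadratic" when both abscissae have negative order:
the root `Xm` has negative order.  (Symmetric in `Xp`, `Xm`.) -/
theorem ks_abs (v : OrdFn K) {A B : K} (h2 : v.HasOrd (2 : K) 0) (hA : v.Ge 0 A) (hB : v.Ge 0 B)
    {x₁ x₂ Xp Xm : K} (hx₁ : x₁ ≠ 0) (ho₁ : v.ord x₁ < 0) (hx₂ : x₂ ≠ 0) (ho₂ : v.ord x₂ < 0)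
    (hne : x₁ ≠ x₂)
    (hsum : (Xp + Xm) * (x₁ - x₂) ^ 2 =
      2 * ((x₁ + x₂) * (x₁ * x₂ - A * B) + 2 * (B - A) * x₁ * x₂))
    (hprod : Xp * Xm * (x₁ - x₂) ^ 2 = (x₁ * x₂ + A * B) ^ 2) :
    Xm ≠ 0 ∧ v.ord Xm < 0 := by
  have h1 : v.HasOrd x₁ (v.ord x₁) := OrdFn.hasOrd_of_ne hx₁
  have h2' : v.HasOrd x₂ (v.ord x₂) := OrdFn.hasOrd_of_ne hx₂
  have hD0 : x₁ - x₂ ≠ 0 := sub_ne_zero.mpr hne
  have hD : v.HasOrd (x₁ - x₂) (v.ord (x₁ - x₂)) := OrdFn.hasOrd_of_ne hD0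
  -- `δ ≥ min o₁ o₂`
  have hδ : min (v.ord x₁) (v.ord x₂) ≤ v.ord (x₁ - x₂) := by
    have := OrdFn.ord_add_ge (v := v) hx₁ (neg_ne_zero.mpr hx₂) (by rwa [← sub_eq_add_neg])
    rwa [OrdFn.ord_neg, ← sub_eq_add_neg] at this
  have h12 : v.HasOrd (x₁ * x₂) (v.ord x₁ + v.ord x₂) := h1.mul h2'
  have hAB : v.Ge 0 (A * B) := (hA.mul hB).mono (by norm_num)
  have hT : v.HasOrd (x₁ * x₂ + A * B) (v.ord x₁ + v.ord x₂) :=
    h12.add_gt (hAB.gt_of_lt (by linarith))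
  have hT2 : v.HasOrd ((x₁ * x₂ + A * B) ^ 2) (2 * (v.ord x₁ + v.ord x₂)) :=
    (hT.pow 2).congr (by push_cast; ring)
  have hD2 : v.HasOrd ((x₁ - x₂) ^ 2) (2 * v.ord (x₁ - x₂)) :=
    (hD.pow 2).congr (by push_cast; ring)
  rw [← hprod] at hT2
  have hpm : v.HasOrd (Xp * Xm) (2 * (v.ord x₁ + v.ord x₂) - 2 * v.ord (x₁ - x₂)) :=
    hT2.of_mul hD2
  have hXp0 : Xp ≠ 0 := left_ne_zero_of_mul hpm.ne_zero
  have hXm0 : Xm ≠ 0 := right_ne_zero_of_mul hpm.ne_zero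
  refine ⟨hXm0, ?_⟩
  by_contra hcon
  rw [not_lt] at hcon
  have hab : v.ord Xp + v.ord Xm = 2 * (v.ord x₁ + v.ord x₂) - 2 * v.ord (x₁ - x₂) := by
    rw [← OrdFn.ord_mul hXp0 hXm0]; exact hpm.ord_eq
  have hmin1 : min (v.ord x₁) (v.ord x₂) ≤ v.ord x₁ := min_le_left _ _
  have hmin2 : min (v.ord x₁) (v.ord x₂) ≤ v.ord x₂ := min_le_right _ _
  have hmin : min (v.ord x₁) (v.ord x₂) = v.ord x₁ ∨ min (v.ord x₁) (v.ord x₂) = v.ord x₂ := by
    rcases le_total (v.ord x₁) (v.ord x₂) with h | h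
    · exact Or.inl (min_eq_left h)
    · exact Or.inr (min_eq_right h)
  have hlt : v.ord Xp < v.ord Xm := by
    rcases hmin with h | h <;> rw [h] at hδ <;> linarith
  obtain ⟨hs0, hsord⟩ := OrdFn.ord_add_eq_left (v := v) hXp0 hXm0 hlt
  -- the numerator of the sum
  have hx12 : v.Ge (min (v.ord x₁) (v.ord x₂)) (x₁ + x₂) :=
    (h1.ge hmin1).add (h2'.ge hmin2)
  have hm0 : min (v.ord x₁) (v.ord x₂) < 0 := lt_of_le_of_lt hmin1 ho₁
  have hT' : v.Ge (v.ord x₁ + v.ord x₂) (x₁ * x₂ - A * B) :=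
    (h12.ge le_rfl).sub (hAB.mono (by linarith))
  have hBA : v.Ge 0 (2 * (B - A)) :=
    ((h2.ge le_rfl).mul (hB.sub hA)).mono (by norm_num)
  have hN1 : v.Ge (min (v.ord x₁) (v.ord x₂) + (v.ord x₁ + v.ord x₂))
      ((x₁ + x₂) * (x₁ * x₂ - A * B)) := hx12.mul hT'
  have hN2 : v.Ge (min (v.ord x₁) (v.ord x₂) + (v.ord x₁ + v.ord x₂))
      (2 * (B - A) * x₁ * x₂) := by
    have : 2 * (B - A) * x₁ * x₂ = 2 * (B - A) * (x₁ * x₂) := by ring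
    rw [this]
    exact (hBA.mul (h12.ge le_rfl)).mono (by linarith)
  have hN : v.Ge (min (v.ord x₁) (v.ord x₂) + (v.ord x₁ + v.ord x₂))
      (2 * ((x₁ + x₂) * (x₁ * x₂ - A * B) + 2 * (B - A) * x₁ * x₂)) :=
    ((h2.ge le_rfl).mul (hN1.add hN2)).mono (by linarith)
  rw [← hsum] at hN
  have hne0 : (Xp + Xm) * (x₁ - x₂) ^ 2 ≠ 0 := mul_ne_zero hs0 (pow_ne_zero 2 hD0)
  have hle := hN.le_ord hne0
  rw [OrdFn.ord_mul hs0 (pow_ne_zero 2 hD0), hsord, hD2.ord_eq] at hle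
  rcases hmin with h | h <;> rw [h] at hle <;> linarith

end Abstract

section Point

variable {K : Type*} [Field K] [DecidableEq K] {W : WeierstrassCurve K} {A B : K}

omit [DecidableEq K] in
/-- a point in the kernel of reduction is nonzero, with `ptY` of order `3/2 · ord ptX`. -/
theorem ks_ptY (v : OrdFn K) (hW : IsFreyModel W A B) (hA : v.Ge 0 A) (hB : v.Ge 0 B)
    {P : W.toAffine.Point} (hP : ¬ v.Ge 0 (ptX P)) :
    P ≠ 0 ∧ v.HasOrd (ptY P ^ 2) (3 * v.ord (ptX P)) := by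
  obtain ⟨hx0, ho⟩ := ks_not_ge hP
  refine ⟨?_, ?_⟩
  · rintro rfl
    exact hx0 ptX_zero
  · rw [ptY_sq hW]
    have h1 : v.HasOrd (ptX P) (v.ord (ptX P)) := OrdFn.hasOrd_of_ne hx0
    have hA' : v.HasOrd (ptX P - A) (v.ord (ptX P)) := h1.sub_gt (hA.gt_of_lt ho)
    have hB' : v.HasOrd (ptX P + B) (v.ord (ptX P)) := h1.add_gt (hB.gt_of_lt ho)
    exact ((h1.mul hA').mul hB').congr (by ring)

/-- **D1.** The kernel of reduction (`ptX` not integral) is closed under subtraction. -/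
theorem ker_sub (v : OrdFn K) (hW : IsFreyModel W A B) (h2 : v.HasOrd (2 : K) 0)
    (hA : v.Ge 0 A) (hB : v.Ge 0 B) {P Q : W.toAffine.Point}
    (hP : ¬ v.Ge 0 (ptX P)) (hQ : ¬ v.Ge 0 (ptX Q)) :
    P - Q = 0 ∨ ¬ v.Ge 0 (ptX (P - Q)) := by
  have h20 : (2 : K) ≠ 0 := h2.ne_zero
  obtain ⟨hx₁, ho₁⟩ := ks_not_ge hP
  obtain ⟨hx₂, ho₂⟩ := ks_not_ge hQ
  obtain ⟨hP0, hYP⟩ := ks_ptY v hW hA hB hP
  obtain ⟨hQ0, hYQ⟩ := ks_ptY v hW hA hB hQ
  by_cases hXX : ptX P = ptX Q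
  · rcases eq_or_eq_neg_of_ptX_eq h20 hP0 hQ0 hXX with h | h
    · left; rw [h, sub_self]
    · -- `P = -Q`, so `P - Q = -(Q + Q)`
      right
      have hYQ0 : ptY Q ≠ 0 := by
        intro h0
        apply hYQ.ne_zero
        rw [h0]; ring
      obtain ⟨-, hdbl⟩ := ptX_two_mul hW hQ0 hYQ0
      have hPQ : P - Q = -(Q + Q) := by rw [h]; abel
      rw [hPQ, ptX_neg]
      have h1 : v.HasOrd (ptX Q) (v.ord (ptX Q)) := OrdFn.hasOrd_of_ne hx₂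
      have hAB : v.Ge 0 (A * B) := (hA.mul hB).mono (by norm_num)
      have hsq : v.HasOrd (ptX Q ^ 2) (2 * v.ord (ptX Q)) := (h1.pow 2).congr (by push_cast; ring)
      have hnum : v.HasOrd (ptX Q ^ 2 + A * B) (2 * v.ord (ptX Q)) :=
        hsq.add_gt (hAB.gt_of_lt (by linarith))
      have hnum2 : v.HasOrd ((ptX Q ^ 2 + A * B) ^ 2) (4 * v.ord (ptX Q)) :=
        (hnum.pow 2).congr (by push_cast; ring)
      have h4 : v.HasOrd (4 : K) 0 := by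
        have := h2.mul h2
        norm_num at this
        exact this
      have hden : v.HasOrd (4 * ptY Q ^ 2) (3 * v.ord (ptX Q)) :=
        (h4.mul hYQ).congr (by ring)
      rw [← hdbl] at hnum2
      have hres := hnum2.of_mul hden
      exact ks_not_ge_of hres.ne_zero (by rw [hres.ord_eq]; linarith)
  · right
    obtain ⟨-, hadd⟩ := ptX_add_mul hW hP0 hQ0 hXX
    obtain ⟨-, hsub⟩ := ptX_sub_mul hW hP0 hQ0 hXX
    have e1 := ptY_sq hW P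
    have e2 := ptY_sq hW Q
    have hd : (ptX P - ptX Q) ^ 2 ≠ 0 := pow_ne_zero 2 (sub_ne_zero.mpr hXX)
    have hsum : (ptX (P + Q) + ptX (P - Q)) * (ptX P - ptX Q) ^ 2 =
        2 * ((ptX P + ptX Q) * (ptX P * ptX Q - A * B) + 2 * (B - A) * ptX P * ptX Q) := by
      linear_combination hadd + hsub + 2 * e1 + 2 * e2
    have hprod : ptX (P + Q) * ptX (P - Q) * (ptX P - ptX Q) ^ 2 =
        (ptX P * ptX Q + A * B) ^ 2 := by
      apply mul_right_cancel₀ hd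
      generalize ptX P = x₁ at *
      generalize ptX Q = x₂ at *
      generalize ptY P = Y₁ at *
      generalize ptY Q = Y₂ at *
      generalize ptX (P + Q) = Xp at *
      generalize ptX (P - Q) = Xm at *
      have hmul : Xp * (x₁ - x₂) ^ 2 * (Xm * (x₁ - x₂) ^ 2) =
          ((Y₁ - Y₂) ^ 2 - (B - A + x₁ + x₂) * (x₁ - x₂) ^ 2) *
            ((Y₁ + Y₂) ^ 2 - (B - A + x₁ + x₂) * (x₁ - x₂) ^ 2) := by
        rw [hadd, hsub]
      linear_combination hmul +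
        ((Y₁ ^ 2 - Y₂ ^ 2 + x₁ * (x₁ - A) * (x₁ + B) - x₂ * (x₂ - A) * (x₂ + B)) -
          2 * ((B - A + x₁ + x₂) * (x₁ - x₂) ^ 2)) * e1 +
        (-(Y₁ ^ 2 - Y₂ ^ 2 + x₁ * (x₁ - A) * (x₁ + B) - x₂ * (x₂ - A) * (x₂ + B)) -
          2 * ((B - A + x₁ + x₂) * (x₁ - x₂) ^ 2)) * e2
    obtain ⟨h0, hlt⟩ := ks_abs v h2 hA hB hx₁ ho₁ hx₂ ho₂ hXX hsum hprod
    exact ks_not_ge_of h0 hlt

end Point

end Fermat.Agent.S13
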