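/-
S13, module D2 (helper5): S05's `local_fixed` without the hypothesis `ord p = 0`.

An element `σ` "of inertia" moves a `p`-torsion point `P` of a Frey model by an element of the
kernel of reduction: `σ P = P` or `ptX (σ P - P)` is not integral.  This is S05's
`local_core` / `local_fixed` with the final appeal to "no `p`-torsion in the kernel of
reduction" (`MultSeq.ord_nonneg`, the only place where `ord p = 0` was used) removed; the case
where `P` itself lies in the kernel of reduction is `ker_sub`.
-/
import Fermat.Agent.S13.KerSub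
import Fermat.Agent.S05.Congr
import Fermat.Agent.S05.CertGood
import Fermat.Agent.S05.CertMult

set_option autoImplicit false
open WeierstrassCurve WeierstrassCurve.Affine WeierstrassCurve.Affine.Point

namespace Fermat.Agent.S13

open Fermat.Agent.S05

variable {K : Type*} [Field K] [DecidableEq K] {W : WeierstrassCurve K} {A B : K}

/-- S05's `local_core` without `MultSeq.ord_nonneg`: two integral points with a congruence
certificate are equal or differ by a point of the kernel of reduction. -/
theorem ld_core (v : OrdFn K) (hW : IsFreyModel W A B)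
    (h2 : v.HasOrd (2 : K) 0) (hA : v.Ge 0 A) (hB : v.Ge 0 B)
    {P P' : W.toAffine.Point} (hP0 : P ≠ 0) (hP'0 : P' ≠ 0)
    (hX : v.Ge 0 (ptX P)) (hX' : v.Ge 0 (ptX P'))
    (hcert : Cert v A B (ptX P) (ptY P) (ptX P') (ptY P')) :
    P' = P ∨ ¬ v.Ge 0 (ptX (P' - P)) := by
  by_cases hne : P' = P
  · exact Or.inl hne
  right
  have hQ0 : P' - P ≠ 0 := sub_ne_zero.mpr hne
  have h20 : (2 : K) ≠ 0 := h2.ne_zero
  have hcurve := ptY_sq hW P
  have hcurve' := ptY_sq hW P'
  by_cases hXX : ptX P' = ptX P
  · rcases eq_or_eq_neg_of_ptX_eq h20 hP'0 hP0 hXX with h | h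
    · exact absurd h hne
    · have hY' : ptY P' = -ptY P := by rw [h, ptY_neg hW]
      have e : ptY P' - ptY P = ptY P * (-2) := by rw [hY']; ring
      have h2' : v.HasOrd (-2 : K) 0 := h2.neg
      rcases hcert with ⟨c, -, hY, hYY, -⟩ | ⟨hYY, -, hF⟩
      · -- left certificate: `Y' - Y = -2Y` has exact order `c`, not `> c`
        exfalso
        have h2Y : v.HasOrd (ptY P' - ptY P) c := by
          rw [e]
          exact (hY.mul h2').congr (add_zero c)
        have := hYY.lt_ord h2Y.ne_zero
        rw [h2Y.ord_eq] at this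
        exact lt_irrefl _ this
      · -- right certificate
        have hYm : v.Gt 0 (ptY P) := by
          rw [e] at hYY
          exact (hYY.of_hasOrd_mul h2').mono (by norm_num)
        by_cases hY0 : ptY P = 0
        · -- then `-P = P`, so `P' - P = 0`
          exfalso
          have hneg : -P = P := by
            apply eq_of_ptX_eq_of_ptY_eq h20 (neg_ne_zero.mpr hP0) hP0 (ptX_neg P)
            rw [ptY_neg hW, hY0, _root_.neg_zero]
          apply hQ0
          rw [h, hneg, sub_self]
        · have hYpos : 0 < v.ord (ptY P) := hYm.lt_ord hY0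
          obtain ⟨-, hdbl⟩ := ptX_two_mul hW hP0 hY0
          have hQ : P' - P = -(P + P) := by rw [h]; abel
          rw [hQ, ptX_neg]
          have hid : (ptX P ^ 2 + A * B) ^ 2 =
              (3 * ptX P ^ 2 + 2 * (B - A) * ptX P - A * B) ^ 2
                - 4 * (B - A + 2 * ptX P) * ptY P ^ 2 := by
            rw [hcurve]; ring
          have h4 : v.HasOrd (4 : K) 0 := by
            have := h2.mul h2
            norm_num at this
            exact this
          have hY2 : v.HasOrd (ptY P ^ 2) (2 * v.ord (ptY P)) := by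
            have := (OrdFn.hasOrd_of_ne (v := v) hY0).pow 2
            exact_mod_cast this
          have hunit : v.HasOrd ((ptX P ^ 2 + A * B) ^ 2) 0 := by
            rw [hid]
            have h1 : v.HasOrd ((3 * ptX P ^ 2 + 2 * (B - A) * ptX P - A * B) ^ 2) 0 := by
              have := hF.pow 2
              simpa using this
            apply h1.sub_gt
            have hg : v.Ge 0 (4 * (B - A + 2 * ptX P)) := by
              have h2X : v.Ge 0 (2 * ptX P) := ((h2.ge le_rfl).mul hX).mono (by norm_num)
              exact ((h4.ge le_rfl).mul ((hB.sub hA).add h2X)).mono (by norm_num)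
            have hY2' : v.Gt 0 (ptY P ^ 2) := hY2.gt (by linarith)
            exact (hg.mul_gt hY2').mono (by norm_num)
          have h4Y : v.HasOrd (4 * ptY P ^ 2) (0 + 2 * v.ord (ptY P)) := h4.mul hY2
          have hXPP : v.HasOrd (ptX (P + P)) (0 - (0 + 2 * v.ord (ptY P))) := by
            rw [← hdbl] at hunit
            exact hunit.of_mul h4Y
          exact ks_not_ge_of hXPP.ne_zero (by rw [hXPP.ord_eq]; linarith)
  · obtain ⟨-, hQ⟩ := ptX_sub_mul hW hP'0 hP0 hXX
    rcases hcert with ⟨c, -, hY, hYY, hXc⟩ | ⟨hYY, hXc, hF⟩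
    · have := ord_neg_of_congr_unitY v h2 hA hB hX hX' hY hYY hXc hXX hQ
      exact ks_not_ge_of this.1 this.2
    · have := ord_neg_of_congr_unitF v h2 hA hB hX hX' hcurve hcurve' hYY hXc hXX hF hQ
      exact ks_not_ge_of this.1 this.2

set_option linter.unusedVariables false in
/-- **D2.** S05's `local_fixed` without `ord p = 0`: an inertia element moves a `p`-torsion
point by an element of the kernel of reduction. -/
theorem local_diff (v : OrdFn K) (hW : IsFreyModel W A B)
    {p : ℕ} (hpp : p.Prime) (hp5 : 5 ≤ p)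
    (h2 : v.HasOrd (2 : K) 0) (hA : v.Ge 0 A) (hB : v.Ge 0 B)
    (σ : K →+* K) (hσord : ∀ x, v.ord (σ x) = v.ord x)
    (hσres : ∀ x, v.Ge 0 x → v.Gt 0 (σ x - x))
    (π : K) (hπ : v.HasOrd π 1) (hσπ : σ π = π)
    (hred : (v.HasOrd A 0 ∧ v.HasOrd B 0 ∧ v.HasOrd (A + B) 0) ∨
      ∃ (e A' B' : K) (h₀ : ℕ), σ e = e ∧ v.Ge 0 e ∧ 0 < h₀ ∧
        v.HasOrd A' ((p : ℚ) * h₀) ∧ v.HasOrd B' 0 ∧
        B' - A' = B - A + 3 * e ∧ -(A' * B') = 3 * e ^ 2 + 2 * e * (B - A) - A * B ∧
        e * (e - A) * (e + B) = 0)
    (P P' : W.toAffine.Point) (hP : p • P = 0) (hP' : p • P' = 0)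
    (hX : ptX P' = σ (ptX P)) (hY : ptY P' = σ (ptY P)) (h0 : P = 0 ↔ P' = 0) :
    P' = P ∨ ¬ v.Ge 0 (ptX (P' - P)) := by
  by_cases hP0 : P = 0
  · left; rw [hP0]; exact h0.mp hP0
  have hP'0 : P' ≠ 0 := fun h => hP0 (h0.mpr h)
  have h2K : (2 : K) ≠ 0 := h2.ne_zero
  by_cases hXP : v.Ge 0 (ptX P)
  · -- `P` is integral: congruence certificate
    have hM := multSeq_of_torsion hW h2K hpp hp5 hP0 hP
    have hXP' : v.Ge 0 (ptX P') := by
      rw [hX]
      by_cases hz : σ (ptX P) = 0
      · exact Or.inl hz
      · refine Or.inr ?_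
        have hx0 : ptX P ≠ 0 := fun h => hz (by rw [h]; exact map_zero σ)
        rw [hσord]; exact hXP.le_ord hx0
    have hcurve := ptY_sq hW P
    have hY0 : ptY P ≠ 0 := by
      intro hY0
      have := hM.nondeg 1 le_rfl (by omega)
      simp only [one_smul] at this
      apply this
      rw [← hcurve, hY0]; ring
    have hYge : v.Ge 0 (ptY P) := by
      refine Or.inr ?_
      have h1 : v.Ge 0 (ptY P ^ 2) := by
        rw [hcurve]
        have := (hXP.mul (hXP.sub hA)).mul (hXP.add hB)
        simpa using this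
      have h3 := h1.le_ord (pow_ne_zero 2 hY0)
      rw [OrdFn.ord_pow hY0] at h3
      push_cast at h3
      linarith
    refine ld_core v hW h2 hA hB hP0 hP'0 hXP hXP' ?_
    rw [hX, hY]
    rcases hred with ⟨hA0, hB0, hAB0⟩ | ⟨e, A', B', h₀, hσe, he, hh₀, hA', hB', h1, h2', h3⟩
    · exact cert_good v h2 hA0 hB0 hAB0 hXP hY0 hcurve (hσres _ hXP) (hσres _ hYge)
    · have := cert_mult v hM hpp hp5 h2 hA hB σ hσres π hπ hσπ hσe he hh₀ hA' hB' h1 h2' h3
        (by simpa using hXP) (Y := ptY P) (by simpa using hcurve)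
      simpa using this
  · -- `P` lies in the kernel of reduction, and so does `P'`
    obtain ⟨hx0, ho⟩ := ks_not_ge hXP
    have hXP' : ¬ v.Ge 0 (ptX P') := by
      rw [hX]
      refine ks_not_ge_of ?_ (by rw [hσord]; exact ho)
      intro hz
      exact hx0 ((map_eq_zero σ).mp hz)
    rcases ker_sub v hW h2 hA hB hXP' hXP with h | h
    · left; exact sub_eq_zero.mp h
    · right; exact h

end Fermat.Agent.S13
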