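/-
S13 module D3 (helper57): Newton-polygon inequality.

`newton_ineq`: the non-integral roots of a nonzero polynomial with integral coefficients have
total `-ord` at most the `ord` of the leading coefficient.
-/
import Fermat.Agent.S13.Defs

set_option autoImplicit false

namespace Fermat.Agent.S13

open Fermat.Agent.S05 Polynomial

/-- if `f = (1 - ρ X) h` with `ρ` integral and `f` integral, then `h` is integral. -/
private theorem h57_integral_of_mul {K : Type*} [Field K] (v : OrdFn K) (f h : Polynomial K)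
    (ρ : K) (hρ : v.Ge 0 ρ) (hfh : f = (1 - C ρ * X) * h)
    (hf : ∀ i, v.Ge 0 (f.coeff i)) : ∀ i, v.Ge 0 (h.coeff i) := by
  have key0 : f.coeff 0 = h.coeff 0 := by
    rw [hfh, sub_mul, one_mul, coeff_sub, mul_assoc, coeff_C_mul, coeff_X_mul_zero]
    ring
  have key : ∀ n, h.coeff (n + 1) = f.coeff (n + 1) + ρ * h.coeff n := by
    intro n
    rw [hfh, sub_mul, one_mul, coeff_sub, mul_assoc, coeff_C_mul, coeff_X_mul]
    ring
  intro i
  induction i with
  | zero => rw [← key0]; exact hf 0
  | succ n ih =>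
    rw [key n]
    have h1 : v.Ge 0 (ρ * h.coeff n) := (hρ.mul ih).mono (by norm_num)
    exact (hf (n + 1)).add h1

/-- D3 Newton.lean: Newton-polygon inequality: the non-integral roots of a polynomial with
integral coefficients have total `-ord` at most the `ord` of the leading coefficient. -/
theorem newton_ineq {K : Type*} [Field K] (v : OrdFn K) (f : Polynomial K) (hf0 : f ≠ 0)
    (hf : ∀ i, v.Ge 0 (f.coeff i)) (s : Finset K)
    (hs : ∀ r ∈ s, f.eval r = 0 ∧ ¬ v.Ge 0 r) :
    ∑ r ∈ s, (-v.ord r) ≤ v.ord f.leadingCoeff := by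
  classical
  induction s using Finset.induction_on generalizing f with
  | empty =>
    rw [Finset.sum_empty]
    exact (hf f.natDegree).le_ord (leadingCoeff_ne_zero.mpr hf0)
  | insert r s hr ih =>
    obtain ⟨hroot, hnint⟩ := hs r (Finset.mem_insert_self r s)
    have hr0 : r ≠ 0 := fun h => hnint (Or.inl h)
    have hrord : v.ord r < 0 := by
      by_contra h
      exact hnint (Or.inr (not_lt.mp h))
    obtain ⟨g, hg⟩ := dvd_iff_isRoot.mpr hroot
    have hg0 : g ≠ 0 := by
      rintro rfl
      exact hf0 (by rw [hg, mul_zero])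
    have hfh : f = (1 - C r⁻¹ * X) * (C (-r) * g) := by
      rw [hg]
      have : (1 - C r⁻¹ * X) * (C (-r) * g) = (C (r⁻¹ * r) * X - C r) * g := by
        simp only [C_neg, C_mul]
        ring
      rw [this, inv_mul_cancel₀ hr0, C_1, one_mul]
    have hρ : v.Ge 0 r⁻¹ := Or.inr (by rw [OrdFn.ord_inv hr0]; linarith)
    have hint := h57_integral_of_mul v f (C (-r) * g) r⁻¹ hρ hfh hf
    have hh0 : C (-r) * g ≠ 0 := mul_ne_zero (C_ne_zero.mpr (neg_ne_zero.mpr hr0)) hg0
    have hroots : ∀ r' ∈ s, (C (-r) * g).eval r' = 0 ∧ ¬ v.Ge 0 r' := by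
      intro r' hr'
      obtain ⟨h1, h2⟩ := hs r' (Finset.mem_insert_of_mem hr')
      refine ⟨?_, h2⟩
      rw [hg, eval_mul, eval_sub, eval_X, eval_C] at h1
      have hne : r' - r ≠ 0 := sub_ne_zero.mpr (fun h => hr (h ▸ hr'))
      have := (mul_eq_zero.mp h1).resolve_left hne
      rw [eval_mul, this, mul_zero]
    have hmain := ih (C (-r) * g) hh0 hint hroots
    have hlcf : f.leadingCoeff = g.leadingCoeff := by
      rw [hg, leadingCoeff_mul, leadingCoeff_X_sub_C, one_mul]
    have hlch : (C (-r) * g).leadingCoeff = -r * g.leadingCoeff := by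
      rw [leadingCoeff_mul, leadingCoeff_C]
    have hglc : g.leadingCoeff ≠ 0 := leadingCoeff_ne_zero.mpr hg0
    rw [Finset.sum_insert hr, hlcf]
    rw [hlch, OrdFn.ord_mul (neg_ne_zero.mpr hr0) hglc, OrdFn.ord_neg] at hmain
    linarith

end Fermat.Agent.S13
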