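/-
S13 module D5 (helper66): a Galois-stable line of `E[p]` contained in the kernel of reduction at
`p` is the whole `p`-torsion of the kernel of reduction ("supersingular exclusion").

The product of the `X`-coordinates of the nonzero points of the line is Galois-fixed, hence
rational, hence of integral order `≤ -1`; the integral division polynomial (leading coefficient
`-p`) allows total `-ord` at most `1` for its non-integral roots.
-/
import Fermat.Agent.S13.Defs
import Fermat.Agent.S13.TorsionMain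
import Fermat.Agent.S13.Newton
import Fermat.Agent.S13.Rational
import Fermat.Agent.S05

set_option autoImplicit false
open WeierstrassCurve WeierstrassCurve.Affine WeierstrassCurve.Affine.Point

namespace Fermat.Agent.S13

open Fermat.Agent.S05 Polynomial

/-- order of a product over a finset of nonzero elements. -/
theorem h66_ord_prod {K : Type*} [Field K] (v : OrdFn K) (s : Finset K)
    (hs : ∀ r ∈ s, r ≠ 0) : (∏ r ∈ s, r) ≠ 0 ∧ v.ord (∏ r ∈ s, r) = ∑ r ∈ s, v.ord r := by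
  classical
  induction s using Finset.induction_on with
  | empty => exact ⟨by simp, by simp [OrdFn.ord_one]⟩
  | insert a s ha ih =>
    have ha0 : a ≠ 0 := hs a (Finset.mem_insert_self a s)
    obtain ⟨h0, h1⟩ := ih (fun r hr => hs r (Finset.mem_insert_of_mem hr))
    refine ⟨by rw [Finset.prod_insert ha]; exact mul_ne_zero ha0 h0, ?_⟩
    rw [Finset.prod_insert ha, Finset.sum_insert ha, OrdFn.ord_mul ha0 h0, h1]

/-- a non-integral element is nonzero of negative order. -/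
theorem h66_not_ge {K : Type*} [Field K] (v : OrdFn K) {r : K} (h : ¬ v.Ge 0 r) :
    r ≠ 0 ∧ v.ord r < 0 := by
  unfold OrdFn.Ge at h
  exact ⟨fun h0 => h (Or.inl h0), lt_of_not_ge fun h1 => h (Or.inr h1)⟩

/-- the underlying point of a torsion element is killed by `p`. -/
theorem h66_nsmul_coe (P : FreyPackage) (x : Tors P) :
    P.p • (x : (P.freyCurve⁄Qb).Point) = 0 := by
  have := (Submodule.mem_torsionBy_iff _ _).mp x.2
  rwa [natCast_zsmul] at this

theorem ker_le_of_stable_line (P : FreyPackage) (v : OrdFn Qb)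
    (hvint : ∀ n : ℤ, n ≠ 0 → v.HasOrd (n : Qb) (padicValInt P.p n))
    (N : Submodule (ZMod P.p) (Tors P)) (hN : IsGaloisStable ℚ N) (hcard : Nat.card N = P.p)
    (hker : ∀ x ∈ N, x ≠ 0 → ¬ v.Ge 0 (ptX (x : (P.freyCurve⁄Qb).Point))) :
    ∀ y : Tors P, ¬ v.Ge 0 (ptX (y : (P.freyCurve⁄Qb).Point)) → y ∈ N := by
  classical
  intro y₀ hy₀
  by_contra hyN
  have h2 : (2 : Qb) ≠ 0 := two_ne_zero
  have hfinT : Finite (Tors P) := torsion_finite P
  -- the finite set of `X`-coordinates of `N \ 0`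
  have hTfin : ((fun x : Tors P => ptX (x : (P.freyCurve⁄Qb).Point)) ''
      {x : Tors P | x ∈ N ∧ x ≠ 0}).Finite := (Set.toFinite _).image _
  set S : Finset Qb := hTfin.toFinset with hSdef
  have hS : ∀ r, r ∈ S ↔ ∃ x : Tors P, (x ∈ N ∧ x ≠ 0) ∧
      ptX (x : (P.freyCurve⁄Qb).Point) = r := by
    intro r
    rw [hSdef, Set.Finite.mem_toFinset]
    rfl
  -- `S` is nonempty
  have hNnt : Nontrivial N := by
    have hfinN : Finite N := Nat.finite_of_card_ne_zero (by rw [hcard]; exact P.hp0)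
    rw [← Finite.one_lt_card_iff_nontrivial, hcard]
    have := P.hp5
    omega
  obtain ⟨⟨n₀, hn₀N⟩, hn₀⟩ := exists_ne (0 : N)
  have hn₀' : n₀ ≠ 0 := fun h => hn₀ (Subtype.ext h)
  have hSne : S.Nonempty := ⟨_, (hS _).mpr ⟨n₀, ⟨hn₀N, hn₀'⟩, rfl⟩⟩
  -- elements of `S` are non-integral
  have hSker : ∀ r ∈ S, ¬ v.Ge 0 r := by
    intro r hr
    obtain ⟨x, ⟨hxN, hx0⟩, rfl⟩ := (hS r).mp hr
    exact hker x hxN hx0
  have hS0 : ∀ r ∈ S, r ≠ 0 := fun r hr => (h66_not_ge v (hSker r hr)).1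
  -- the product is Galois-fixed
  have hfix : ∀ σ : GQ, σ (∏ r ∈ S, r) = ∏ r ∈ S, r := by
    intro σ
    rw [map_prod]
    refine Finset.prod_nbij (fun r => σ r) ?_ ?_ ?_ (fun _ _ => rfl)
    · intro r hr
      obtain ⟨x, ⟨hxN, hx0⟩, rfl⟩ := (hS r).mp hr
      refine (hS _).mpr ⟨σ • x, ⟨hN σ x hxN, ?_⟩, ptX_smul _ σ _⟩
      rwa [Ne, smul_eq_zero_iff_eq]
    · exact fun a _ b _ hab => σ.injective hab
    · intro r hr
      obtain ⟨x, ⟨hxN, hx0⟩, rfl⟩ := (hS r).mp (Finset.mem_coe.mp hr)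
      refine ⟨ptX ((σ⁻¹ • x : Tors P) : (P.freyCurve⁄Qb).Point), Finset.mem_coe.mpr
        ((hS _).mpr ⟨σ⁻¹ • x, ⟨hN σ⁻¹ x hxN, ?_⟩, rfl⟩), ?_⟩
      · rwa [Ne, smul_eq_zero_iff_eq]
      · show σ (ptX ((σ⁻¹ • x : Tors P) : (P.freyCurve⁄Qb).Point)) = _
        rw [← ptX_smul P.freyCurve σ ((σ⁻¹ • x : Tors P) : (P.freyCurve⁄Qb).Point)]
        have : σ • ((σ⁻¹ • x : Tors P) : (P.freyCurve⁄Qb).Point) =
            (x : (P.freyCurve⁄Qb).Point) := by
          show σ • (σ⁻¹ • (x : (P.freyCurve⁄Qb).Point)) = _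
          rw [smul_inv_smul]
        rw [this]
  -- hence rational, of integral order
  obtain ⟨hprod0, hprodord⟩ := h66_ord_prod v S hS0
  obtain ⟨q, hq⟩ := exists_rat_of_fixed _ hfix
  have hq0 : q ≠ 0 := by
    rintro rfl
    rw [_root_.map_zero] at hq
    exact hprod0 hq
  obtain ⟨j, hj⟩ := ord_rat_int v P.p hvint q hq0
  rw [← hq] at hj
  have hsumneg : ∑ r ∈ S, v.ord r < 0 :=
    Finset.sum_neg (fun r hr => (h66_not_ge v (hSker r hr)).2) hSne
  have hjlt : (j : ℚ) < 0 := by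
    rw [← hj.ord_eq, hprodord]; exact hsumneg
  have hjle : (j : ℚ) ≤ -1 := by
    have : j < 0 := by exact_mod_cast hjlt
    have : j ≤ -1 := by omega
    exact_mod_cast this
  have hsum1 : 1 ≤ ∑ r ∈ S, (-v.ord r) := by
    rw [Finset.sum_neg_distrib, ← hprodord, hj.ord_eq]
    linarith
  -- the extra non-integral root
  obtain ⟨hr₀0, hr₀neg⟩ := h66_not_ge v hy₀
  have hy₀0 : (y₀ : (P.freyCurve⁄Qb).Point) ≠ 0 := by
    intro h
    apply hr₀0
    rw [h]; rfl
  have hr₀S : ptX (y₀ : (P.freyCurve⁄Qb).Point) ∉ S := by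
    intro hmem
    obtain ⟨x, ⟨hxN, hx0⟩, hx⟩ := (hS _).mp hmem
    have hx0' : (x : (P.freyCurve⁄Qb).Point) ≠ 0 := fun h => hx0 (Subtype.ext h)
    rcases eq_or_eq_neg_of_ptX_eq h2 hy₀0 hx0' hx.symm with h | h
    · exact hyN (by rwa [Subtype.ext h])
    · have : y₀ = -x := Subtype.ext h
      exact hyN (by rw [this]; exact N.neg_mem hxN)
  -- Newton polygon inequality for the division polynomial
  obtain ⟨G, -, hlc, hroot⟩ := exists_divPoly P
  have hinj : Function.Injective (Int.castRingHom Qb) := RingHom.injective_int _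
  have hlcf : (G.map (Int.castRingHom Qb)).leadingCoeff = ((-(P.p : ℤ) : ℤ) : Qb) := by
    rw [Polynomial.leadingCoeff_map_of_injective hinj, hlc]; rfl
  have hpZ : (-(P.p : ℤ)) ≠ 0 := by
    have := P.hp0
    omega
  have hf0 : G.map (Int.castRingHom Qb) ≠ 0 := by
    intro h
    have h' := hlcf
    rw [h, leadingCoeff_zero] at h'
    have : ((-(P.p : ℤ) : ℤ) : Qb) ≠ 0 := by exact_mod_cast hpZ
    exact this h'.symm
  have hf : ∀ i, v.Ge 0 ((G.map (Int.castRingHom Qb)).coeff i) := by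
    intro i
    rw [coeff_map]
    exact OrdFn.ge_intCast _
  have hs : ∀ r ∈ insert (ptX (y₀ : (P.freyCurve⁄Qb).Point)) S,
      (G.map (Int.castRingHom Qb)).eval r = 0 ∧ ¬ v.Ge 0 r := by
    intro r hr
    rcases Finset.mem_insert.mp hr with rfl | hr
    · exact ⟨hroot _ hy₀0 (h66_nsmul_coe P y₀), hy₀⟩
    · refine ⟨?_, hSker r hr⟩
      obtain ⟨x, ⟨-, hx0⟩, rfl⟩ := (hS r).mp hr
      exact hroot _ (fun h => hx0 (Subtype.ext h)) (h66_nsmul_coe P x)
  have hnewton := newton_ineq v _ hf0 hf _ hs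
  have hordlc : v.ord (G.map (Int.castRingHom Qb)).leadingCoeff = 1 := by
    have hpZ' : (P.p : ℤ) ≠ 0 := by
      have := P.hp0
      omega
    rw [hlcf, Int.cast_neg, OrdFn.ord_neg, (hvint _ hpZ').ord_eq,
      padicValInt.self P.pp.one_lt]
    norm_num
  rw [Finset.sum_insert hr₀S, hordlc] at hnewton
  linarith

end Fermat.Agent.S13
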