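/-
S13 module D6 (helper66): at `p`, the inertia group of any place above `p` acts trivially on a
Galois-stable line `N` of `E[p]` or on the quotient `E[p] / N`.
-/
import Fermat.Agent.S13.SS
import Fermat.Agent.S13.KerSub
import Fermat.Agent.S13.LocalDiff

set_option autoImplicit false
open WeierstrassCurve WeierstrassCurve.Affine WeierstrassCurve.Affine.Point

namespace Fermat.Agent.S13

open Fermat.Agent.S05

section Ker

variable {K : Type*} [Field K] [DecidableEq K] {W : WeierstrassCurve K} {A B : K}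

/-- the kernel of reduction (points with non-integral `ptX`, and `0`) as an additive subgroup. -/
def h66_ker (v : OrdFn K) (hW : IsFreyModel W A B) (h2 : v.HasOrd (2 : K) 0)
    (hA : v.Ge 0 A) (hB : v.Ge 0 B) : AddSubgroup W.toAffine.Point where
  carrier := {Q | Q = 0 ∨ ¬ v.Ge 0 (ptX Q)}
  zero_mem' := Or.inl rfl
  add_mem' := by
    rintro Q R (rfl | hQ) (rfl | hR)
    · left; rw [add_zero]
    · right; rwa [zero_add]
    · right; rwa [add_zero]
    · have hR' : ¬ v.Ge 0 (ptX (-R)) := by rwa [ptX_neg]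
      have := ker_sub v hW h2 hA hB hQ hR'
      rwa [sub_neg_eq_add] at this
  neg_mem' := by
    rintro Q (rfl | hQ)
    · left; rw [_root_.neg_zero]
    · right
      show ¬ v.Ge 0 (ptX (-Q))
      rwa [ptX_neg]

theorem h66_mem_ker (v : OrdFn K) (hW : IsFreyModel W A B) (h2 : v.HasOrd (2 : K) 0)
    (hA : v.Ge 0 A) (hB : v.Ge 0 B) (Q : W.toAffine.Point) :
    Q ∈ h66_ker v hW h2 hA hB ↔ (Q = 0 ∨ ¬ v.Ge 0 (ptX Q)) := Iff.rfl

end Ker

theorem p_inertia (P : FreyPackage) (A : ValuationSubring Qb) (hA : A.LiesOverPrime P.p)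
    (N : Submodule (ZMod P.p) (Tors P)) (hN : IsGaloisStable ℚ N) (hcard : Nat.card N = P.p) :
    (∀ σ ∈ A.inertiaSubgroupIn ℚ, ∀ x ∈ N, σ • x = x) ∨
      (∀ σ ∈ A.inertiaSubgroupIn ℚ, ∀ x : Tors P, σ • x - x ∈ N) := by
  classical
  obtain ⟨v, hvq, hvint, hσord, hσres⟩ := exists_ordFn P.p P.pp A hA
  have hW := isFreyModel_freyCurve P Qb
  have hp2 : P.p ≠ 2 := by
    have := P.hp5
    omega
  have h2 : v.HasOrd (2 : Qb) 0 := by
    have h := hvint 2 (by norm_num)
    have h0 : padicValInt P.p 2 = 0 := by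
      apply padicValInt.eq_zero_of_not_dvd
      intro hdvd
      have : P.p ∣ 2 := by exact_mod_cast hdvd
      exact hp2 ((Nat.prime_dvd_prime_iff_eq P.pp Nat.prime_two).mp this)
    rw [h0] at h
    simpa using h
  have hAi : v.Ge 0 ((P.a ^ P.p : ℤ) : Qb) := OrdFn.ge_intCast _
  have hBi : v.Ge 0 ((P.b ^ P.p : ℤ) : Qb) := OrdFn.ge_intCast _
  -- an inertia element moves every torsion point by an element of the kernel of reduction
  have hdiff : ∀ σ ∈ A.inertiaSubgroupIn ℚ, ∀ x : Tors P,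
      σ • x = x ∨ ¬ v.Ge 0 (ptX ((σ • x - x : Tors P) : (P.freyCurve⁄Qb).Point)) := by
    intro σ hσ x
    have hx' : P.p • (x : (P.freyCurve⁄Qb).Point) = 0 := h66_nsmul_coe P x
    have hσx : P.p • (σ • (x : (P.freyCurve⁄Qb).Point)) = 0 := h66_nsmul_coe P (σ • x)
    have key := local_diff v hW P.pp P.hp5 h2 hAi hBi
      (σ : Qb →+* Qb) (hσord σ hσ) (hσres σ hσ)
      (P.p : Qb) hvq (by simp)
      (frey_hred P P.pp hp2 v hvint (σ : Qb →+* Qb))
      (x : (P.freyCurve⁄Qb).Point) (σ • (x : (P.freyCurve⁄Qb).Point)) hx' hσx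
      (ptX_smul _ σ _) (ptY_smul _ σ _)
      ⟨fun h => by rw [h]; rfl, fun h => by
        rw [algEquiv_smul_def] at h
        exact Point.map_injective σ.toAlgHom (h.trans (Point.map_zero σ.toAlgHom).symm)⟩
    rcases key with h | h
    · exact Or.inl (Subtype.ext h)
    · exact Or.inr h
  by_cases hcase : ∀ x ∈ N, x ≠ 0 → ¬ v.Ge 0 (ptX (x : (P.freyCurve⁄Qb).Point))
  · -- `N` lies in the kernel of reduction: the kernel of reduction of `E[p]` is `N`
    right
    intro σ hσ x
    rcases hdiff σ hσ x with h | h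
    · rw [h, sub_self]; exact N.zero_mem
    · exact ker_le_of_stable_line P v hvint N hN hcard hcase _ h
  · -- `N` meets the kernel of reduction trivially
    left
    obtain ⟨n₀, hn₀⟩ := not_forall.mp hcase
    obtain ⟨hn₀N, hn₀'⟩ := Classical.not_imp.mp hn₀
    obtain ⟨hn₀0, hn₀int⟩ := Classical.not_imp.mp hn₀'
    have hn₀int' : v.Ge 0 (ptX (n₀ : (P.freyCurve⁄Qb).Point)) := not_not.mp hn₀int
    intro σ hσ x hxN
    rcases hdiff σ hσ x with h | h
    · exact h
    · exfalso
      have hdN : σ • x - x ∈ N := N.sub_mem (hN σ x hxN) hxN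
      have hd0 : (⟨σ • x - x, hdN⟩ : N) ≠ 0 := by
        intro h0
        apply h
        have : σ • x - x = 0 := congrArg Subtype.val h0
        rw [this]
        exact Or.inl rfl
      -- `n₀` is a multiple of `d = σ • x - x`
      have hfact : Fact P.p.Prime := ⟨P.pp⟩
      have hmem : (⟨n₀, hn₀N⟩ : N) ∈ AddSubgroup.zmultiples (⟨σ • x - x, hdN⟩ : N) :=
        mem_zmultiples_of_prime_card hcard hd0
      obtain ⟨k, hk⟩ := AddSubgroup.mem_zmultiples_iff.mp hmem
      let φ : N →+ (P.freyCurve⁄Qb).Point :=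
        ((Submodule.torsionBy ℤ (P.freyCurve⁄Qb).Point P.p).subtype.toAddMonoidHom).comp
          N.subtype.toAddMonoidHom
      have hφ : k • φ ⟨σ • x - x, hdN⟩ = φ ⟨n₀, hn₀N⟩ := by
        rw [← map_zsmul, hk]
      have hdker : φ ⟨σ • x - x, hdN⟩ ∈ h66_ker v hW h2 hAi hBi := Or.inr h
      have hn₀ker : φ ⟨n₀, hn₀N⟩ ∈ h66_ker v hW h2 hAi hBi := by
        rw [← hφ]
        exact AddSubgroup.zsmul_mem _ hdker k
      rcases hn₀ker with h0 | h1
      · exact hn₀0 (Subtype.ext h0)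
      · exact h1 hn₀int'

end Fermat.Agent.S13
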