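/-
S13, module C6 (helper92): `node_direction`.

On a node model `y² + xy = x³ + a₂x² + a₄x` (residue characteristic 2, `ord a₄ = m > 0`), a point
`P = (x, y)` with `0 < ord x < m` reduces to the node `(0, 0)`; writing
`y² + xy - a₂x² = (y - t₁x)(y - t₂x)` it lies on exactly one of the two branches
(`y/x ≡ t₁` or `y/x ≡ t₂`).  A ring endomorphism `σ` acting trivially on the residue field keeps
the branch, and then `σP - P` is `0` or has `x`-coordinate outside the maximal ideal.
-/
import Fermat.Agent.S13.Defs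

set_option autoImplicit false
open WeierstrassCurve WeierstrassCurve.Affine WeierstrassCurve.Affine.Point

namespace Fermat.Agent.S13

open Fermat.Agent.S05

section Direction

variable {K : Type*} [Field K]

/-- a root of `t² + t - a` with `a` integral is integral. -/
theorem h92_root_ge (v : OrdFn K) {t s a : K} (hsum : t + s = -1) (hprod : t * s = -a)
    (ha : v.Ge 0 a) : v.Ge 0 t := by
  by_cases ht0 : t = 0
  · exact Or.inl ht0
  refine Or.inr ?_
  by_contra hneg
  rw [not_le] at hneg
  have hta : t * (t + 1) = a := by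
    have hs : s = -1 - t := by linear_combination hsum
    rw [hs] at hprod
    linear_combination -hprod
  have h1 := OrdFn.ord_add_eq_left (v := v) ht0 one_ne_zero (by rw [OrdFn.ord_one]; exact hneg)
  have ha0 : a ≠ 0 := by
    rw [← hta]
    exact mul_ne_zero ht0 h1.1
  have hord : v.ord a = v.ord t + v.ord t := by
    rw [← hta, OrdFn.ord_mul ht0 h1.1, h1.2]
  have := ha.le_ord ha0
  linarith

/-- the branch lemma: if `u - w` has exact order `c` and `u * w` has order `> 2c`, then exactly
one of `u`, `w` has order `c` and the other has order `> c`. -/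
theorem h92_branch_aux (v : OrdFn K) {u w : K} {c : ℚ} (hd : v.HasOrd (u - w) c)
    (huw : v.Gt (2 * c) (u * w)) :
    (v.Gt c u ∧ v.HasOrd w c) ∨ (v.HasOrd u c ∧ v.Gt c w) := by
  by_cases hu0 : u = 0
  · left
    refine ⟨Or.inl hu0, ?_⟩
    have := hd.neg
    rw [hu0] at this
    simpa using this
  by_cases hw0 : w = 0
  · right
    refine ⟨?_, Or.inl hw0⟩
    rw [hw0] at hd
    simpa using hd
  have hsum := huw.lt_ord (mul_ne_zero hu0 hw0)
  rw [OrdFn.ord_mul hu0 hw0] at hsum
  have hnw : -w ≠ 0 := neg_ne_zero.mpr hw0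
  rcases lt_trichotomy (v.ord u) (v.ord w) with hlt | heq | hgt
  · right
    have h1 := OrdFn.ord_add_eq_left (v := v) hu0 hnw (by rw [OrdFn.ord_neg]; exact hlt)
    rw [← sub_eq_add_neg] at h1
    have hc : v.ord u = c := by rw [← h1.2]; exact hd.2
    exact ⟨⟨hu0, hc⟩, Or.inr (by linarith)⟩
  · exfalso
    have h1 := OrdFn.ord_add_ge (v := v) hu0 hnw (by rw [← sub_eq_add_neg]; exact hd.1)
    rw [← sub_eq_add_neg, OrdFn.ord_neg, hd.2, ← heq, min_self] at h1
    linarith
  · left
    have h1 := OrdFn.ord_add_eq_left (v := v) hnw hu0 (by rw [OrdFn.ord_neg]; exact hgt)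
    rw [OrdFn.ord_neg] at h1
    have e : -w + u = u - w := by ring
    rw [e] at h1
    have hc : v.ord w = c := by rw [← h1.2]; exact hd.2
    exact ⟨Or.inr (by linarith), ⟨hw0, hc⟩⟩

/-- a point of a node model with `0 < ord x < m` lies on exactly one branch at the node. -/
theorem h92_branch {W : WeierstrassCurve K} (v : OrdFn K) {m : ℚ} (hW : IsNodeModel v W m)
    {x y : K}
    (heq : W.toAffine.Equation x y) {c : ℚ} (hx : v.HasOrd x c) (hc : 0 < c) (hcm : c < m)
    {t₁ t₂ : K} (ht : t₁ + t₂ = -1) (ht' : t₁ * t₂ = -W.a₂) :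
    (v.Gt c (y - t₁ * x) ∧ v.HasOrd (y - t₂ * x) c) ∨
      (v.HasOrd (y - t₁ * x) c ∧ v.Gt c (y - t₂ * x)) := by
  rw [Affine.equation_iff] at heq
  rw [hW.a₁, hW.a₃, hW.a₆] at heq
  -- `t₂ - t₁` is a unit
  have hsq : (t₂ - t₁) ^ 2 = 1 + 4 * W.a₂ := by
    have e : (t₂ - t₁) ^ 2 = (t₁ + t₂) ^ 2 - 4 * (t₁ * t₂) := by ring
    rw [e, ht, ht']
    ring
  have hdne : t₂ - t₁ ≠ 0 := by
    intro h0
    have := hW.b₂.1
    rw [← hsq, h0] at this
    simp at this
  have hdord : v.HasOrd (t₂ - t₁) 0 := by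
    refine ⟨hdne, ?_⟩
    have h1 := OrdFn.ord_pow (v := v) hdne 2
    rw [hsq, hW.b₂.2] at h1
    push_cast at h1
    linarith
  have hd : v.HasOrd ((y - t₁ * x) - (y - t₂ * x)) c := by
    have e : (y - t₁ * x) - (y - t₂ * x) = (t₂ - t₁) * x := by ring
    rw [e]
    exact (hdord.mul hx).congr (by ring)
  have hprod : (y - t₁ * x) * (y - t₂ * x) = x * (x ^ 2 + W.a₄) := by
    have e : (y - t₁ * x) * (y - t₂ * x) = y ^ 2 - (t₁ + t₂) * (x * y) + t₁ * t₂ * x ^ 2 := by
      ring
    rw [e, ht, ht']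
    linear_combination heq
  have hx2 : v.Gt c (x ^ 2) := by
    refine (hx.pow 2).gt ?_
    push_cast
    linarith
  have ha4 : v.Gt c W.a₄ := hW.a₄.gt hcm
  have huw : v.Gt (2 * c) ((y - t₁ * x) * (y - t₂ * x)) := by
    rw [hprod]
    exact ((hx.ge le_rfl).mul_gt (hx2.add ha4)).mono (by linarith)
  exact h92_branch_aux v hd huw

variable [DecidableEq K] {W : WeierstrassCurve K}

/-- C6: a point reducing to the node (`0 < ord x < m`) and its conjugate under an inertia element
lie on the same branch, so their difference has `x ∉ 𝔪`. -/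
theorem node_direction (v : OrdFn K) {m : ℚ} (hW : IsNodeModel v W m) {P P' : W.toAffine.Point}
    (σ : K →+* K) (hσord : ∀ x, v.ord (σ x) = v.ord x)
    (hσres : ∀ x, v.Ge 0 x → v.Gt 0 (σ x - x))
    (hX : rawX P' = σ (rawX P)) (hY : rawY P' = σ (rawY P))
    (hxP : rawX P ≠ 0) (hpos : 0 < v.ord (rawX P)) (hlt : v.ord (rawX P) < m)
    (t₁ t₂ : K) (ht : t₁ + t₂ = -1) (ht' : t₁ * t₂ = -W.a₂) :
    P' = P ∨ ¬ v.Gt 0 (rawX (P' - P)) := by
  rcases P with _ | ⟨x, y, h⟩
  · exact absurd rfl hxP
  rcases P' with _ | ⟨x', y', h'⟩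
  · exfalso
    simp only [rawX] at hX hxP
    exact hxP ((map_eq_zero σ).mp hX.symm)
  simp only [rawX, rawY] at hX hY hxP hpos hlt
  -- notation
  set c : ℚ := v.ord x with hc
  have hxc : v.HasOrd x c := ⟨hxP, rfl⟩
  have hx'0 : x' ≠ 0 := by rw [hX]; exact (map_ne_zero σ).mpr hxP
  have hx'c : v.HasOrd x' c := ⟨hx'0, by rw [hX, hσord]⟩
  have ht₁ : v.Ge 0 t₁ := h92_root_ge v ht ht' hW.a₂
  have ht₂ : v.Ge 0 t₂ := h92_root_ge v (by rw [add_comm]; exact ht) (by rw [mul_comm]; exact ht') hW.a₂
  have hb := h92_branch v hW h.1 hxc hpos hlt ht ht'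
  have hb' := h92_branch v hW h'.1 hx'c hpos hlt ht ht'
  -- `y / x` is integral and `σ` moves it by an element of `𝔪`
  have hyc : v.Ge c y := by
    have hu : v.Ge c (y - t₁ * x) := by
      rcases hb with hb | hb
      · exact hb.1.ge
      · exact hb.1.ge le_rfl
    have htx : v.Ge c (t₁ * x) := (ht₁.mul (hxc.ge le_rfl)).mono (by linarith)
    have e : y = (y - t₁ * x) + t₁ * x := by ring
    rw [e]
    exact hu.add htx
  have hr : v.Ge 0 (y / x) := by
    have e : y = y / x * x := by field_simp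
    rw [e] at hyc
    exact (hyc.of_hasOrd_mul hxc).mono (by linarith)
  have hσr : v.Gt 0 (y' / x' - y / x) := by
    have := hσres (y / x) hr
    rwa [map_div₀, ← hX, ← hY] at this
  -- transfer of "order > c" along `σ`, for `y - t x`
  have key : ∀ t : K, v.Gt c (y - t * x) → v.Gt c (y' - t * x') := by
    intro t hu
    have h1 : v.Gt 0 ((y - t * x) / x) := by
      have e : y - t * x = (y - t * x) / x * x := by field_simp
      rw [e] at hu
      exact (hu.of_hasOrd_mul hxc).mono (by linarith)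
    have h2 : v.Gt 0 ((y' - t * x') / x') := by
      have e : (y' - t * x') / x' = (y - t * x) / x + (y' / x' - y / x) := by
        field_simp
        ring
      rw [e]
      exact h1.add hσr
    have e : y' - t * x' = (y' - t * x') / x' * x' := by field_simp
    rw [e]
    exact (h2.mul_ge (hx'c.ge le_rfl)).mono (by linarith)
  -- the two numerators have exact order `c`
  have hN : v.HasOrd ((y' - t₁ * x') + (y - t₂ * x)) c ∧
      v.HasOrd ((y' - t₂ * x') + (y - t₁ * x)) c := by
    rcases hb with ⟨hu, hw⟩ | ⟨hu, hw⟩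
    · have hu' := key t₁ hu
      have hw' : v.HasOrd (y' - t₂ * x') c := by
        rcases hb' with hb' | hb'
        · exact hb'.2
        · exfalso
          rcases hu' with h0 | h0
          · exact hb'.1.1 h0
          · rw [hb'.1.2] at h0
            exact lt_irrefl _ h0
      exact ⟨hw.gt_add hu', hw'.add_gt hu⟩
    · have hw' := key t₂ hw
      have hu' : v.HasOrd (y' - t₁ * x') c := by
        rcases hb' with hb' | hb'
        · exfalso
          rcases hw' with h0 | h0
          · exact hb'.2.1 h0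
          · rw [hb'.2.2] at h0
            exact lt_irrefl _ h0
        · exact hb'.1
      exact ⟨hu'.add_gt hw, hu.gt_add hw'⟩
  by_cases hxx : x' = x
  · -- same `x`: then `y' = y`
    left
    rcases Y_eq_of_X_eq h'.1 h.1 hxx with hy | hy
    · subst hxx
      subst hy
      rfl
    · exfalso
      apply hN.1.1
      rw [hy, hxx]
      simp only [negY, hW.a₁, hW.a₃]
      have e : t₂ = -1 - t₁ := by linear_combination ht
      rw [e]
      ring
  · right
    have hD0 : x' - x ≠ 0 := sub_ne_zero.mpr hxx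
    have hDge : v.Ge c (x' - x) := (hx'c.ge le_rfl).sub (hxc.ge le_rfl)
    have hDle : c ≤ v.ord (x' - x) := hDge.le_ord hD0
    have hD : v.HasOrd (x' - x) (v.ord (x' - x)) := ⟨hD0, rfl⟩
    rw [sub_eq_add_neg, Point.neg_some, add_of_X_ne hxx]
    simp only [rawX]
    rw [slope_of_X_ne hxx, addX, negY, hW.a₁, hW.a₃]
    have e : ((y' - (-y - 1 * x - 0)) / (x' - x)) ^ 2 + 1 * ((y' - (-y - 1 * x - 0)) / (x' - x))
        - W.toAffine.a₂ - x' - x =
        ((y' - t₁ * x') + (y - t₂ * x)) * ((y' - t₂ * x') + (y - t₁ * x)) / (x' - x) ^ 2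
          - (x' + x) := by
      have e2 : t₂ = -1 - t₁ := by linear_combination ht
      have ha : W.toAffine.a₂ = t₁ * (1 + t₁) := by
        have : W.a₂ = -(t₁ * t₂) := by rw [ht']; ring
        rw [show W.toAffine.a₂ = W.a₂ from rfl, this, e2]
        ring
      rw [ha, e2]
      field_simp
      ring
    rw [e]
    have hmain := ((hN.1.mul hN.2).div (hD.pow 2)).sub_gt
      (y := x' + x) (((hx'c.ge le_rfl).add (hxc.ge le_rfl)).gt_of_lt (by push_cast; linarith))
    intro hgt
    rcases hgt with h0 | h0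
    · exact hmain.1 h0
    · rw [hmain.2] at h0
      push_cast at h0
      linarith

end Direction

end Fermat.Agent.S13
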