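import Fermat.Agent.S13.Global

/-!
S13 / S14 shared, module GLOBALDEC (helper27): decomposition-group companions of the lifting
lemma of `Global.lean`, and field-level packaged versions of both liftings.

* `glob_mem_decomposition_of_int` : an automorphism stabilising the prime `glob_prime A` of the
  ring of algebraic integers lies in the decomposition subgroup of `A`;
* `glob_smul_mem_prime_iff_of_decomposition` : the converse;
* `glob_exists_lift_dec` : if `τ` preserves `Q ∩ R₀` (`R₀` = ring of `H`-invariants) then some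
  `h * τ`, `h ∈ H`, stabilises `Q`;
* `glob_exists_decomposition_lift_field`, `glob_exists_inertia_lift_field` : the same for
  `H = Gal(ℚ̄/F₀)`, `F₀` any intermediate field, with hypotheses stated on elements of `F₀`.
-/

set_option autoImplicit false

open scoped Pointwise NumberField

namespace Fermat.Agent.S13

section Qbar

local notation "Qb" => AlgebraicClosure ℚ
local notation "OQb" => integralClosure ℤ (AlgebraicClosure ℚ)
local notation "GQ" => AlgebraicClosure ℚ ≃ₐ[ℚ] AlgebraicClosure ℚ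

attribute [local instance] Fermat.Agent.S54.h96_isAlgClosure_rat
  Fermat.Agent.S54.h96_galActionInt Fermat.Agent.S54.h96_galActionInt_smulCommClass

/-- **Decomposition criterion on algebraic integers**: an automorphism that stabilises the
prime `glob_prime A` lies in the decomposition subgroup of `A`. -/
theorem glob_mem_decomposition_of_int (A : ValuationSubring Qb) (l : ℕ) (hl : l.Prime)
    (hlA : A.LiesOverPrime l) (σ : GQ)
    (hstab : ∀ b : OQb, σ • b ∈ glob_prime A ↔ b ∈ glob_prime A) :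
    σ ∈ A.decompositionSubgroup ℚ := by
  have hstab' : ∀ b : OQb, σ⁻¹ • b ∈ glob_prime A ↔ b ∈ glob_prime A := by
    intro b
    rw [← hstab (σ⁻¹ • b), smul_inv_smul]
  rw [MulAction.mem_stabilizer_iff]
  ext x
  rw [ValuationSubring.mem_pointwise_smul_iff_inv_smul_mem]
  constructor
  · intro hx
    have := glob_map_mem A l hl hlA σ hstab _ hx
    rwa [AlgEquiv.smul_def, ← AlgEquiv.mul_apply, mul_inv_cancel, AlgEquiv.one_apply] at this
  · intro hx
    exact glob_map_mem A l hl hlA σ⁻¹ hstab' x hx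

/-- Elements of the decomposition subgroup preserve the non-units of `A`. -/
theorem glob_map_mem_nonunits_of_decomposition (A : ValuationSubring Qb) (σ : GQ)
    (hσ : σ ∈ A.decompositionSubgroup ℚ) (x : Qb) (hx : x ∈ A.nonunits) : σ x ∈ A.nonunits := by
  by_cases hx0 : x = 0
  · rw [hx0, map_zero]
    exact (ValuationSubring.mem_nonunits_iff A).mpr (by simp)
  have hσinv : σ⁻¹ ∈ A.decompositionSubgroup ℚ := (A.decompositionSubgroup ℚ).inv_mem hσ
  have hlt : A.valuation x < 1 := (ValuationSubring.mem_nonunits_iff A).mp hx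
  rw [ValuationSubring.mem_nonunits_iff]
  by_contra hnot
  rw [not_lt] at hnot
  have hσx0 : σ x ≠ 0 := by
    rw [Ne, map_eq_zero_iff σ σ.injective]; exact hx0
  -- `(σ x)⁻¹ ∈ A`, hence `x⁻¹ = σ⁻¹ ((σ x)⁻¹) ∈ A`
  have h1 : (σ x)⁻¹ ∈ A := by
    rw [← ValuationSubring.valuation_le_one_iff, map_inv₀]
    exact inv_le_one_of_one_le₀ hnot
  have h2 : σ⁻¹ ((σ x)⁻¹) ∈ A := (A.subMulAction ℚ).smul_mem ⟨σ⁻¹, hσinv⟩ h1
  have h3 : σ⁻¹ ((σ x)⁻¹) = x⁻¹ := by
    rw [map_inv₀]
    congr 1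
    show σ.symm (σ x) = x
    exact σ.symm_apply_apply x
  rw [h3, ← ValuationSubring.valuation_le_one_iff, map_inv₀] at h2
  have hx0' : A.valuation x ≠ 0 := (Valuation.ne_zero_iff _).mpr hx0
  have h4 : 1 ≤ A.valuation x := (inv_le_one₀ (pos_iff_ne_zero.mpr hx0')).mp h2
  exact absurd hlt (not_lt.mpr h4)

/-- Converse of `glob_mem_decomposition_of_int`. -/
theorem glob_smul_mem_prime_iff_of_decomposition (A : ValuationSubring Qb) (σ : GQ)
    (hσ : σ ∈ A.decompositionSubgroup ℚ) (b : OQb) :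
    σ • b ∈ glob_prime A ↔ b ∈ glob_prime A := by
  have hσinv : σ⁻¹ ∈ A.decompositionSubgroup ℚ := (A.decompositionSubgroup ℚ).inv_mem hσ
  rw [glob_mem_prime_iff, glob_mem_prime_iff, Fermat.Agent.S54.h96_galActionInt_coe]
  constructor
  · intro h
    have := glob_map_mem_nonunits_of_decomposition A σ⁻¹ hσinv _ h
    have e : σ⁻¹ (σ (b : Qb)) = (b : Qb) := σ.symm_apply_apply _
    rwa [e] at this
  · exact glob_map_mem_nonunits_of_decomposition A σ hσ _

/-- **Lifting lemma, decomposition version.**  Let `H` be a closed subgroup of `Gal(ℚ̄/ℚ)` and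
`R₀ → ℤ̄` a ring whose image is the ring of `H`-invariants.  If `τ` preserves `Q ∩ R₀`, then
some `h * τ` with `h ∈ H` stabilises `Q`. -/
theorem glob_exists_lift_dec (H : Subgroup GQ) (hH : IsClosed (H : Set GQ))
    {R₀ : Type*} [CommRing R₀] [Algebra R₀ OQb] [SMulCommClass ↥H R₀ OQb]
    [Algebra.IsInvariant R₀ OQb ↥H]
    (Q : Ideal OQb) [Q.IsPrime] (τ : GQ)
    (hτ : ∀ a : R₀, τ⁻¹ • algebraMap R₀ OQb a ∈ Q ↔ algebraMap R₀ OQb a ∈ Q) :
    ∃ h ∈ H, ∀ b : OQb, (h * τ) • b ∈ Q ↔ b ∈ Q := by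
  let _ : TopologicalSpace OQb := ⊥
  have : DiscreteTopology OQb := ⟨rfl⟩
  have : CompactSpace ↥H := isCompact_iff_compactSpace.mp hH.isCompact
  have : ContinuousSMul ↥H OQb := by
    rw [continuousSMul_iff_stabilizer_isOpen]
    intro b
    have h1 : IsOpen (MulAction.stabilizer GQ (b : Qb) : Set GQ) :=
      stabilizer_isOpen_of_isIntegral (b : Qb)
    have h2 : (MulAction.stabilizer ↥H b : Set ↥H) =
        Subtype.val ⁻¹' (MulAction.stabilizer GQ (b : Qb) : Set GQ) := by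
      ext g
      simp only [SetLike.mem_coe, MulAction.mem_stabilizer_iff, Set.mem_preimage]
      exact Subtype.ext_iff
    rw [h2]
    exact h1.preimage continuous_subtype_val
  have hunder : (τ • Q).under R₀ = Q.under R₀ := by
    ext a
    rw [Ideal.under_def, Ideal.under_def, Ideal.mem_comap, Ideal.mem_comap,
      Ideal.mem_pointwise_smul_iff_inv_smul_mem]
    exact hτ a
  obtain ⟨g₁, hg₁⟩ := Algebra.IsInvariant.exists_smul_of_under_eq_of_profinite (A := R₀)
    (G := ↥H) (τ • Q) Q hunder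
  have hσ₁Q : ((g₁ : GQ) * τ) • Q = Q := by
    rw [mul_smul]
    exact hg₁.symm
  refine ⟨g₁, g₁.2, fun b => ?_⟩
  conv_lhs => rw [← hσ₁Q]
  exact Ideal.smul_mem_pointwise_smul_iff

/-- The algebraic integers lying in an intermediate field `F₀`, as a subring of `ℤ̄`. -/
def glob_fieldInt (F₀ : IntermediateField ℚ Qb) : Subring OQb where
  carrier := {b | (b : Qb) ∈ F₀}
  mul_mem' ha hb := F₀.mul_mem ha hb
  one_mem' := F₀.one_mem
  add_mem' ha hb := F₀.add_mem ha hb
  zero_mem' := F₀.zero_mem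
  neg_mem' ha := F₀.neg_mem ha

theorem glob_mem_fieldInt (F₀ : IntermediateField ℚ Qb) (b : OQb) :
    b ∈ glob_fieldInt F₀ ↔ (b : Qb) ∈ F₀ := Iff.rfl

/-- `Gal(ℚ̄/F₀)` commutes with multiplication by integers of `F₀`. -/
theorem glob_fieldInt_smulCommClass (F₀ : IntermediateField ℚ Qb) :
    SMulCommClass ↥F₀.fixingSubgroup ↥(glob_fieldInt F₀) OQb :=
  ⟨fun h a b => by
    apply Subtype.ext
    show (h : GQ) (((a : OQb) : Qb) * (b : Qb)) = ((a : OQb) : Qb) * (h : GQ) (b : Qb)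
    rw [map_mul]
    congr 1
    exact (IntermediateField.mem_fixingSubgroup_iff F₀ (h : GQ)).mp h.2 _ a.2⟩

/-- The `Gal(ℚ̄/F₀)`-invariant algebraic integers are the integers of `F₀`. -/
theorem glob_fieldInt_isInvariant (F₀ : IntermediateField ℚ Qb) :
    Algebra.IsInvariant ↥(glob_fieldInt F₀) OQb ↥F₀.fixingSubgroup :=
  ⟨fun b hb => by
    have hbF : (b : Qb) ∈ IntermediateField.fixedField F₀.fixingSubgroup := by
      rw [IntermediateField.mem_fixedField_iff]
      intro g hg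
      exact congrArg Subtype.val (hb ⟨g, hg⟩)
    rw [InfiniteGalois.fixedField_fixingSubgroup] at hbF
    exact ⟨⟨b, hbF⟩, rfl⟩⟩

/-- **Field-level decomposition lifting.**  Let `F₀ ⊆ ℚ̄` be an intermediate field and `τ` an
automorphism of `ℚ̄` mapping `F₀` onto itself.  If `τ` preserves the prime of the integers of
`F₀` below `A`, then `h * τ` lies in the decomposition group of `A` for some `h ∈ Gal(ℚ̄/F₀)`. -/
theorem glob_exists_decomposition_lift_field (F₀ : IntermediateField ℚ Qb)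
    (A : ValuationSubring Qb) (l : ℕ) (hl : l.Prime) (hlA : A.LiesOverPrime l) (τ : GQ)
    (hτF : ∀ x : Qb, τ x ∈ F₀ ↔ x ∈ F₀)
    (hτ : ∀ x : Qb, x ∈ F₀ → IsIntegral ℤ x → (τ x ∈ A.nonunits ↔ x ∈ A.nonunits)) :
    ∃ h ∈ F₀.fixingSubgroup, h * τ ∈ A.decompositionSubgroup ℚ := by
  have hclosed : IsClosed (F₀.fixingSubgroup : Set GQ) := InfiniteGalois.fixingSubgroup_isClosed F₀
  have := glob_fieldInt_smulCommClass F₀
  have := glob_fieldInt_isInvariant F₀
  obtain ⟨h, hh, hstab⟩ := glob_exists_lift_dec F₀.fixingSubgroup hclosed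
    (R₀ := ↥(glob_fieldInt F₀)) (glob_prime A) τ (by
      intro a
      -- `y = τ⁻¹ a` is an integer of `F₀` with `τ y = a`
      have hy : τ (τ⁻¹ ((a : OQb) : Qb)) = ((a : OQb) : Qb) := τ.apply_symm_apply _
      have hyF : τ⁻¹ ((a : OQb) : Qb) ∈ F₀ := (hτF _).mp (by rw [hy]; exact a.2)
      have hyint : IsIntegral ℤ (τ⁻¹ ((a : OQb) : Qb)) := map_isIntegral_int τ⁻¹ (a : OQb).2
      have := hτ _ hyF hyint
      rw [hy] at this
      show τ⁻¹ • (a : OQb) ∈ glob_prime A ↔ (a : OQb) ∈ glob_prime A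
      rw [glob_mem_prime_iff, glob_mem_prime_iff, Fermat.Agent.S54.h96_galActionInt_coe]
      exact this.symm)
  exact ⟨h, hh, glob_mem_decomposition_of_int A l hl hlA (h * τ) hstab⟩

/-- **Field-level inertia lifting.**  Let `F₀ ⊆ ℚ̄` be an intermediate field and `τ` an
automorphism of `ℚ̄` mapping `F₀` onto itself.  If `τ x - x` is a non-unit of `A` for every
integer `x` of `F₀`, then `h * τ` lies in the inertia group of `A` for some
`h ∈ Gal(ℚ̄/F₀)`. -/
theorem glob_exists_inertia_lift_field (F₀ : IntermediateField ℚ Qb)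
    (A : ValuationSubring Qb) (l : ℕ) (hl : l.Prime) (hlA : A.LiesOverPrime l) (τ : GQ)
    (hτF : ∀ x : Qb, τ x ∈ F₀ ↔ x ∈ F₀)
    (hτ : ∀ x : Qb, x ∈ F₀ → IsIntegral ℤ x → τ x - x ∈ A.nonunits) :
    ∃ h ∈ F₀.fixingSubgroup, h * τ ∈ A.inertiaSubgroupIn ℚ := by
  have hclosed : IsClosed (F₀.fixingSubgroup : Set GQ) := InfiniteGalois.fixingSubgroup_isClosed F₀
  have := glob_fieldInt_smulCommClass F₀
  have := glob_fieldInt_isInvariant F₀
  have hτF' : ∀ x : Qb, τ⁻¹ x ∈ F₀ ↔ x ∈ F₀ := by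
    intro x
    rw [← hτF (τ⁻¹ x)]
    have e : τ (τ⁻¹ x) = x := τ.apply_symm_apply x
    rw [e]
  have hτ' : ∀ x : Qb, x ∈ F₀ → IsIntegral ℤ x → τ⁻¹ x - x ∈ A.nonunits := by
    intro x hx hxint
    have e : τ (τ⁻¹ x) = x := τ.apply_symm_apply x
    have h1 := hτ (τ⁻¹ x) ((hτF' x).mpr hx) (map_isIntegral_int τ⁻¹ hxint)
    rw [e] at h1
    have h2 : τ⁻¹ x - x = -(x - τ⁻¹ x) := by ring
    rw [h2, ValuationSubring.mem_nonunits_iff, Valuation.map_neg]
    exact (ValuationSubring.mem_nonunits_iff A).mp h1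
  have hkey : ∀ ρ : GQ, (∀ x : Qb, ρ x ∈ F₀ ↔ x ∈ F₀) →
      (∀ x : Qb, x ∈ F₀ → IsIntegral ℤ x → ρ x - x ∈ A.nonunits) →
      ∀ a : ↥(glob_fieldInt F₀), ∃ c : ↥(glob_fieldInt F₀),
        algebraMap ↥(glob_fieldInt F₀) OQb c ∈ glob_prime A ∧
        ρ • algebraMap ↥(glob_fieldInt F₀) OQb a - algebraMap ↥(glob_fieldInt F₀) OQb a =
          algebraMap ↥(glob_fieldInt F₀) OQb c := by
    intro ρ hρF hρ a
    refine ⟨⟨ρ • (a : OQb) - (a : OQb), ?_⟩, ?_, rfl⟩
    · show ρ ((a : OQb) : Qb) - ((a : OQb) : Qb) ∈ F₀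
      exact F₀.sub_mem ((hρF _).mpr a.2) a.2
    · show ρ • (a : OQb) - (a : OQb) ∈ glob_prime A
      rw [glob_mem_prime_iff]
      exact hρ _ a.2 (a : OQb).2
  obtain ⟨h, hh, hstab, hin⟩ := glob_exists_lift F₀.fixingSubgroup hclosed
    (R₀ := ↥(glob_fieldInt F₀)) (glob_prime A) τ (hkey τ hτF hτ) (hkey τ⁻¹ hτF' hτ')
  exact ⟨h, hh, glob_mem_inertia_of_int A l hl hlA (h * τ) hstab hin⟩

end Qbar

end Fermat.Agent.S13
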