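import Fermat.Agent.S13.Global

/-!
S13 / S14 shared, module GLOBALOVER (helper27): existence of valuation subrings of `ℚ̄` with a
prescribed centre.

* `glob_exists_valuationSubring_of_maximal` : every maximal ideal `Q` of the ring of algebraic
  integers is `glob_prime A` for some valuation subring `A` of `ℚ̄`;
* `glob_exists_valuationSubring_over_ideal` : every maximal ideal of a ring `R₀` over which `ℤ̄` is
  integral (e.g. via an injective map) is the contraction of some `glob_prime A`;
* `exists_valuationSubring_over` : every nonzero prime `v` of the ring of integers of a number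
  field `K₀ ⊆ ℚ̄` is `(glob_prime A).comap (glob_iota K₀)` for some `A`;
* `glob_liesOverPrime_of_natCast_mem` : `A.LiesOverPrime l` as soon as `(l : ℤ̄) ∈ glob_prime A`.
-/

set_option autoImplicit false

open scoped Pointwise NumberField

namespace Fermat.Agent.S13

section Qbar

local notation "Qb" => AlgebraicClosure ℚ
local notation "OQb" => integralClosure ℤ (AlgebraicClosure ℚ)
local notation "GQ" => AlgebraicClosure ℚ ≃ₐ[ℚ] AlgebraicClosure ℚ

attribute [local instance] Fermat.Agent.S54.h96_isAlgClosure_rat
  Fermat.Agent.S54.h96_galActionInt Fermat.Agent.S54.h96_galActionInt_smulCommClass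

/-- Every maximal ideal of the ring of algebraic integers is the centre of a valuation subring
of `ℚ̄`. -/
theorem glob_exists_valuationSubring_of_maximal (Q : Ideal OQb) [hQ : Q.IsMaximal] :
    ∃ A : ValuationSubring Qb, glob_prime A = Q := by
  obtain ⟨V, hBV, hQV⟩ :=
    Ideal.image_subset_nonunits_valuationSubring (A := (OQb).toSubring) Q hQ.ne_top
  have hBV' : ∀ b : OQb, (b : Qb) ∈ V := fun b => hBV b.2
  have hQV1 : ∀ b : OQb, b ∈ Q → (b : Qb) ∈ V.nonunits := fun b hb => hQV ⟨b, hb, rfl⟩
  refine ⟨V, ?_⟩
  ext b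
  rw [glob_mem_prime_iff]
  refine ⟨fun hmem => ?_, hQV1 b⟩
  by_contra hb
  obtain ⟨y, i, hi, hyi⟩ := hQ.exists_inv hb
  have h1 : (y : Qb) * (b : Qb) + (i : Qb) = 1 := by
    have := congrArg (Subtype.val) hyi
    simpa using this
  have h2 : V.valuation ((y : Qb) * (b : Qb) + (i : Qb)) < 1 := by
    apply Valuation.map_add_lt
    · rw [map_mul]
      calc V.valuation (y : Qb) * V.valuation (b : Qb) ≤ 1 * V.valuation (b : Qb) := by
            gcongr
            exact (ValuationSubring.valuation_le_one_iff V _).mpr (hBV' y)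
        _ < 1 := by rw [one_mul]; exact (ValuationSubring.mem_nonunits_iff V).mp hmem
    · exact (ValuationSubring.mem_nonunits_iff V).mp (hQV1 i hi)
  rw [h1, map_one] at h2
  exact lt_irrefl _ h2

/-- `A` lies over the rational prime `l` as soon as `l` belongs to `glob_prime A`. -/
theorem glob_liesOverPrime_of_natCast_mem (A : ValuationSubring Qb) (l : ℕ)
    (h : (l : OQb) ∈ glob_prime A) : A.LiesOverPrime l := by
  have h1 := (glob_mem_prime_iff A (l : OQb)).mp h
  have h2 : (((l : OQb) : OQb) : Qb) = (l : Qb) := by simp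
  rw [h2] at h1
  exact h1

/-- Contraction form: if `ℤ̄` is integral over (the image of) `R₀`, every maximal ideal of `R₀`
containing the kernel is the contraction of the centre of a valuation subring of `ℚ̄`. -/
theorem glob_exists_valuationSubring_over_ideal {R₀ : Type*} [CommRing R₀] (φ : R₀ →+* OQb)
    (hφ : φ.IsIntegral) (v : Ideal R₀) [hv : v.IsMaximal] (hker : RingHom.ker φ ≤ v) :
    ∃ A : ValuationSubring Qb, (glob_prime A).comap φ = v := by
  let _ : Algebra R₀ OQb := φ.toAlgebra
  have : Algebra.IsIntegral R₀ OQb := ⟨hφ⟩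
  obtain ⟨Q, hQmax, hQv⟩ := Ideal.exists_ideal_over_maximal_of_isIntegral (S := OQb) v hker
  obtain ⟨A, hA⟩ := glob_exists_valuationSubring_of_maximal Q
  exact ⟨A, by rw [hA]; exact hQv⟩

end Qbar

section NumberField

open NumberField

local notation "Qb" => AlgebraicClosure ℚ
local notation "OQb" => integralClosure ℤ (AlgebraicClosure ℚ)

/-- `glob_iota K₀` is injective. -/
theorem glob_iota_injective (K₀ : IntermediateField ℚ Qb) :
    Function.Injective (glob_iota K₀) := by
  intro x y hxy
  have h := congrArg (fun b : OQb => (b : Qb)) hxy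
  simp only [glob_iota_coe] at h
  exact RingOfIntegers.ext (Subtype.ext h)

/-- `ℤ̄` is integral over the ring of integers of any subfield. -/
theorem glob_iota_isIntegral (K₀ : IntermediateField ℚ Qb) : (glob_iota K₀).IsIntegral := by
  intro b
  have hb : IsIntegral ℤ b := by
    have h := b.2
    exact (isIntegral_algebraMap_iff (B := Qb)
      (show Function.Injective (algebraMap OQb Qb) from Subtype.val_injective)).mp h
  obtain ⟨P, hP, hPb⟩ := hb
  refine ⟨P.map (algebraMap ℤ (𝓞 K₀)), hP.map _, ?_⟩
  rw [Polynomial.eval₂_map]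
  have e : (glob_iota K₀).comp (algebraMap ℤ (𝓞 K₀)) = algebraMap ℤ OQb := RingHom.ext_int _ _
  rw [e]
  exact hPb

/-- **Every nonzero prime of a number field `K₀ ⊆ ℚ̄` lies under a valuation subring of `ℚ̄`.** -/
theorem exists_valuationSubring_over (K₀ : IntermediateField ℚ Qb) [NumberField K₀]
    (v : Ideal (𝓞 K₀)) [v.IsPrime] (hv : v ≠ ⊥) :
    ∃ A : ValuationSubring Qb, (glob_prime A).comap (glob_iota K₀) = v := by
  have : v.IsMaximal := Ring.DimensionLEOne.maximalOfPrime hv inferInstance
  refine glob_exists_valuationSubring_over_ideal (glob_iota K₀) (glob_iota_isIntegral K₀) v ?_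
  rw [(RingHom.injective_iff_ker_eq_bot _).mp (glob_iota_injective K₀)]
  exact bot_le

/-- Variant with the residue characteristic: if `l ∈ v` then `A` lies over `l`. -/
theorem exists_valuationSubring_over_liesOver (K₀ : IntermediateField ℚ Qb) [NumberField K₀]
    (v : Ideal (𝓞 K₀)) [v.IsPrime] (hv : v ≠ ⊥) (l : ℕ) (hl : (l : 𝓞 K₀) ∈ v) :
    ∃ A : ValuationSubring Qb, (glob_prime A).comap (glob_iota K₀) = v ∧ A.LiesOverPrime l := by
  obtain ⟨A, hA⟩ := exists_valuationSubring_over K₀ v hv
  refine ⟨A, hA, glob_liesOverPrime_of_natCast_mem A l ?_⟩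
  have h1 : (l : 𝓞 K₀) ∈ (glob_prime A).comap (glob_iota K₀) := by rw [hA]; exact hl
  rw [Ideal.mem_comap, map_natCast] at h1
  exact h1

end NumberField

end Fermat.Agent.S13
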